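import Fermat.Agent.ND.Swap

/-!
# [ND-LL-DIM] dimension of the spaces of glued sections (only the special fibre: `k`, `Fb`)

All proofs are copies of `SS/Abs/MatchDim.lean` (`finite_Msub`, `finrank_Msub`, `evL`,
`evL_surjective`, `ker_evL`) with the chart divisors `X₁ a b`, `X₂ a b` replaced by arbitrary
divisors avoiding the nodes.
-/

set_option autoImplicit false

open AlgebraicCurve

namespace Fermat.Agent.ND

open Fermat.Agent.RED Fermat.Agent.S24 Fermat.Agent.SS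

variable {K F k Fb : Type*} [Field K] [Field F] [Algebra K F] [Field k] [Field Fb] [Algebra k Fb]
variable {T : TwoRed K F k Fb} {𝒩 : NodalData T} [IsAlgClosed k] {t : Fb}

/-- the gluing conditions -/
noncomputable def glueLL (hb : IsSepParam k t) {E₁ E₂ : Divisor k Fb}
    (h₁ : Off₁ 𝒩 E₁) (h₂ : Off₂ 𝒩 E₂) :
    riemannRochSpace E₁ × riemannRochSpace E₂ →ₗ[k] (𝒩.S → k) where
  toFun p s := evL hb 𝒩.x₁ E₁ h₁ p.1 s - evL hb 𝒩.x₂ E₂ h₂ p.2 s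
  map_add' p q := by
    ext s
    simp only [Prod.fst_add, Prod.snd_add, map_add, Pi.add_apply]
    ring
  map_smul' e p := by
    ext s
    simp only [Prod.smul_fst, Prod.smul_snd, map_smul, Pi.smul_apply, smul_eq_mul,
      RingHom.id_apply]
    ring

/-- the inclusion `L(E₁) × L(E₂) → Fb × Fb` -/
noncomputable def inclLL (E₁ E₂ : Divisor k Fb) :
    riemannRochSpace E₁ × riemannRochSpace E₂ →ₗ[k] Fb × Fb :=
  LinearMap.prodMap (riemannRochSpace E₁).subtype (riemannRochSpace E₂).subtype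

omit [IsAlgClosed k] in
theorem inclLL_injective (E₁ E₂ : Divisor k Fb) : Function.Injective (inclLL E₁ E₂) := by
  intro p q h
  have h1 : (p.1 : Fb) = q.1 := congrArg Prod.fst h
  have h2 : (p.2 : Fb) = q.2 := congrArg Prod.snd h
  exact Prod.ext (Subtype.ext h1) (Subtype.ext h2)

theorem LL_eq_map (hb : IsSepParam k t) {E₁ E₂ : Divisor k Fb}
    (h₁ : Off₁ 𝒩 E₁) (h₂ : Off₂ 𝒩 E₂) :
    LL 𝒩 E₁ E₂ = (LinearMap.ker (glueLL hb h₁ h₂)).map (inclLL E₁ E₂) := by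
  ext w
  rw [Submodule.mem_map]
  constructor
  · rintro ⟨h1, h2, h3⟩
    refine ⟨(⟨w.1, h1⟩, ⟨w.2, h2⟩), ?_, rfl⟩
    rw [LinearMap.mem_ker]
    ext s
    obtain ⟨c, hc1, hc2⟩ := h3 s
    have e1 := (hasVal_evL hb 𝒩.x₁ E₁ h₁ ⟨w.1, h1⟩ s).unique hc1
    have e2 := (hasVal_evL hb 𝒩.x₂ E₂ h₂ ⟨w.2, h2⟩ s).unique hc2
    show evL hb 𝒩.x₁ E₁ h₁ ⟨w.1, h1⟩ s - evL hb 𝒩.x₂ E₂ h₂ ⟨w.2, h2⟩ s = 0
    rw [e1, e2, sub_self]
  · rintro ⟨p, hp, rfl⟩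
    refine ⟨p.1.2, p.2.2, fun s => ⟨evL hb 𝒩.x₂ E₂ h₂ p.2 s, ?_, hasVal_evL hb 𝒩.x₂ E₂ h₂ p.2 s⟩⟩
    rw [LinearMap.mem_ker] at hp
    have h1 : evL hb 𝒩.x₁ E₁ h₁ p.1 s - evL hb 𝒩.x₂ E₂ h₂ p.2 s = 0 := congrFun hp s
    rw [← sub_eq_zero.1 h1]
    exact hasVal_evL hb 𝒩.x₁ E₁ h₁ p.1 s

theorem evL₁_surjective (hb : IsSepParam k t) {n : ℕ} (hn : 𝒩.IsLarge n) {E₁ : Divisor k Fb}
    (h₁ : Off₁ 𝒩 E₁) (d₁ : (n : ℤ) ≤ Divisor.degree E₁) :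
    Function.Surjective (evL hb 𝒩.x₁ E₁ h₁) := by
  refine evL_surjective hb 𝒩.x₁_inj _ _ (g := gR k Fb) (hn.2 _ ?_) (hn.2 _ ?_)
  · have : (0 : ℤ) ≤ Fintype.card 𝒩.S := Int.natCast_nonneg _
    omega
  · rw [map_sub, degree_sumPts hb]
    omega

theorem evL₂_surjective (hb : IsSepParam k t) {n : ℕ} (hn : 𝒩.IsLarge n) {E₂ : Divisor k Fb}
    (h₂ : Off₂ 𝒩 E₂) (d₂ : (n : ℤ) ≤ Divisor.degree E₂) :
    Function.Surjective (evL hb 𝒩.x₂ E₂ h₂) := by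
  refine evL_surjective hb 𝒩.x₂_inj _ _ (g := gR k Fb) (hn.2 _ ?_) (hn.2 _ ?_)
  · have : (0 : ℤ) ≤ Fintype.card 𝒩.S := Int.natCast_nonneg _
    omega
  · rw [map_sub, degree_sumPts hb]
    omega

/-- `LL E₁ E₂ ≤ L(E₁) × L(E₂)`, which is finite dimensional (`hb.finite_L`). -/
theorem finite_LL (hb : IsSepParam k t) (E₁ E₂ : Divisor k Fb) :
    FiniteDimensional k (LL 𝒩 E₁ E₂) := by
  have := hb.finite_L E₁
  have := hb.finite_L E₂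
  have hle : LL 𝒩 E₁ E₂ ≤ LinearMap.range (inclLL E₁ E₂) := by
    rintro w ⟨h1, h2, -⟩
    exact ⟨(⟨w.1, h1⟩, ⟨w.2, h2⟩), rfl⟩
  exact Submodule.finiteDimensional_of_le hle

/-- **Riemann's theorem on the nodal curve.**  `LL E₁ E₂` is the kernel of
`L(E₁) × L(E₂) → k^S`, `(w₁, w₂) ↦ (w₁(x₁ s) - w₂(x₂ s))_s`, which is onto because
`evL hb 𝒩.x₁ E₁ h₁` is onto (`evL_surjective`, with `hn.2 E₁`, `hn.2 (E₁ - sumPts 𝒩.x₁)`).  So
`dim = (deg E₁ + 1 - gb) + (deg E₂ + 1 - gb) - #S` and `#S = g - 2 gb + 1` (`𝒩.card`).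
Same proof as `NodalData.finrank_Msub`. -/
theorem finrank_LL (hb : IsSepParam k t) {n : ℕ} (hn : 𝒩.IsLarge n) {E₁ E₂ : Divisor k Fb}
    (h₁ : Off₁ 𝒩 E₁) (h₂ : Off₂ 𝒩 E₂) (d₁ : (n : ℤ) ≤ Divisor.degree E₁)
    (d₂ : (n : ℤ) ≤ Divisor.degree E₂) :
    (Module.finrank k (LL 𝒩 E₁ E₂) : ℤ) =
      Divisor.degree E₁ + Divisor.degree E₂ + 1 - gR K F := by
  have := hb.finite_L E₁
  have := hb.finite_L E₂
  have hS : (0 : ℤ) ≤ Fintype.card 𝒩.S := Int.natCast_nonneg _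
  have e1 := hn.2 E₁ (by omega)
  have e2 := hn.2 E₂ (by omega)
  have hsurj : Function.Surjective (glueLL hb h₁ h₂) := by
    intro y
    obtain ⟨u, hu⟩ := evL₁_surjective hb hn h₁ d₁ y
    refine ⟨(u, 0), ?_⟩
    ext s
    show evL hb 𝒩.x₁ E₁ h₁ u s - evL hb 𝒩.x₂ E₂ h₂ 0 s = y s
    rw [hu, map_zero]
    simp
  have h3 := LinearMap.finrank_range_add_finrank_ker (glueLL hb h₁ h₂)
  rw [LinearMap.range_eq_top.2 hsurj, finrank_top, Module.finrank_fintype_fun_eq_card,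
    Module.finrank_prod] at h3
  rw [LL_eq_map hb h₁ h₂,
    ← (Submodule.equivMapOfInjective _ (inclLL_injective E₁ E₂) _).finrank_eq]
  have hc := 𝒩.card
  omega

/-- removing a good point of the first component gives a proper subspace (by `finrank_LL`) -/
theorem LL_sub_single₁_lt (hb : IsSepParam k t) {n : ℕ} (hn : 𝒩.IsLarge n) {E₁ E₂ : Divisor k Fb}
    (h₁ : Off₁ 𝒩 E₁) (h₂ : Off₂ 𝒩 E₂) (d₁ : (n : ℤ) + 1 ≤ Divisor.degree E₁)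
    (d₂ : (n : ℤ) ≤ Divisor.degree E₂) {Q : Place k Fb} (hQ : Q ∈ G₁ 𝒩) :
    LL 𝒩 (E₁ - Finsupp.single Q 1) E₂ < LL 𝒩 E₁ E₂ := by
  have hle : LL 𝒩 (E₁ - Finsupp.single Q 1) E₂ ≤ LL 𝒩 E₁ E₂ :=
    LL_mono (sub_le_self _ (Finsupp.single_nonneg.2 zero_le_one)) le_rfl
  refine lt_of_le_of_ne hle fun h => ?_
  have f1 := finrank_LL hb hn h₁ h₂ (by omega) d₂
  have f2 := finrank_LL hb hn (h₁.sub (off₁_single hQ 1)) h₂
    (by rw [map_sub, hb.degree_single]; omega) d₂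
  rw [h, f1, map_sub, hb.degree_single] at f2
  omega

/-- removing a good point of the second component gives a proper subspace
(apply `LL_sub_single₁_lt` to `swapN 𝒩`, or repeat the proof) -/
theorem LL_sub_single₂_lt (hb : IsSepParam k t) {n : ℕ} (hn : 𝒩.IsLarge n) {E₁ E₂ : Divisor k Fb}
    (h₁ : Off₁ 𝒩 E₁) (h₂ : Off₂ 𝒩 E₂) (d₁ : (n : ℤ) ≤ Divisor.degree E₁)
    (d₂ : (n : ℤ) + 1 ≤ Divisor.degree E₂) {Q : Place k Fb} (hQ : Q ∈ G₂ 𝒩) :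
    LL 𝒩 E₁ (E₂ - Finsupp.single Q 1) < LL 𝒩 E₁ E₂ := by
  have hle : LL 𝒩 E₁ (E₂ - Finsupp.single Q 1) ≤ LL 𝒩 E₁ E₂ :=
    LL_mono le_rfl (sub_le_self _ (Finsupp.single_nonneg.2 zero_le_one))
  refine lt_of_le_of_ne hle fun h => ?_
  have f1 := finrank_LL hb hn h₁ h₂ d₁ (by omega)
  have f2 := finrank_LL hb hn h₁ (h₂.sub (off₂_single hQ 1)) d₁
    (by rw [map_sub, hb.degree_single]; omega)
  rw [h, f1, map_sub, hb.degree_single] at f2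
  omega

/-- The special fibre is connected: `w.1, w.2 ∈ L(0) = k` (`hb.L_zero`) and the two constants agree
because they agree at the node `s₀` (`HasVal.unique`, `HasVal.const`). -/
theorem eq_const_of_mem_LL_zero (hb : IsSepParam k t) (s₀ : 𝒩.S) {w : Fb × Fb}
    (hw : w ∈ LL 𝒩 0 0) : ∃ e : k, w = (algebraMap k Fb e, algebraMap k Fb e) := by
  obtain ⟨h1, h2, h3⟩ := hw
  rw [hb.L_zero, Submodule.mem_one] at h1 h2
  obtain ⟨e1, he1⟩ := h1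
  obtain ⟨e2, he2⟩ := h2
  obtain ⟨c, hc1, hc2⟩ := h3 s₀
  rw [← he1] at hc1
  rw [← he2] at hc2
  have a1 := hc1.unique (HasVal.const e1)
  have a2 := hc2.unique (HasVal.const e2)
  refine ⟨e1, Prod.ext he1.symm ?_⟩
  rw [← he2, ← a2, a1]

theorem finrank_LL_zero (hb : IsSepParam k t) (s₀ : 𝒩.S) :
    Module.finrank k (LL 𝒩 0 0) = 1 := by
  have h1 : (1 : Fb × Fb) ∈ LL 𝒩 0 0 :=
    ⟨one_mem_L_zero, one_mem_L_zero, fun s => ⟨1, by simpa using HasVal.const (Q := 𝒩.x₁ s) (1 : k),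
      by simpa using HasVal.const (Q := 𝒩.x₂ s) (1 : k)⟩⟩
  refine finrank_eq_one (⟨1, h1⟩ : LL 𝒩 0 0) ?_ ?_
  · intro h
    have := congrArg (fun z : LL 𝒩 0 0 => (z : Fb × Fb).1) h
    simp at this
  · rintro ⟨w, hw⟩
    obtain ⟨e, rfl⟩ := eq_const_of_mem_LL_zero hb s₀ hw
    refine ⟨e, Subtype.ext ?_⟩
    simp [Algebra.smul_def]

end Fermat.Agent.ND
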