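import Fermat.Agent.ND.ClassA

/-!
# [ND-CLASS-B] the places of the charts are of smooth type
-/

set_option autoImplicit false

open AlgebraicCurve

namespace Fermat.Agent.ND

open Fermat.Agent.RED Fermat.Agent.S24 Fermat.Agent.SS

variable {K F k Fb : Type*} [Field K] [Field F] [Algebra K F] [Field k] [Field Fb] [Algebra k Fb]
variable {T : TwoRed K F k Fb} {𝒩 : NodalData T}
variable [IsAlgClosed K] [IsAlgClosed k] {x : F} {t : Fb}

/-- **the places of the chart `P` are of smooth type.**  Let `n` be large.  `smooth_or_node` for the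
chart `(n + 3, 0)`.  In the node case: `X (n+2) 0 ≤ - v + X (n+3) 0` because `1 ≤ P v`, so
`LL (X₁ (n+2) 0) (X₂ (n+2) 0) = W 0 (n+2) 0 ≤ W(-v) (n+3) 0 ≤ LLn .. s`; but the first space contains
a section with value `1` at `s` (`exists_mem_LL_hasVal`); `HasVal.unique` gives `1 = 0`. -/
theorem smooth_of_P_pos (hx : IsSepParam K x) (hb : IsSepParam k t) {v : Place K F}
    (hv : 0 < 𝒩.P v) : Smooth 𝒩 v := by
  classical
  obtain ⟨n, hn⟩ := 𝒩.exists_isLarge hx hb
  rcases smooth_or_node hx hb hn (a := n + 3) (b := 0) (by omega) v with h | ⟨s, hs⟩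
  · exact h
  exfalso
  have l1 := 𝒩.le_degree_X₁ (n + 2) 0
  have l2 := 𝒩.le_degree_X₂ (n + 2) 0
  obtain ⟨w, hw, hval⟩ := exists_mem_LL_hasVal hb hn (off₁_X₁ (𝒩 := 𝒩) (n + 2) 0)
    (off₂_X₂ (n + 2) 0) (by push_cast at l1 ⊢; omega) (by push_cast at l2 ⊢; omega) (fun _ => 1)
  rw [← W_zero_eq hx hb hn (by omega)] at hw
  obtain ⟨u, hu, rfl⟩ := hw
  have hle : (0 : Divisor K F) + 𝒩.X (n + 2) 0 ≤ -Finsupp.single v 1 + 𝒩.X (n + 3) 0 := by
    intro w
    have h0 := 𝒩.P_nonneg w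
    simp only [NodalData.X, zero_add, zero_smul, add_zero, Finsupp.add_apply, Finsupp.neg_apply,
      Finsupp.smul_apply, Finsupp.single_apply, Finsupp.coe_zero, Pi.zero_apply] at h0 ⊢
    split_ifs with hvw
    · subst hvw
      simp only [nsmul_eq_mul]
      push_cast
      nlinarith
    · simp only [nsmul_eq_mul]
      push_cast
      nlinarith
  have hmem : T.red u ∈ 𝒩.W (-Finsupp.single v 1) (n + 3) 0 := ⟨u, L_mono hle hu, rfl⟩
  exact one_ne_zero ((hval s).1.unique (hs hmem).2.1)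

/-- the same with the chart `(0, n + 3)` -/
theorem smooth_of_P'_pos (hx : IsSepParam K x) (hb : IsSepParam k t) {v : Place K F}
    (hv : 0 < 𝒩.P' v) : Smooth 𝒩 v := by
  classical
  obtain ⟨n, hn⟩ := 𝒩.exists_isLarge hx hb
  rcases smooth_or_node hx hb hn (a := 0) (b := n + 3) (by omega) v with h | ⟨s, hs⟩
  · exact h
  exfalso
  have l1 := 𝒩.le_degree_X₁ 0 (n + 2)
  have l2 := 𝒩.le_degree_X₂ 0 (n + 2)
  obtain ⟨w, hw, hval⟩ := exists_mem_LL_hasVal hb hn (off₁_X₁ (𝒩 := 𝒩) 0 (n + 2))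
    (off₂_X₂ 0 (n + 2)) (by push_cast at l1 ⊢; omega) (by push_cast at l2 ⊢; omega) (fun _ => 1)
  rw [← W_zero_eq hx hb hn (by omega)] at hw
  obtain ⟨u, hu, rfl⟩ := hw
  have hle : (0 : Divisor K F) + 𝒩.X 0 (n + 2) ≤ -Finsupp.single v 1 + 𝒩.X 0 (n + 3) := by
    intro w
    have h0 := 𝒩.P'_nonneg w
    simp only [NodalData.X, zero_add, zero_smul, add_zero, Finsupp.add_apply, Finsupp.neg_apply,
      Finsupp.smul_apply, Finsupp.single_apply, Finsupp.coe_zero, Pi.zero_apply] at h0 ⊢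
    split_ifs with hvw
    · subst hvw
      simp only [nsmul_eq_mul]
      push_cast
      nlinarith
    · simp only [nsmul_eq_mul]
      push_cast
      nlinarith
  have hmem : T.red u ∈ 𝒩.W (-Finsupp.single v 1) 0 (n + 3) := ⟨u, L_mono hle hu, rfl⟩
  exact one_ne_zero ((hval s).1.unique (hs hmem).2.1)

theorem smooth_of_X_ne_zero (hx : IsSepParam K x) (hb : IsSepParam k t) {a b : ℕ} {v : Place K F}
    (hv : 𝒩.X a b v ≠ 0) : Smooth 𝒩 v := by
  have h0 := 𝒩.P_nonneg v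
  have h0' := 𝒩.P'_nonneg v
  simp only [Finsupp.coe_zero, Pi.zero_apply] at h0 h0'
  rcases h0.lt_or_eq with h | h
  · exact smooth_of_P_pos hx hb h
  rcases h0'.lt_or_eq with h' | h'
  · exact smooth_of_P'_pos hx hb h'
  exfalso
  apply hv
  simp [NodalData.X, ← h, ← h']

end Fermat.Agent.ND
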