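import Fermat.Agent.ND.LL
import Fermat.Agent.RED.NonSpecial

/-!
# [ND] there are infinitely many good points on both components
-/

set_option autoImplicit false

open AlgebraicCurve

namespace Fermat.Agent.ND

open Fermat.Agent.RED Fermat.Agent.S24 Fermat.Agent.SS

variable {K F k Fb : Type*} [Field K] [Field F] [Algebra K F] [Field k] [Field Fb] [Algebra k Fb]
variable {T : TwoRed K F k Fb} {𝒩 : NodalData T}

theorem G₁_eq_compl : G₁ 𝒩 = (Set.range 𝒩.x₁)ᶜ := by
  ext Q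
  simp [mem_G₁]

theorem G₂_eq_compl : G₂ 𝒩 = (Set.range 𝒩.x₂)ᶜ := by
  ext Q
  simp [mem_G₂]

theorem finite_ord_ne {t : Fb} (hb : IsSepParam k t) (f : Fb) (A : Divisor k Fb) :
    {Q : Place k Fb | Q.ord f ≠ - A Q}.Finite := by
  refine ((hb.finite_support_ord f).union A.hasFiniteSupport).subset ?_
  intro Q hQ
  by_contra hcon
  simp only [Set.mem_union, Set.mem_ofPred_eq, not_or, not_not, Function.mem_support] at hcon hQ
  apply hQ
  rw [hcon.1, hcon.2, neg_zero]

variable [IsAlgClosed k] {t : Fb}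

theorem G₁_diff_infinite (hb : IsSepParam k t) {S : Set (Place k Fb)} (hS : S.Finite) :
    (G₁ 𝒩 \ S).Infinite := by
  have := hb.infinite_place45
  have : G₁ 𝒩 \ S = (Set.range 𝒩.x₁ ∪ S)ᶜ := by
    rw [G₁_eq_compl, Set.compl_union]; rfl
  rw [this]
  exact ((Set.finite_range _).union hS).infinite_compl

theorem G₂_diff_infinite (hb : IsSepParam k t) {S : Set (Place k Fb)} (hS : S.Finite) :
    (G₂ 𝒩 \ S).Infinite := by
  have := hb.infinite_place45
  have : G₂ 𝒩 \ S = (Set.range 𝒩.x₂ ∪ S)ᶜ := by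
    rw [G₂_eq_compl, Set.compl_union]; rfl
  rw [this]
  exact ((Set.finite_range _).union hS).infinite_compl

omit [IsAlgClosed k] in
theorem off₁_sum_single {R : Finset (Place k Fb)} (hR : ∀ Q ∈ R, Q ∈ G₁ 𝒩) :
    Off₁ 𝒩 (∑ Q ∈ R, Finsupp.single Q (1 : ℤ)) := by
  intro s
  rw [Finsupp.finsetSum_apply]
  exact Finset.sum_eq_zero fun Q hQ => off₁_single (hR Q hQ) 1 s

omit [IsAlgClosed k] in
theorem off₂_sum_single {R : Finset (Place k Fb)} (hR : ∀ Q ∈ R, Q ∈ G₂ 𝒩) :
    Off₂ 𝒩 (∑ Q ∈ R, Finsupp.single Q (1 : ℤ)) := by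
  intro s
  rw [Finsupp.finsetSum_apply]
  exact Finset.sum_eq_zero fun Q hQ => off₂_single (hR Q hQ) 1 s

theorem degree_sum_single (hb : IsSepParam k t) (R : Finset (Place k Fb)) :
    Divisor.degree (∑ Q ∈ R, Finsupp.single Q (1 : ℤ)) = R.card := by
  rw [map_sum]
  simp [hb.degree_single]

end Fermat.Agent.ND
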