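import Fermat.Agent.ND.LLGen
import Fermat.Agent.ND.Good

/-!
# [ND-PENCIL] the base point free pencil trick on the nodal curve (only `k`, `Fb`)
-/

set_option autoImplicit false

open AlgebraicCurve

namespace Fermat.Agent.ND

open Fermat.Agent.RED Fermat.Agent.S24 Fermat.Agent.SS

variable {K F k Fb : Type*} [Field K] [Field F] [Algebra K F] [Field k] [Field Fb] [Algebra k Fb]
variable {T : TwoRed K F k Fb} {𝒩 : NodalData T} [IsAlgClosed k] {t : Fb}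

/-- Step 1-3 of the pencil trick: a base point free subspace `H ≤ LL A₁ A₂` contains two sections
`h₁`, `h₂`, non zero on both components, without common zero.

Proof.  `H ∩ {w.1 = 0} ≤ H ∩ LL (A₁ - Q) A₂` for any good `Q` (good points exist:
`hb.infinite_place45` and there are finitely many nodes), so by `exists_mem_forall_notMem` (two
subspaces) there is `h₁ ∈ H` with `h₁.1 ≠ 0`, `h₁.2 ≠ 0`.  The sets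
`Z₁ = {Q | ord_Q h₁.1 ≠ - A₁ Q}`, `Z₂ = {Q | ord_Q h₁.2 ≠ - A₂ Q}` are finite
(`hb.finite_support_ord`, `Finsupp.finite_support`).  Apply `exists_mem_forall_notMem` to `H` and
`LL (A₁ - Q) A₂` (`Q ∈ Z₁ ∩ G₁`), `LL A₁ (A₂ - Q)` (`Q ∈ Z₂ ∩ G₂`), `LLn A₁ A₂ s` (all `s`), plus
one good point on each component (to get `h₂.1 ≠ 0`, `h₂.2 ≠ 0`); use `ord_eq_of_notMem₁/₂`,
`exists_val_ne_zero_of_notMem`. -/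
theorem exists_pencil (hb : IsSepParam k t) {A₁ A₂ : Divisor k Fb}
    (H : Submodule k (Fb × Fb)) (hH : H ≤ LL 𝒩 A₁ A₂)
    (h1 : ∀ Q ∈ G₁ 𝒩, ¬ H ≤ LL 𝒩 (A₁ - Finsupp.single Q 1) A₂)
    (h2 : ∀ Q ∈ G₂ 𝒩, ¬ H ≤ LL 𝒩 A₁ (A₂ - Finsupp.single Q 1))
    (h3 : ∀ s, ¬ H ≤ LLn 𝒩 A₁ A₂ s) :
    ∃ h₁ ∈ H, ∃ h₂ ∈ H, h₁.1 ≠ 0 ∧ h₁.2 ≠ 0 ∧ h₂.1 ≠ 0 ∧ h₂.2 ≠ 0 ∧
      (∀ Q ∈ G₁ 𝒩, Q.ord h₁.1 = - A₁ Q ∨ Q.ord h₂.1 = - A₁ Q) ∧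
      (∀ Q ∈ G₂ 𝒩, Q.ord h₁.2 = - A₂ Q ∨ Q.ord h₂.2 = - A₂ Q) ∧
      ∀ s, ∃ c : k, c ≠ 0 ∧ HasVal (𝒩.x₁ s) h₂.1 c ∧ HasVal (𝒩.x₂ s) h₂.2 c := by
  classical
  have : Infinite k := IsAlgClosed.instInfinite
  obtain ⟨Q₁, hQ₁, -⟩ := (G₁_diff_infinite (𝒩 := 𝒩) hb Set.finite_empty).nonempty
  obtain ⟨Q₂, hQ₂, -⟩ := (G₂_diff_infinite (𝒩 := 𝒩) hb Set.finite_empty).nonempty
  -- a general statement : avoid finitely many good points and all the nodes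
  have gen : ∀ Z₁ Z₂ : Set (Place k Fb), Z₁.Finite → Z₂.Finite → Z₁ ⊆ G₁ 𝒩 → Z₂ ⊆ G₂ 𝒩 →
      ∃ h ∈ H, (∀ Q ∈ Z₁, h ∉ LL 𝒩 (A₁ - Finsupp.single Q 1) A₂) ∧
        (∀ Q ∈ Z₂, h ∉ LL 𝒩 A₁ (A₂ - Finsupp.single Q 1)) ∧ ∀ s, h ∉ LLn 𝒩 A₁ A₂ s := by
    intro Z₁ Z₂ f₁ f₂ g₁ g₂
    have := f₁.to_subtype
    have := f₂.to_subtype
    obtain ⟨h, hh, hW⟩ := exists_mem_forall_notMem (ι := Z₁ ⊕ Z₂ ⊕ 𝒩.S) H
      (Sum.elim (fun Q => LL 𝒩 (A₁ - Finsupp.single Q.1 1) A₂)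
        (Sum.elim (fun Q => LL 𝒩 A₁ (A₂ - Finsupp.single Q.1 1)) (fun s => LLn 𝒩 A₁ A₂ s)))
      (by
        rintro (Q | Q | s)
        · exact h1 Q.1 (g₁ Q.2)
        · exact h2 Q.1 (g₂ Q.2)
        · exact h3 s)
    exact ⟨h, hh, fun Q hQ => hW (Sum.inl ⟨Q, hQ⟩), fun Q hQ => hW (Sum.inr (Sum.inl ⟨Q, hQ⟩)),
      fun s => hW (Sum.inr (Sum.inr s))⟩
  obtain ⟨h₁, hh₁, a₁, a₂, -⟩ := gen {Q₁} {Q₂} (Set.finite_singleton _) (Set.finite_singleton _)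
    (by simpa using hQ₁) (by simpa using hQ₂)
  have h11 := (ord_eq_of_notMem₁ (hH hh₁) (a₁ Q₁ rfl)).1
  have h12 := (ord_eq_of_notMem₂ (hH hh₁) (a₂ Q₂ rfl)).1
  obtain ⟨h₂, hh₂, b₁, b₂, b₃⟩ := gen
    (({Q | Q.ord h₁.1 ≠ - A₁ Q} ∩ G₁ 𝒩) ∪ {Q₁}) (({Q | Q.ord h₁.2 ≠ - A₂ Q} ∩ G₂ 𝒩) ∪ {Q₂})
    (((finite_ord_ne hb _ _).inter_of_left _).union (Set.finite_singleton _))
    (((finite_ord_ne hb _ _).inter_of_left _).union (Set.finite_singleton _))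
    (Set.union_subset Set.inter_subset_right (by simpa using hQ₁))
    (Set.union_subset Set.inter_subset_right (by simpa using hQ₂))
  refine ⟨h₁, hh₁, h₂, hh₂, h11, h12, (ord_eq_of_notMem₁ (hH hh₂) (b₁ Q₁ (Or.inr rfl))).1,
    (ord_eq_of_notMem₂ (hH hh₂) (b₂ Q₂ (Or.inr rfl))).1, fun Q hQ => ?_, fun Q hQ => ?_,
    fun s => exists_val_ne_zero_of_notMem (hH hh₂) (b₃ s)⟩
  · by_cases hq : Q.ord h₁.1 = - A₁ Q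
    · exact Or.inl hq
    · exact Or.inr (ord_eq_of_notMem₁ (hH hh₂) (b₁ Q (Or.inl ⟨hq, hQ⟩))).2
  · by_cases hq : Q.ord h₁.2 = - A₂ Q
    · exact Or.inl hq
    · exact Or.inr (ord_eq_of_notMem₂ (hH hh₂) (b₂ Q (Or.inl ⟨hq, hQ⟩))).2

omit [IsAlgClosed k] in
theorem syz_aux {ι : Type*} {x : ι → Place k Fb} {A B : Divisor k Fb}
    (hA : ∀ s, A (x s) = 0) (hB : ∀ s, B (x s) = 0) {h₁ h₂ a b : Fb} (h1 : h₁ ≠ 0) (h2 : h₂ ≠ 0)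
    (hG : ∀ Q, (∀ s, x s ≠ Q) → Q.ord h₁ = - A Q ∨ Q.ord h₂ = - A Q)
    (hS : ∀ s, 0 ≤ (x s).ord (a / h₂))
    (ha : a ∈ riemannRochSpace B) (hb : b ∈ riemannRochSpace B) (hab : h₁ * a + h₂ * b = 0) :
    a / h₂ ∈ riemannRochSpace (B - A) := by
  rcases eq_or_ne a 0 with rfl | ha0
  · simp
  have hb0 : b ≠ 0 := by
    rintro rfl
    simp [h1, ha0] at hab
  rw [mem_L_iff_of_ne_zero ha0] at ha
  rw [mem_L_iff_of_ne_zero hb0] at hb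
  rw [mem_L_iff_of_ne_zero (div_ne_zero ha0 h2)]
  intro Q
  rw [Finsupp.sub_apply]
  by_cases hQ : ∀ s, x s ≠ Q
  · have e1 : Q.ord (a / h₂) = Q.ord a - Q.ord h₂ := by
      rw [div_eq_mul_inv, Q.ord_mul ha0 (inv_ne_zero h2), Q.ord_inv]; ring
    have e2 : Q.ord h₁ + Q.ord a = Q.ord h₂ + Q.ord b := by
      rw [← Q.ord_mul h1 ha0, ← Q.ord_mul h2 hb0, eq_neg_of_add_eq_zero_left hab, Place.ord_neg]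
    have := ha Q
    have := hb Q
    rcases hG Q hQ with h | h <;> omega
  · push Not at hQ
    obtain ⟨s, rfl⟩ := hQ
    rw [hA, hB]
    simpa using hS s

omit [IsAlgClosed k] in
/-- Step 4: the syzygies of a pencil without common zero.  If `h₁ * a + h₂ * b = 0` with
`a, b ∈ LL B₁ B₂` then `c := (a.1 / h₂.1, a.2 / h₂.2)` (`= - b / h₁`) lies in
`LL (B₁ - A₁) (B₂ - A₂)` and `a = h₂ * c`, `b = - h₁ * c`.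
(At a good `Q`: use the one of `h₁`, `h₂` which has exact order; at a node use `h₂`, `HasVal.inv`,
`HasVal.mul`.) -/
theorem exists_syzygy {A₁ A₂ B₁ B₂ : Divisor k Fb} (hA₁ : Off₁ 𝒩 A₁) (hA₂ : Off₂ 𝒩 A₂)
    (hB₁ : Off₁ 𝒩 B₁) (hB₂ : Off₂ 𝒩 B₂) {h₁ h₂ a b : Fb × Fb}
    (h11 : h₁.1 ≠ 0) (h12 : h₁.2 ≠ 0) (h21 : h₂.1 ≠ 0) (h22 : h₂.2 ≠ 0)
    (hG₁ : ∀ Q ∈ G₁ 𝒩, Q.ord h₁.1 = - A₁ Q ∨ Q.ord h₂.1 = - A₁ Q)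
    (hG₂ : ∀ Q ∈ G₂ 𝒩, Q.ord h₁.2 = - A₂ Q ∨ Q.ord h₂.2 = - A₂ Q)
    (hS : ∀ s, ∃ c : k, c ≠ 0 ∧ HasVal (𝒩.x₁ s) h₂.1 c ∧ HasVal (𝒩.x₂ s) h₂.2 c)
    (ha : a ∈ LL 𝒩 B₁ B₂) (hb' : b ∈ LL 𝒩 B₁ B₂) (hab : h₁ * a + h₂ * b = 0) :
    ∃ c ∈ LL 𝒩 (B₁ - A₁) (B₂ - A₂), a = h₂ * c ∧ b = - (h₁ * c) := by
  have e1 : h₁.1 * a.1 + h₂.1 * b.1 = 0 := congrArg Prod.fst hab
  have e2 : h₁.2 * a.2 + h₂.2 * b.2 = 0 := congrArg Prod.snd hab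
  have hval : ∀ s, ∃ c : k, HasVal (𝒩.x₁ s) (a.1 / h₂.1) c ∧ HasVal (𝒩.x₂ s) (a.2 / h₂.2) c := by
    intro s
    obtain ⟨c, hc, c1, c2⟩ := hS s
    obtain ⟨d, d1, d2⟩ := ha.2.2 s
    exact ⟨d * c⁻¹, by rw [div_eq_mul_inv]; exact d1.mul (c1.inv hc),
      by rw [div_eq_mul_inv]; exact d2.mul (c2.inv hc)⟩
  refine ⟨(a.1 / h₂.1, a.2 / h₂.2), ⟨?_, ?_, hval⟩, ?_, ?_⟩
  · refine syz_aux hA₁ hB₁ h11 h21 hG₁ (fun s => ?_) ha.1 hb'.1 e1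
    obtain ⟨c, hc, -⟩ := hval s
    exact hc.ord_nonneg
  · refine syz_aux hA₂ hB₂ h12 h22 hG₂ (fun s => ?_) ha.2.1 hb'.2.1 e2
    obtain ⟨c, -, hc⟩ := hval s
    exact hc.ord_nonneg
  · ext
    · simp only [Prod.fst_mul]; field_simp
    · simp only [Prod.snd_mul]; field_simp
  · ext
    · simp only [Prod.fst_mul, Prod.fst_neg]
      field_simp
      linear_combination e1
    · simp only [Prod.snd_mul, Prod.snd_neg]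
      field_simp
      linear_combination e2


/-- **(PENCIL)**  A base point free subspace `H ≤ LL A₁ A₂` generates: `H * LL B₁ B₂` spans
`LL (A₁ + B₁) (A₂ + B₂)` as soon as `B - A` has large degree.

Proof.  `h₁`, `h₂` from `exists_pencil`.  The linear map
`μ : LL B₁ B₂ × LL B₁ B₂ → LL (A₁ + B₁) (A₂ + B₂)`, `(a, b) ↦ h₁ * a + h₂ * b` (`mul_mem_LL`) has a
kernel which injects into `LL (B₁ - A₁) (B₂ - A₂)` (`exists_syzygy`), so by `finrank_LL` (3 times)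
`dim range μ ≥ 2 (deg B + 1 - g) - (deg B - deg A + 1 - g) = deg A + deg B + 1 - g`: `μ` is onto. -/
theorem pencil (hb : IsSepParam k t) {n : ℕ} (hn : 𝒩.IsLarge n) {A₁ A₂ B₁ B₂ : Divisor k Fb}
    (hA₁ : Off₁ 𝒩 A₁) (hA₂ : Off₂ 𝒩 A₂) (hB₁ : Off₁ 𝒩 B₁) (hB₂ : Off₂ 𝒩 B₂)
    (dA₁ : 0 ≤ Divisor.degree A₁) (dA₂ : 0 ≤ Divisor.degree A₂)
    (d₁ : (n : ℤ) ≤ Divisor.degree (B₁ - A₁)) (d₂ : (n : ℤ) ≤ Divisor.degree (B₂ - A₂))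
    (H : Submodule k (Fb × Fb)) (hH : H ≤ LL 𝒩 A₁ A₂)
    (h1 : ∀ Q ∈ G₁ 𝒩, ¬ H ≤ LL 𝒩 (A₁ - Finsupp.single Q 1) A₂)
    (h2 : ∀ Q ∈ G₂ 𝒩, ¬ H ≤ LL 𝒩 A₁ (A₂ - Finsupp.single Q 1))
    (h3 : ∀ s, ¬ H ≤ LLn 𝒩 A₁ A₂ s) {w : Fb × Fb} (hw : w ∈ LL 𝒩 (A₁ + B₁) (A₂ + B₂)) :
    ∃ h₁ ∈ H, ∃ h₂ ∈ H, ∃ a ∈ LL 𝒩 B₁ B₂, ∃ b ∈ LL 𝒩 B₁ B₂, w = h₁ * a + h₂ * b := by
  obtain ⟨h₁, hh₁, h₂, hh₂, h11, h12, h21, h22, hG₁, hG₂, hS⟩ := exists_pencil hb H hH h1 h2 h3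
  refine ⟨h₁, hh₁, h₂, hh₂, ?_⟩
  have := finite_LL (𝒩 := 𝒩) hb B₁ B₂
  have := finite_LL (𝒩 := 𝒩) hb (B₁ - A₁) (B₂ - A₂)
  have := finite_LL (𝒩 := 𝒩) hb (A₁ + B₁) (A₂ + B₂)
  rw [map_sub] at d₁ d₂
  -- the multiplication map
  obtain ⟨μ, hμ⟩ : ∃ μ : (LL 𝒩 B₁ B₂ × LL 𝒩 B₁ B₂) →ₗ[k] (Fb × Fb),
      ∀ p, μ p = h₁ * (p.1 : Fb × Fb) + h₂ * (p.2 : Fb × Fb) :=
    ⟨((LinearMap.mulLeft k h₁).comp (LL 𝒩 B₁ B₂).subtype).coprod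
      ((LinearMap.mulLeft k h₂).comp (LL 𝒩 B₁ B₂).subtype), fun p => rfl⟩
  have hle : LinearMap.range μ ≤ LL 𝒩 (A₁ + B₁) (A₂ + B₂) := by
    rintro _ ⟨p, rfl⟩
    rw [hμ]
    exact Submodule.add_mem _ (mul_mem_LL (hH hh₁) p.1.2) (mul_mem_LL (hH hh₂) p.2.2)
  -- the kernel
  let hi : Fb × Fb := (h₂.1⁻¹, h₂.2⁻¹)
  have hhi : ∀ c : Fb × Fb, hi * (h₂ * c) = c := by
    intro c
    ext
    · simp only [hi, Prod.fst_mul]; field_simp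
    · simp only [hi, Prod.snd_mul]; field_simp
  have hsy : ∀ p : LinearMap.ker μ, ∃ c ∈ LL 𝒩 (B₁ - A₁) (B₂ - A₂),
      ((p : LL 𝒩 B₁ B₂ × LL 𝒩 B₁ B₂).1 : Fb × Fb) = h₂ * c ∧
      ((p : LL 𝒩 B₁ B₂ × LL 𝒩 B₁ B₂).2 : Fb × Fb) = - (h₁ * c) := by
    intro p
    exact exists_syzygy hA₁ hA₂ hB₁ hB₂ h11 h12 h21 h22 hG₁ hG₂ hS p.1.1.2 p.1.2.2
      (by rw [← hμ]; exact p.2)
  let ν : LinearMap.ker μ →ₗ[k] LL 𝒩 (B₁ - A₁) (B₂ - A₂) :=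
    LinearMap.codRestrict _ ((LinearMap.mulLeft k hi).comp ((LL 𝒩 B₁ B₂).subtype.comp
      ((LinearMap.fst k _ _).comp (LinearMap.ker μ).subtype))) (by
      intro p
      obtain ⟨c, hc, e, -⟩ := hsy p
      change hi * ((p : LL 𝒩 B₁ B₂ × LL 𝒩 B₁ B₂).1 : Fb × Fb) ∈ _
      rw [e, hhi]
      exact hc)
  have hν : Function.Injective ν := by
    intro p q hpq
    obtain ⟨c, -, e, e'⟩ := hsy p
    obtain ⟨d, -, f, f'⟩ := hsy q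
    have hp' : hi * ((p : LL 𝒩 B₁ B₂ × LL 𝒩 B₁ B₂).1 : Fb × Fb) =
        hi * ((q : LL 𝒩 B₁ B₂ × LL 𝒩 B₁ B₂).1 : Fb × Fb) := congrArg Subtype.val hpq
    rw [e, f, hhi, hhi] at hp'
    subst hp'
    exact Subtype.ext (Prod.ext (Subtype.ext (e.trans f.symm)) (Subtype.ext (e'.trans f'.symm)))
  have k1 := LinearMap.finrank_le_finrank_of_injective hν
  have k2 := LinearMap.finrank_range_add_finrank_ker μ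
  rw [Module.finrank_prod] at k2
  have f1 := finrank_LL hb hn hB₁ hB₂ (by omega) (by omega)
  have f2 := finrank_LL hb hn (hB₁.sub hA₁) (hB₂.sub hA₂) (by rw [map_sub]; omega)
    (by rw [map_sub]; omega)
  have f3 := finrank_LL hb hn (hA₁.add hB₁) (hA₂.add hB₂) (by rw [map_add]; omega)
    (by rw [map_add]; omega)
  rw [map_sub, map_sub] at f2
  rw [map_add, map_add] at f3
  have heq : LinearMap.range μ = LL 𝒩 (A₁ + B₁) (A₂ + B₂) :=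
    Submodule.eq_of_le_of_finrank_le hle (by omega)
  rw [← heq] at hw
  obtain ⟨p, rfl⟩ := hw
  exact ⟨p.1, p.1.2, p.2, p.2.2, hμ p⟩

end Fermat.Agent.ND
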