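import Fermat.Agent.ND.Red
import Fermat.Agent.ND.Pencil

/-!
# [ND-CLASS-A] every place reduces to a point of the special fibre
-/

set_option autoImplicit false

open AlgebraicCurve

namespace Fermat.Agent.ND

open Fermat.Agent.RED Fermat.Agent.S24 Fermat.Agent.SS

variable {K F k Fb : Type*} [Field K] [Field F] [Algebra K F] [Field k] [Field Fb] [Algebra k Fb]
variable {T : TwoRed K F k Fb} {𝒩 : NodalData T}
variable [IsAlgClosed K] [IsAlgClosed k] {x : F} {t : Fb}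

/-- **classification at one level.**  `H := W(-v) a b ≤ LL (X₁ a b) (X₂ a b)` (`W_neg_le`).
Assume that `H` is contained in none of the "point hyperplanes".  Apply `pencil` with
`A_i = X_i a b`, `B_i = X_i (a + a) (b + b)` (`B_i - A_i = X_i a b` has degree `≥ a + b ≥ n`):
every `w ∈ LL (X₁ a b + X₁ (a+a) (b+b)) (..) = LL (X₁ (a+(a+a)) (b+(b+b))) (..)` is of the form
`h₁ * a' + h₂ * b'` with `h_i ∈ W(-v) a b`, `a', b' ∈ LL (X₁ (a+a) (b+b)) .. = W 0 (a+a) (b+b)`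
(`W_zero_eq`), hence lies in `W (-v + 0) (a+(a+a)) (b+(b+b))` (`NodalData.mul_mem_W`).  So
`LL (X₁ ..) (X₂ ..) ≤ W(-v) (a+(a+a)) (b+(b+b))`, which contradicts the dimensions
(`finrank_LL`, `finrank_W'`, `NodalData.degree_X`, `hx.degree_single`, `finite_W`,
`Submodule.finrank_mono`). -/
theorem exists_point_level (hx : IsSepParam K x) (hb : IsSepParam k t) {n : ℕ} (hn : 𝒩.IsLarge n)
    {a b : ℕ} (hab : n + 1 ≤ a + b) (v : Place K F) :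
    (∃ Q ∈ G₁ 𝒩, 𝒩.W (-Finsupp.single v 1) a b ≤
        LL 𝒩 (𝒩.X₁ a b - Finsupp.single Q 1) (𝒩.X₂ a b)) ∨
    (∃ Q ∈ G₂ 𝒩, 𝒩.W (-Finsupp.single v 1) a b ≤
        LL 𝒩 (𝒩.X₁ a b) (𝒩.X₂ a b - Finsupp.single Q 1)) ∨
    ∃ s, 𝒩.W (-Finsupp.single v 1) a b ≤ LLn 𝒩 (𝒩.X₁ a b) (𝒩.X₂ a b) s := by
  by_contra hcon
  rw [not_or, not_or] at hcon
  obtain ⟨h1, h2, h3⟩ := hcon
  have h1' : ∀ Q ∈ G₁ 𝒩, ¬ 𝒩.W (-Finsupp.single v 1) a b ≤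
      LL 𝒩 (𝒩.X₁ a b - Finsupp.single Q 1) (𝒩.X₂ a b) := fun Q hQ h => h1 ⟨Q, hQ, h⟩
  have h2' : ∀ Q ∈ G₂ 𝒩, ¬ 𝒩.W (-Finsupp.single v 1) a b ≤
      LL 𝒩 (𝒩.X₁ a b) (𝒩.X₂ a b - Finsupp.single Q 1) := fun Q hQ h => h2 ⟨Q, hQ, h⟩
  have h3' : ∀ s, ¬ 𝒩.W (-Finsupp.single v 1) a b ≤ LLn 𝒩 (𝒩.X₁ a b) (𝒩.X₂ a b) s :=
    fun s h => h3 ⟨s, h⟩
  have l1 := 𝒩.le_degree_X₁ a b
  have l2 := 𝒩.le_degree_X₂ a b
  have hab' : ((n : ℤ) + 1) ≤ ((a + b : ℕ) : ℤ) := by exact_mod_cast hab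
  have key : LL 𝒩 (𝒩.X₁ (a + (a + a)) (b + (b + b))) (𝒩.X₂ (a + (a + a)) (b + (b + b))) ≤
      𝒩.W (-Finsupp.single v 1) (a + (a + a)) (b + (b + b)) := by
    intro w hw
    rw [𝒩.X₁_add, 𝒩.X₂_add] at hw
    obtain ⟨h₁, hh₁, h₂, hh₂, a', ha', b', hb', rfl⟩ := pencil hb hn (off₁_X₁ a b) (off₂_X₂ a b)
      (off₁_X₁ (a + a) (b + b)) (off₂_X₂ (a + a) (b + b)) (by omega) (by omega)
      (by rw [𝒩.X₁_add, add_sub_cancel_right]; omega)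
      (by rw [𝒩.X₂_add, add_sub_cancel_right]; omega)
      (𝒩.W (-Finsupp.single v 1) a b) (W_neg_le v a b) h1' h2' h3' hw
    rw [← W_zero_eq hx hb hn (by omega)] at ha' hb'
    have e1 := 𝒩.mul_mem_W hh₁ ha'
    have e2 := 𝒩.mul_mem_W hh₂ hb'
    rw [add_zero] at e1 e2
    exact Submodule.add_mem _ e1 e2
  have := finite_W (𝒩 := 𝒩) hx (-Finsupp.single v 1) (a + (a + a)) (b + (b + b))
  have f1 := Submodule.finrank_mono key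
  have m1 := 𝒩.le_degree_X₁ (a + (a + a)) (b + (b + b))
  have m2 := 𝒩.le_degree_X₂ (a + (a + a)) (b + (b + b))
  have m3 := 𝒩.le_degree_X (a + (a + a)) (b + (b + b))
  have f2 := finrank_LL hb hn (off₁_X₁ (a + (a + a)) (b + (b + b)))
    (off₂_X₂ (a + (a + a)) (b + (b + b))) (by push_cast at m1 hab' ⊢; omega)
    (by push_cast at m2 hab' ⊢; omega)
  have f3 := finrank_W' hx hn (D := -Finsupp.single v 1) (a := a + (a + a)) (b := b + (b + b))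
    (by rw [map_add, map_neg, hx.degree_single]; push_cast at m3 hab' ⊢; omega)
  rw [map_neg, hx.degree_single, 𝒩.degree_X] at f3
  omega

/-- `exists_point_level` + `redTo₁_of_le` + `redTo₂_of_le` -/
theorem smooth_or_node (hx : IsSepParam K x) (hb : IsSepParam k t) {n : ℕ} (hn : 𝒩.IsLarge n)
    {a b : ℕ} (hab : n + 2 ≤ a + b) (v : Place K F) :
    Smooth 𝒩 v ∨ ∃ s, 𝒩.W (-Finsupp.single v 1) a b ≤ LLn 𝒩 (𝒩.X₁ a b) (𝒩.X₂ a b) s := by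
  rcases exists_point_level hx hb hn (a := a) (b := b) (by omega) v with ⟨Q, hQ, h⟩ | ⟨Q, hQ, h⟩ | h
  · exact Or.inl (Or.inl ⟨Q, hQ, redTo₁_of_le hx hb hn hab hQ h⟩)
  · exact Or.inl (Or.inr ⟨Q, hQ, redTo₂_of_le hx hb hn hab hQ h⟩)
  · exact Or.inr h

end Fermat.Agent.ND
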