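import Fermat.Agent.ND.Red

/-!
# [ND-ELTS] auxiliary integral functions with prescribed behaviour at `v` and at `Q`
-/

set_option autoImplicit false

open AlgebraicCurve

namespace Fermat.Agent.ND

open Fermat.Agent.RED Fermat.Agent.S24 Fermat.Agent.SS

variable {K F k Fb : Type*} [Field K] [Field F] [Algebra K F] [Field k] [Field Fb] [Algebra k Fb]
variable {T : TwoRed K F k Fb} {𝒩 : NodalData T}
variable [IsAlgClosed K] [IsAlgClosed k] {x : F} {t : Fb}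

/-- (h) `v` does not reduce to `Q`: a function vanishing at `v` whose reduction does not vanish at
`Q`.  By `redTo₁_of_le` (contrapositive) `W(-v) a b` is not contained in `LL (X₁ a b - Q) (X₂ a b)`;
take `w` in the first, not in the second; `W_neg_le`, `ord_eq_of_notMem₁`. -/
theorem exists_h (hx : IsSepParam K x) (hb : IsSepParam k t) {n : ℕ} (hn : 𝒩.IsLarge n)
    {a b : ℕ} (hab : n + 2 ≤ a + b) {v : Place K F} {Q : Place k Fb} (hQ : Q ∈ G₁ 𝒩)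
    (hv : ¬ RedTo₁ 𝒩 v Q) :
    ∃ h : T.O, (h : F) ∈ riemannRochSpace (-Finsupp.single v 1 + 𝒩.X a b) ∧ (T.red h).1 ≠ 0 ∧
      Q.ord (T.red h).1 = - 𝒩.X₁ a b Q := by
  have hnle : ¬ 𝒩.W (-Finsupp.single v 1) a b ≤
      LL 𝒩 (𝒩.X₁ a b - Finsupp.single Q 1) (𝒩.X₂ a b) :=
    fun hle => hv (redTo₁_of_le hx hb hn hab hQ hle)
  obtain ⟨w, hw, hw'⟩ := SetLike.not_le_iff_exists.1 hnle
  obtain ⟨h0, ho⟩ := ord_eq_of_notMem₁ (W_neg_le v a b hw) hw'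
  obtain ⟨u, hu, rfl⟩ := hw
  exact ⟨u, hu, h0, ho⟩

/-- (t) `v` reduces to `Q`: a function vanishing at `v` whose reduction vanishes to the first order
at `Q`.  `W(-v) a b = LL (X₁ a b - Q) (X₂ a b)` (`W_neg_eq`) and `exists_ord₁` for
`E₁ = X₁ a b - Q`. -/
theorem exists_t (hx : IsSepParam K x) (hb : IsSepParam k t) {n : ℕ} (hn : 𝒩.IsLarge n)
    {a b : ℕ} (hab : n + 2 ≤ a + b) {v : Place K F} {Q : Place k Fb} (hQ : Q ∈ G₁ 𝒩)
    (hv : RedTo₁ 𝒩 v Q) :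
    ∃ h : T.O, (h : F) ∈ riemannRochSpace (-Finsupp.single v 1 + 𝒩.X a b) ∧ (T.red h).1 ≠ 0 ∧
      Q.ord (T.red h).1 = - 𝒩.X₁ a b Q + 1 := by
  have hab' : (n : ℤ) + 2 ≤ ((a + b : ℕ) : ℤ) := by exact_mod_cast hab
  have l1 := 𝒩.le_degree_X₁ a b
  have l2 := 𝒩.le_degree_X₂ a b
  have e1 := W_neg_eq hx hb hn (by omega) hQ (hv a b)
  obtain ⟨w, hw, h0, ho⟩ := exists_ord₁ hb hn ((off₁_X₁ (𝒩 := 𝒩) a b).sub (off₁_single hQ 1))
    (off₂_X₂ (𝒩 := 𝒩) a b) (by rw [map_sub, hb.degree_single]; linarith) (by linarith) hQ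
  rw [← e1] at hw
  obtain ⟨u, hu, rfl⟩ := hw
  refine ⟨u, hu, h0, ?_⟩
  rw [ho, Finsupp.sub_apply, Finsupp.single_eq_same]
  ring

/-- (u) `v` reduces to `Q`: a function with a simple pole at `v` whose reduction has a simple pole at
`Q`.  `W(+v) a b = LL (X₁ a b + Q) (X₂ a b)` (`W_pos_eq`) and `exists_ord₁` for `E₁ = X₁ a b + Q`. -/
theorem exists_u (hx : IsSepParam K x) (hb : IsSepParam k t) {n : ℕ} (hn : 𝒩.IsLarge n)
    {a b : ℕ} (hab : n + 2 ≤ a + b) {v : Place K F} {Q : Place k Fb} (hQ : Q ∈ G₁ 𝒩)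
    (hv : RedTo₁ 𝒩 v Q) :
    ∃ h : T.O, (h : F) ∈ riemannRochSpace (Finsupp.single v 1 + 𝒩.X a b) ∧ (T.red h).1 ≠ 0 ∧
      Q.ord (T.red h).1 = - 𝒩.X₁ a b Q - 1 := by
  have hab' : (n : ℤ) + 2 ≤ ((a + b : ℕ) : ℤ) := by exact_mod_cast hab
  have l1 := 𝒩.le_degree_X₁ a b
  have l2 := 𝒩.le_degree_X₂ a b
  have e1 := W_pos_eq hx hb hn hab hQ (hv a b)
  obtain ⟨w, hw, h0, ho⟩ := exists_ord₁ hb hn ((off₁_X₁ (𝒩 := 𝒩) a b).add (off₁_single hQ 1))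
    (off₂_X₂ (𝒩 := 𝒩) a b) (by rw [map_add, hb.degree_single]; linarith) (by linarith) hQ
  rw [← e1] at hw
  obtain ⟨u, hu, rfl⟩ := hw
  refine ⟨u, hu, h0, ?_⟩
  rw [ho, Finsupp.add_apply, Finsupp.single_eq_same]
  ring

/-- (e) a function which is small on the second component and whose reduction on the first
component does not vanish at `Q`: `exists_fst` + `exists_lift`. -/
theorem exists_e (hx : IsSepParam K x) (hb : IsSepParam k t) {n : ℕ} (hn : 𝒩.IsLarge n)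
    {a b : ℕ} (hab : n + 1 ≤ a + b) {Q : Place k Fb} (hQ : Q ∈ G₁ 𝒩) :
    ∃ h : T.O, (h : F) ∈ riemannRochSpace (𝒩.X a b) ∧ (T.red h).1 ≠ 0 ∧ (T.red h).2 = 0 ∧
      Q.ord (T.red h).1 = - 𝒩.X₁ a b Q := by
  have hab' : (n : ℤ) + 1 ≤ ((a + b : ℕ) : ℤ) := by exact_mod_cast hab
  have l1 := 𝒩.le_degree_X₁ a b
  obtain ⟨e, he0, he, ho⟩ := exists_fst hb hn (𝒩.X₂ a b) (off₁_X₁ (𝒩 := 𝒩) a b)
    (by linarith) hQ
  obtain ⟨u, hu, hue⟩ := exists_lift hx hb hn (by omega) he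
  refine ⟨u, hu, ?_, ?_, ?_⟩
  · rw [hue]; exact he0
  · rw [hue]
  · rw [hue]; exact ho

/-- (n), first component -/
theorem exists_node_one_aux (hx : IsSepParam K x) (hb : IsSepParam k t) {n : ℕ}
    (hn : 𝒩.IsLarge n) {a b : ℕ} (hab : n + 1 ≤ a + b) {v : Place K F} {Q : Place k Fb}
    (hQ : Q ∈ G₁ 𝒩) (hv : RedTo₁ 𝒩 v Q) (s : 𝒩.S) :
    ∃ h : T.O, (h : F) ∈ riemannRochSpace (-Finsupp.single v 1 + 𝒩.X a b) ∧
      HasVal (𝒩.x₁ s) (T.red h).1 1 ∧ HasVal (𝒩.x₂ s) (T.red h).2 1 := by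
  have hab' : (n : ℤ) + 1 ≤ ((a + b : ℕ) : ℤ) := by exact_mod_cast hab
  have l1 := 𝒩.le_degree_X₁ a b
  have l2 := 𝒩.le_degree_X₂ a b
  have e1 := W_neg_eq hx hb hn hab hQ (hv a b)
  obtain ⟨w, hw, hval⟩ := exists_mem_LL_hasVal hb hn
    ((off₁_X₁ (𝒩 := 𝒩) a b).sub (off₁_single hQ 1)) (off₂_X₂ (𝒩 := 𝒩) a b)
    (by rw [map_sub, hb.degree_single]; linarith) (by linarith) (fun _ => 1)
  rw [← e1] at hw
  obtain ⟨u, hu, rfl⟩ := hw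
  exact ⟨u, hu, (hval s).1, (hval s).2⟩

/-- (n) `v` of smooth type, `s` a node: a function vanishing at `v` with value `1` at the node `s`.
If `RedTo₁ v Q`, `Q ∈ G₁`: `W(-v) a b = LL (X₁ a b - Q) (X₂ a b)` (`W_neg_eq`) and
`exists_mem_LL_hasVal` (`c = 1`).  If `RedTo₂ v Q`: the same for `swapN 𝒩`. -/
theorem exists_node_one (hx : IsSepParam K x) (hb : IsSepParam k t) {n : ℕ} (hn : 𝒩.IsLarge n)
    {a b : ℕ} (hab : n + 1 ≤ a + b) {v : Place K F} (hv : Smooth 𝒩 v) (s : 𝒩.S) :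
    ∃ h : T.O, (h : F) ∈ riemannRochSpace (-Finsupp.single v 1 + 𝒩.X a b) ∧
      HasVal (𝒩.x₁ s) (T.red h).1 1 ∧ HasVal (𝒩.x₂ s) (T.red h).2 1 := by
  rcases hv with ⟨Q, hQ, hv⟩ | ⟨Q, hQ, hv⟩
  · exact exists_node_one_aux hx hb hn hab hQ hv s
  · obtain ⟨u, hu, h1, h2⟩ := exists_node_one_aux (𝒩 := swapN 𝒩) hx hb ((isLarge_swapN 𝒩).2 hn)
      hab hQ hv s
    exact ⟨ofSwap T u, hu, h2, h1⟩

end Fermat.Agent.ND
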