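import Fermat.Agent.ND.Red2

/-!
# [ND-EQV] equivariance of the specialisation maps under automorphisms acting trivially on the
special fibre (inertia)
-/

set_option autoImplicit false

open AlgebraicCurve

namespace Fermat.Agent.ND

open Fermat.Agent.RED Fermat.Agent.S24 Fermat.Agent.SS

variable {K F k Fb : Type*} [Field K] [Field F] [Algebra K F] [Field k] [Field Fb] [Algebra k Fb]
variable {T : TwoRed K F k Fb} {𝒩 : NodalData T}

theorem isCompat_swapN {g : SemilinearAut K F} {φ : SemilinearAut k Fb} (h : IsCompat 𝒩 g φ) :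
    IsCompat (swapN 𝒩) g φ where
  mem₁ := h.mem₂
  red₁ := h.red₂
  mem₂ := h.mem₁
  red₂ := h.red₁
  unit c hc := (mem_swapT_A T).2 (h.unit c hc)
  P := h.P
  x₁ := h.x₂
  x₂ := h.x₁

variable [IsAlgClosed K] [IsAlgClosed k] {x : F} {t : Fb}

/-- `g` maps `L(- v + a P) ∩ O` into `L(- g v + a P) ∩ O` (`NodalData.ws_smul_mem_L`, `hg.P`,
`hg.mem`; `g • single v 1 = single (g • v) 1`: `SemilinearAut.divisor_smul_def`,
`Finsupp.mapDomain_single`; compare the proof of `NodalData.zeta_smul`) and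
`red (g • u) = red u` (`hg.red`, `one_smul`).  So `W(-v) a 0 ≤ W(- g v) a 0`, and both have the same
dimension (`finrank_W'`, `finite_W`). -/
theorem W_neg_smul (hx : IsSepParam K x) {n : ℕ} (hn : 𝒩.IsLarge n) {a : ℕ} (ha : n + 1 ≤ a)
    {g : SemilinearAut K F} (hg : IsCompat 𝒩 g 1) (v : Place K F) :
    𝒩.W (-Finsupp.single (g • v) 1) a 0 = 𝒩.W (-Finsupp.single v 1) a 0 := by
  have hX : g • 𝒩.X a 0 = 𝒩.X a 0 := by
    have e : 𝒩.X a 0 = a • 𝒩.P := by simp only [NodalData.X, zero_nsmul, add_zero]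
    rw [e, smul_comm, hg.P]
  have hle : 𝒩.W (-Finsupp.single v 1) a 0 ≤ 𝒩.W (-Finsupp.single (g • v) 1) a 0 := by
    rintro _ ⟨u, hu, rfl⟩
    refine ⟨⟨g • (u : F), hg.mem u⟩, ?_, ?_⟩
    · have := NodalData.ws_smul_mem_L g hu
      rwa [smul_add, hX, smul_neg, SemilinearAut.smul_single] at this
    · rw [hg.red u, one_smul, one_smul]
  have hdeg : ∀ w : Place K F,
      (n : ℤ) ≤ Divisor.degree (-Finsupp.single w 1 + 𝒩.X a 0) := by
    intro w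
    rw [map_add, map_neg, hx.degree_single]
    have := 𝒩.le_degree_X a 0
    push_cast at this
    have ha' : ((n : ℤ) + 1) ≤ a := by exact_mod_cast ha
    linarith
  have h1 := finrank_W' hx hn (hdeg v)
  have h2 := finrank_W' hx hn (hdeg (g • v))
  rw [map_neg, hx.degree_single] at h1 h2
  have := finite_W (𝒩 := 𝒩) hx (-Finsupp.single (g • v) 1) a 0
  exact (Submodule.eq_of_le_of_finrank_eq hle (by exact_mod_cast h1.trans h2.symm)).symm

/-- `W_neg_smul` + `redTo₁_of_le` (chart `(n + 2, 0)`) -/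
theorem redTo₁_smul_iff (hx : IsSepParam K x) (hb : IsSepParam k t) {g : SemilinearAut K F}
    (hg : IsCompat 𝒩 g 1) {v : Place K F} {Q : Place k Fb} (hQ : Q ∈ G₁ 𝒩) :
    RedTo₁ 𝒩 (g • v) Q ↔ RedTo₁ 𝒩 v Q := by
  obtain ⟨n, hn⟩ := 𝒩.exists_isLarge hx hb
  have hW := W_neg_smul hx hn (a := n + 2) (by omega) hg v
  constructor
  · intro h
    exact redTo₁_of_le hx hb hn (a := n + 2) (b := 0) (by omega) hQ (hW ▸ h (n + 2) 0)
  · intro h
    exact redTo₁_of_le hx hb hn (a := n + 2) (b := 0) (by omega) hQ (hW.symm ▸ h (n + 2) 0)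

theorem redTo₂_smul_iff (hx : IsSepParam K x) (hb : IsSepParam k t) {g : SemilinearAut K F}
    (hg : IsCompat 𝒩 g 1) {v : Place K F} {Q : Place k Fb} (hQ : Q ∈ G₂ 𝒩) :
    RedTo₂ 𝒩 (g • v) Q ↔ RedTo₂ 𝒩 v Q :=
  redTo₁_smul_iff (𝒩 := swapN 𝒩) hx hb (isCompat_swapN hg) hQ

/-- unfold `r₁`; the two conditions `∃ Q, Q ∈ G₁ ∧ RedTo₁ _ Q` are equivalent by
`redTo₁_smul_iff`; use `r₁_eq_iff`, `r₁_mem_G₁_iff`. -/
theorem r₁_smul (hx : IsSepParam K x) (hb : IsSepParam k t) (s₀ : 𝒩.S) {g : SemilinearAut K F}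
    (hg : IsCompat 𝒩 g 1) (v : Place K F) : r₁ 𝒩 s₀ (g • v) = r₁ 𝒩 s₀ v := by
  by_cases h : ∃ Q, Q ∈ G₁ 𝒩 ∧ RedTo₁ 𝒩 v Q
  · obtain ⟨Q, hQ, hv⟩ := h
    rw [(r₁_eq_iff hx hb s₀ hQ).2 hv, (r₁_eq_iff hx hb s₀ hQ).2 ((redTo₁_smul_iff hx hb hg hQ).2 hv)]
  · have h' : ¬ ∃ Q, Q ∈ G₁ 𝒩 ∧ RedTo₁ 𝒩 (g • v) Q := by
      rintro ⟨Q, hQ, hv⟩
      exact h ⟨Q, hQ, (redTo₁_smul_iff hx hb hg hQ).1 hv⟩
    rw [r₁, r₁, dif_neg h, dif_neg h']

theorem r₂_smul (hx : IsSepParam K x) (hb : IsSepParam k t) (s₀ : 𝒩.S) {g : SemilinearAut K F}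
    (hg : IsCompat 𝒩 g 1) (v : Place K F) : r₂ 𝒩 s₀ (g • v) = r₂ 𝒩 s₀ v :=
  r₁_smul (𝒩 := swapN 𝒩) hx hb s₀ (isCompat_swapN hg) v

theorem smooth_smul_iff (hx : IsSepParam K x) (hb : IsSepParam k t) {g : SemilinearAut K F}
    (hg : IsCompat 𝒩 g 1) {v : Place K F} : Smooth 𝒩 (g • v) ↔ Smooth 𝒩 v := by
  unfold Smooth
  refine or_congr (exists_congr fun Q => and_congr_right fun hQ => redTo₁_smul_iff hx hb hg hQ)
    (exists_congr fun Q => and_congr_right fun hQ => redTo₂_smul_iff hx hb hg hQ)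

end Fermat.Agent.ND
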