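import Fermat.Agent.SS.Abs.WStruct
import Fermat.Agent.SS.TorsMulti

/-!
# [ND] nodal Deuring, part 0 : glued sections `LL E₁ E₂` on the special fibre (definitions)

`T : TwoRed K F k Fb`, `𝒩 : NodalData T` as in `SS/Abs/Defs.lean`.  The special fibre `Z` is the
union of two copies of the curve of `Fb / k`, glued at the nodes `x₁ s ~ x₂ s`.
`LL 𝒩 E₁ E₂` is the space of sections of the "line bundle" `O(E₁, E₂)` on `Z`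
(`E₁`, `E₂` should avoid the nodes: `Off₁`, `Off₂`).

This file contains only definitions and trivialities; it has no `sorry`.
-/

set_option autoImplicit false

open AlgebraicCurve

namespace Fermat.Agent.ND

open Fermat.Agent.RED Fermat.Agent.S24 Fermat.Agent.SS

variable {K F k Fb : Type*} [Field K] [Field F] [Algebra K F] [Field k] [Field Fb] [Algebra k Fb]
variable {T : TwoRed K F k Fb} (𝒩 : NodalData T)

/-- glued sections: pairs `(w₁, w₂) ∈ L(E₁) × L(E₂)`, regular at the nodes, with the same value at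
the two branches of every node. -/
def LL (E₁ E₂ : Divisor k Fb) : Submodule k (Fb × Fb) where
  carrier := {w | w.1 ∈ riemannRochSpace E₁ ∧ w.2 ∈ riemannRochSpace E₂ ∧
    ∀ s, ∃ c : k, HasVal (𝒩.x₁ s) w.1 c ∧ HasVal (𝒩.x₂ s) w.2 c}
  zero_mem' := ⟨Submodule.zero_mem _, Submodule.zero_mem _, fun _ =>
    ⟨0, by simpa using HasVal.const (k := k) (Fb := Fb) 0, by
      simpa using HasVal.const (k := k) (Fb := Fb) 0⟩⟩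
  add_mem' := by
    rintro w w' ⟨h1, h2, h3⟩ ⟨h1', h2', h3'⟩
    refine ⟨Submodule.add_mem _ h1 h1', Submodule.add_mem _ h2 h2', fun s => ?_⟩
    obtain ⟨c, hc1, hc2⟩ := h3 s
    obtain ⟨c', hc1', hc2'⟩ := h3' s
    exact ⟨c + c', hc1.add hc1', hc2.add hc2'⟩
  smul_mem' := by
    rintro a w ⟨h1, h2, h3⟩
    refine ⟨Submodule.smul_mem _ a h1, Submodule.smul_mem _ a h2, fun s => ?_⟩
    obtain ⟨c, hc1, hc2⟩ := h3 s
    exact ⟨a * c, hc1.smul a, hc2.smul a⟩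

variable {𝒩}

theorem mem_LL {E₁ E₂ : Divisor k Fb} {w : Fb × Fb} :
    w ∈ LL 𝒩 E₁ E₂ ↔ w.1 ∈ riemannRochSpace E₁ ∧ w.2 ∈ riemannRochSpace E₂ ∧
      ∀ s, ∃ c : k, HasVal (𝒩.x₁ s) w.1 c ∧ HasVal (𝒩.x₂ s) w.2 c := Iff.rfl

variable (𝒩)

/-- the good (= non nodal) points of the first component -/
def G₁ : Set (Place k Fb) := {Q | ∀ s, 𝒩.x₁ s ≠ Q}

/-- the good (= non nodal) points of the second component -/
def G₂ : Set (Place k Fb) := {Q | ∀ s, 𝒩.x₂ s ≠ Q}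

/-- the divisor `E` (on the first component) avoids the nodes -/
def Off₁ (E : Divisor k Fb) : Prop := ∀ s, E (𝒩.x₁ s) = 0

/-- the divisor `E` (on the second component) avoids the nodes -/
def Off₂ (E : Divisor k Fb) : Prop := ∀ s, E (𝒩.x₂ s) = 0

variable {𝒩}

theorem mem_G₁ {Q : Place k Fb} : Q ∈ G₁ 𝒩 ↔ ∀ s, 𝒩.x₁ s ≠ Q := Iff.rfl

theorem mem_G₂ {Q : Place k Fb} : Q ∈ G₂ 𝒩 ↔ ∀ s, 𝒩.x₂ s ≠ Q := Iff.rfl

theorem x₁_notMem_G₁ (s : 𝒩.S) : 𝒩.x₁ s ∉ G₁ 𝒩 := fun h => h s rfl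

theorem x₂_notMem_G₂ (s : 𝒩.S) : 𝒩.x₂ s ∉ G₂ 𝒩 := fun h => h s rfl

theorem Off₁.add {E E' : Divisor k Fb} (h : Off₁ 𝒩 E) (h' : Off₁ 𝒩 E') : Off₁ 𝒩 (E + E') :=
  fun s => by rw [Finsupp.add_apply, h s, h' s, add_zero]

theorem Off₂.add {E E' : Divisor k Fb} (h : Off₂ 𝒩 E) (h' : Off₂ 𝒩 E') : Off₂ 𝒩 (E + E') :=
  fun s => by rw [Finsupp.add_apply, h s, h' s, add_zero]

theorem Off₁.sub {E E' : Divisor k Fb} (h : Off₁ 𝒩 E) (h' : Off₁ 𝒩 E') : Off₁ 𝒩 (E - E') :=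
  fun s => by rw [Finsupp.sub_apply, h s, h' s, sub_zero]

theorem Off₂.sub {E E' : Divisor k Fb} (h : Off₂ 𝒩 E) (h' : Off₂ 𝒩 E') : Off₂ 𝒩 (E - E') :=
  fun s => by rw [Finsupp.sub_apply, h s, h' s, sub_zero]

theorem off₁_zero : Off₁ 𝒩 0 := fun _ => rfl

theorem off₂_zero : Off₂ 𝒩 0 := fun _ => rfl

theorem off₁_single {Q : Place k Fb} (hQ : Q ∈ G₁ 𝒩) (m : ℤ) : Off₁ 𝒩 (Finsupp.single Q m) :=
  fun s => Finsupp.single_eq_of_ne (hQ s)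

theorem off₂_single {Q : Place k Fb} (hQ : Q ∈ G₂ 𝒩) (m : ℤ) : Off₂ 𝒩 (Finsupp.single Q m) :=
  fun s => Finsupp.single_eq_of_ne (hQ s)

theorem off₁_X₁ (a b : ℕ) : Off₁ 𝒩 (𝒩.X₁ a b) := fun s => 𝒩.X₁_apply_node a b s

theorem off₂_X₂ (a b : ℕ) : Off₂ 𝒩 (𝒩.X₂ a b) := fun s => 𝒩.X₂_apply_node a b s

theorem LL_mono {E₁ E₂ E₁' E₂' : Divisor k Fb} (h₁ : E₁ ≤ E₁') (h₂ : E₂ ≤ E₂') :
    LL 𝒩 E₁ E₂ ≤ LL 𝒩 E₁' E₂' :=
  fun _ hw => ⟨L_mono h₁ hw.1, L_mono h₂ hw.2.1, hw.2.2⟩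

theorem mul_mem_LL {E₁ E₂ E₁' E₂' : Divisor k Fb} {w w' : Fb × Fb} (hw : w ∈ LL 𝒩 E₁ E₂)
    (hw' : w' ∈ LL 𝒩 E₁' E₂') : w * w' ∈ LL 𝒩 (E₁ + E₁') (E₂ + E₂') := by
  refine ⟨mul_mem_L hw.1 hw'.1, mul_mem_L hw.2.1 hw'.2.1, fun s => ?_⟩
  obtain ⟨c, hc1, hc2⟩ := hw.2.2 s
  obtain ⟨c', hc1', hc2'⟩ := hw'.2.2 s
  exact ⟨c * c', hc1.mul hc1', hc2.mul hc2'⟩

/-- `LL` of the chart divisors is `M 1 a b` of `SS/Abs`. -/
theorem coe_LL_X (a b : ℕ) : (LL 𝒩 (𝒩.X₁ a b) (𝒩.X₂ a b) : Set (Fb × Fb)) = 𝒩.M 1 a b := by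
  ext w
  simp only [SetLike.mem_coe, mem_LL, NodalData.M, matchSet, Set.mem_ofPred_eq, Pi.one_apply,
    one_mul]

theorem LL_X_eq_Msub (a b : ℕ) : LL 𝒩 (𝒩.X₁ a b) (𝒩.X₂ a b) = 𝒩.Msub 1 a b :=
  SetLike.coe_injective (by rw [coe_LL_X, NodalData.coe_Msub])

end Fermat.Agent.ND
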