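import Fermat.Agent.ND.LLGen

/-!
# [ND-LL-DIV] division lemma for glued sections (only the special fibre: `k`, `Fb`)
-/

set_option autoImplicit false

open AlgebraicCurve

namespace Fermat.Agent.ND

open Fermat.Agent.RED Fermat.Agent.S24 Fermat.Agent.SS

variable {K F k Fb : Type*} [Field K] [Field F] [Algebra K F] [Field k] [Field Fb] [Algebra k Fb]
variable {T : TwoRed K F k Fb} {𝒩 : NodalData T} [IsAlgClosed k] {t : Fb}

omit [IsAlgClosed k] in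
/-- auxiliary: from `u * z` having the value `c` and `z` the value `1`, `u` has the value `c`. -/
theorem hasVal_of_mul_aux {Q : Place k Fb} {u z : Fb} {c : k} (h : HasVal Q (u * z) c)
    (hz : HasVal Q z 1) : HasVal Q u c := by
  have hz0 : z ≠ 0 := hz.ne_zero one_ne_zero
  have h1 := h.mul (hz.inv one_ne_zero)
  rwa [mul_assoc, mul_inv_cancel₀ hz0, mul_one, inv_one, mul_one] at h1

theorem mem_LL_of_mul (hb : IsSepParam k t) {n : ℕ} (hn : 𝒩.IsLarge n)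
    {A₁ A₂ B₁ B₂ : Divisor k Fb} (hA₁ : Off₁ 𝒩 A₁) (hA₂ : Off₂ 𝒩 A₂) (hB₁ : Off₁ 𝒩 B₁)
    (hB₂ : Off₂ 𝒩 B₂) (d₁ : (n : ℤ) + 1 ≤ Divisor.degree A₁)
    (d₂ : (n : ℤ) + 1 ≤ Divisor.degree A₂) {u : Fb × Fb}
    (hu : ∀ z ∈ LL 𝒩 A₁ A₂, u * z ∈ LL 𝒩 B₁ B₂) : u ∈ LL 𝒩 (B₁ - A₁) (B₂ - A₂) := by
  classical
  -- values at the nodes
  have hnode : ∀ s, ∃ c : k, HasVal (𝒩.x₁ s) u.1 c ∧ HasVal (𝒩.x₂ s) u.2 c := by
    intro s
    obtain ⟨z, hz, hzv⟩ := exists_mem_LL_hasVal hb hn hA₁ hA₂ (by linarith) (by linarith)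
      (fun _ => (1 : k))
    obtain ⟨c, hc1, hc2⟩ := (hu z hz).2.2 s
    exact ⟨c, hasVal_of_mul_aux hc1 (hzv s).1, hasVal_of_mul_aux hc2 (hzv s).2⟩
  refine ⟨?_, ?_, hnode⟩
  · rw [mem_riemannRochSpace_iff]
    intro Q
    by_cases h0 : u.1 = 0
    · exact Or.inl h0
    right
    by_cases hQ : Q ∈ G₁ 𝒩
    · obtain ⟨z, hz, hz0, hzo⟩ := exists_ord₁ hb hn hA₁ hA₂ d₁ (by linarith) hQ
      have h1 := (mem_riemannRochSpace_iff.1 (hu z hz).1) Q
      rcases h1 with h1 | h1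
      · exact absurd h1 (mul_ne_zero h0 hz0)
      · have h2 : Q.ord ((u * z).1) = Q.ord u.1 + Q.ord z.1 := Q.ord_mul h0 hz0
        rw [h2, hzo] at h1
        rw [Finsupp.sub_apply]
        linarith
    · rw [mem_G₁] at hQ
      push Not at hQ
      obtain ⟨s, rfl⟩ := hQ
      obtain ⟨c, hc, -⟩ := hnode s
      rw [Finsupp.sub_apply, hB₁ s, hA₁ s]
      simpa using hc.ord_nonneg
  · rw [mem_riemannRochSpace_iff]
    intro Q
    by_cases h0 : u.2 = 0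
    · exact Or.inl h0
    right
    by_cases hQ : Q ∈ G₂ 𝒩
    · obtain ⟨z, hz, hz0, hzo⟩ := exists_ord₂ hb hn hA₁ hA₂ (by linarith) d₂ hQ
      have h1 := (mem_riemannRochSpace_iff.1 (hu z hz).2.1) Q
      rcases h1 with h1 | h1
      · exact absurd h1 (mul_ne_zero h0 hz0)
      · have h2 : Q.ord ((u * z).2) = Q.ord u.2 + Q.ord z.2 := Q.ord_mul h0 hz0
        rw [h2, hzo] at h1
        rw [Finsupp.sub_apply]
        linarith
    · rw [mem_G₂] at hQ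
      push Not at hQ
      obtain ⟨s, rfl⟩ := hQ
      obtain ⟨c, -, hc⟩ := hnode s
      rw [Finsupp.sub_apply, hB₂ s, hA₂ s]
      simpa using hc.ord_nonneg

end Fermat.Agent.ND
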