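import Fermat.Agent.ND.LLDim
import Fermat.Agent.RED.NonSpecial

/-!
# [ND-LL-GEN] generic glued sections (only the special fibre: `k`, `Fb`)

Sections with exact order at finitely many good points and non zero values at the nodes.
-/

set_option autoImplicit false

open AlgebraicCurve

namespace Fermat.Agent.ND

open Fermat.Agent.RED Fermat.Agent.S24 Fermat.Agent.SS

variable {K F k Fb : Type*} [Field K] [Field F] [Algebra K F] [Field k] [Field Fb] [Algebra k Fb]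
variable {T : TwoRed K F k Fb}

/-- sections vanishing at the node `s` -/
def LLn (𝒩 : NodalData T) (E₁ E₂ : Divisor k Fb) (s : 𝒩.S) : Submodule k (Fb × Fb) where
  carrier := {w | w ∈ LL 𝒩 E₁ E₂ ∧ HasVal (𝒩.x₁ s) w.1 0 ∧ HasVal (𝒩.x₂ s) w.2 0}
  zero_mem' := ⟨Submodule.zero_mem _, by simpa using HasVal.const (k := k) (Fb := Fb) 0, by
      simpa using HasVal.const (k := k) (Fb := Fb) 0⟩
  add_mem' := by
    rintro w w' ⟨h1, h2, h3⟩ ⟨h1', h2', h3'⟩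
    exact ⟨Submodule.add_mem _ h1 h1', by simpa using h2.add h2', by simpa using h3.add h3'⟩
  smul_mem' := by
    rintro a w ⟨h1, h2, h3⟩
    exact ⟨Submodule.smul_mem _ a h1, by simpa using h2.smul a, by simpa using h3.smul a⟩

variable {𝒩 : NodalData T}

theorem mem_LLn {E₁ E₂ : Divisor k Fb} {s : 𝒩.S} {w : Fb × Fb} :
    w ∈ LLn 𝒩 E₁ E₂ s ↔ w ∈ LL 𝒩 E₁ E₂ ∧ HasVal (𝒩.x₁ s) w.1 0 ∧ HasVal (𝒩.x₂ s) w.2 0 :=
  Iff.rfl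

theorem LLn_le (E₁ E₂ : Divisor k Fb) (s : 𝒩.S) : LLn 𝒩 E₁ E₂ s ≤ LL 𝒩 E₁ E₂ := fun _ h => h.1

/-- A vector space over an infinite field is not a finite union of proper subspaces
(Mathlib: `Subspace.biUnion_ne_univ_of_top_notMem`, applied inside `H`, i.e. to the subspaces
`(V i).comap H.subtype` of `H`). -/
theorem exists_mem_forall_notMem {k V ι : Type*} [Field k] [Infinite k] [AddCommGroup V]
    [Module k V] [Finite ι] (H : Submodule k V) (W : ι → Submodule k V) (hW : ∀ i, ¬ H ≤ W i) :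
    ∃ h ∈ H, ∀ i, h ∉ W i := by
  classical
  by_contra hcon
  push Not at hcon
  have hcov : ⋃ i, (((W i).comap H.subtype : Submodule k H) : Set H) = Set.univ := by
    ext x
    simp only [Set.mem_iUnion, Set.mem_univ, iff_true]
    obtain ⟨i, hi⟩ := hcon x x.2
    exact ⟨i, hi⟩
  obtain ⟨i, hi⟩ := Subspace.exists_eq_top_of_iUnion_eq_univ hcov
  apply hW i
  intro x hx
  have : (⟨x, hx⟩ : H) ∈ (W i).comap H.subtype := by rw [hi]; trivial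
  exact this

/-- an element of `L(E)` which is not in `L(E - Q)` has exact order `- E Q` at `Q` -/
theorem ord_eq_of_mem_L_of_notMem {E : Divisor k Fb} {Q : Place k Fb} {u : Fb}
    (h : u ∈ riemannRochSpace E) (h1 : u ∉ riemannRochSpace (E - Finsupp.single Q 1)) :
    u ≠ 0 ∧ Q.ord u = - E Q := by
  have h0 : u ≠ 0 := by
    intro h
    rw [h] at h1
    exact h1 (Submodule.zero_mem _)
  refine ⟨h0, ?_⟩
  have h2 := (mem_L_iff_of_ne_zero h0).1 h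
  rw [mem_L_iff_of_ne_zero h0] at h1
  push Not at h1
  obtain ⟨v, hv⟩ := h1
  rw [Finsupp.sub_apply] at hv
  by_cases hvQ : v = Q
  · subst hvQ
    rw [Finsupp.single_eq_same] at hv
    have := h2 v
    omega
  · rw [Finsupp.single_eq_of_ne hvQ] at hv
    have := h2 v
    omega

/-- a section which is not in `LL (E₁ - Q) E₂` has exact order `- E₁ Q` at `Q` -/
theorem ord_eq_of_notMem₁ {E₁ E₂ : Divisor k Fb} {Q : Place k Fb} {w : Fb × Fb}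
    (hw : w ∈ LL 𝒩 E₁ E₂) (hw' : w ∉ LL 𝒩 (E₁ - Finsupp.single Q 1) E₂) :
    w.1 ≠ 0 ∧ Q.ord w.1 = - E₁ Q :=
  ord_eq_of_mem_L_of_notMem hw.1 fun h => hw' ⟨h, hw.2.1, hw.2.2⟩

theorem ord_eq_of_notMem₂ {E₁ E₂ : Divisor k Fb} {Q : Place k Fb} {w : Fb × Fb}
    (hw : w ∈ LL 𝒩 E₁ E₂) (hw' : w ∉ LL 𝒩 E₁ (E₂ - Finsupp.single Q 1)) :
    w.2 ≠ 0 ∧ Q.ord w.2 = - E₂ Q :=
  ord_eq_of_mem_L_of_notMem hw.2.1 fun h => hw' ⟨hw.1, h, hw.2.2⟩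

/-- a section which does not vanish at the node `s` -/
theorem exists_val_ne_zero_of_notMem {E₁ E₂ : Divisor k Fb} {s : 𝒩.S} {w : Fb × Fb}
    (hw : w ∈ LL 𝒩 E₁ E₂) (hw' : w ∉ LLn 𝒩 E₁ E₂ s) :
    ∃ c : k, c ≠ 0 ∧ HasVal (𝒩.x₁ s) w.1 c ∧ HasVal (𝒩.x₂ s) w.2 c := by
  obtain ⟨c, hc1, hc2⟩ := hw.2.2 s
  refine ⟨c, ?_, hc1, hc2⟩
  rintro rfl
  exact hw' ⟨hw, hc1, hc2⟩

variable [IsAlgClosed k] {t : Fb}

/-- sections with prescribed values at the nodes: `evL hb 𝒩.x₁ E₁ h₁` and `evL hb 𝒩.x₂ E₂ h₂` are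
onto (`evL_surjective` + `hn.2`); same proof as `NodalData.exists_mem_M_hasVal`. -/
theorem exists_mem_LL_hasVal (hb : IsSepParam k t) {n : ℕ} (hn : 𝒩.IsLarge n)
    {E₁ E₂ : Divisor k Fb} (h₁ : Off₁ 𝒩 E₁) (h₂ : Off₂ 𝒩 E₂) (d₁ : (n : ℤ) ≤ Divisor.degree E₁)
    (d₂ : (n : ℤ) ≤ Divisor.degree E₂) (c : 𝒩.S → k) :
    ∃ w ∈ LL 𝒩 E₁ E₂, ∀ s, HasVal (𝒩.x₁ s) w.1 (c s) ∧ HasVal (𝒩.x₂ s) w.2 (c s) := by
  obtain ⟨u, hu⟩ := evL₁_surjective hb hn h₁ d₁ c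
  obtain ⟨v, hv⟩ := evL₂_surjective hb hn h₂ d₂ c
  have h1 : ∀ s, HasVal (𝒩.x₁ s) (u : Fb) (c s) := fun s => by
    have := hasVal_evL hb 𝒩.x₁ E₁ h₁ u s
    rwa [hu] at this
  have h2 : ∀ s, HasVal (𝒩.x₂ s) (v : Fb) (c s) := fun s => by
    have := hasVal_evL hb 𝒩.x₂ E₂ h₂ v s
    rwa [hv] at this
  exact ⟨(u, v), ⟨u.2, v.2, fun s => ⟨c s, h1 s, h2 s⟩⟩, fun s => ⟨h1 s, h2 s⟩⟩

/-- the sections vanishing at a node form a proper subspace -/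
theorem not_LL_le_LLn (hb : IsSepParam k t) {n : ℕ} (hn : 𝒩.IsLarge n)
    {E₁ E₂ : Divisor k Fb} (h₁ : Off₁ 𝒩 E₁) (h₂ : Off₂ 𝒩 E₂) (d₁ : (n : ℤ) ≤ Divisor.degree E₁)
    (d₂ : (n : ℤ) ≤ Divisor.degree E₂) (s : 𝒩.S) : ¬ LL 𝒩 E₁ E₂ ≤ LLn 𝒩 E₁ E₂ s := by
  intro hle
  obtain ⟨w, hw, hv⟩ := exists_mem_LL_hasVal hb hn h₁ h₂ d₁ d₂ (fun _ => 1)
  exact one_ne_zero ((hv s).1.unique (hle hw).2.1)

theorem exists_mem_G₁ (hb : IsSepParam k t) : ∃ Q, Q ∈ G₁ 𝒩 := by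
  have := hb.infinite_place45
  obtain ⟨Q, hQ⟩ := (Set.finite_range 𝒩.x₁).exists_notMem
  exact ⟨Q, fun s h => hQ ⟨s, h⟩⟩

theorem exists_mem_G₂ (hb : IsSepParam k t) : ∃ Q, Q ∈ G₂ 𝒩 := by
  have := hb.infinite_place45
  obtain ⟨Q, hQ⟩ := (Set.finite_range 𝒩.x₂).exists_notMem
  exact ⟨Q, fun s h => hQ ⟨s, h⟩⟩

/-- **generic sections**: exact order at finitely many good points of both components, non zero at
all nodes.  Proof: `exists_mem_forall_notMem` for `H = LL E₁ E₂` and the proper subspaces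
`LL (E₁ - Q) E₂` (`Q ∈ A₁`, `LL_sub_single₁_lt`), `LL E₁ (E₂ - Q)` (`Q ∈ A₂`), `LLn E₁ E₂ s`; to
get `w.1 ≠ 0`, `w.2 ≠ 0` even if `A₁` or `A₂` is empty, add one good point to each of them
(`hb.infinite_place45`, the nodes are finitely many) or use the value at a node if there is one. -/
theorem exists_generic (hb : IsSepParam k t) {n : ℕ} (hn : 𝒩.IsLarge n)
    {E₁ E₂ : Divisor k Fb} (h₁ : Off₁ 𝒩 E₁) (h₂ : Off₂ 𝒩 E₂)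
    (d₁ : (n : ℤ) + 1 ≤ Divisor.degree E₁) (d₂ : (n : ℤ) + 1 ≤ Divisor.degree E₂)
    (A₁ A₂ : Finset (Place k Fb)) (hA₁ : ∀ Q ∈ A₁, Q ∈ G₁ 𝒩) (hA₂ : ∀ Q ∈ A₂, Q ∈ G₂ 𝒩) :
    ∃ w ∈ LL 𝒩 E₁ E₂, w.1 ≠ 0 ∧ w.2 ≠ 0 ∧ (∀ Q ∈ A₁, Q.ord w.1 = - E₁ Q) ∧
      (∀ Q ∈ A₂, Q.ord w.2 = - E₂ Q) ∧
      ∀ s, ∃ c : k, c ≠ 0 ∧ HasVal (𝒩.x₁ s) w.1 c ∧ HasVal (𝒩.x₂ s) w.2 c := by
  classical
  obtain ⟨Q₁, hQ₁⟩ := exists_mem_G₁ (𝒩 := 𝒩) hb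
  obtain ⟨Q₂, hQ₂⟩ := exists_mem_G₂ (𝒩 := 𝒩) hb
  have hB₁ : ∀ Q ∈ insert Q₁ A₁, Q ∈ G₁ 𝒩 := by
    intro Q hQ
    rcases Finset.mem_insert.1 hQ with rfl | hQ
    · exact hQ₁
    · exact hA₁ Q hQ
  have hB₂ : ∀ Q ∈ insert Q₂ A₂, Q ∈ G₂ 𝒩 := by
    intro Q hQ
    rcases Finset.mem_insert.1 hQ with rfl | hQ
    · exact hQ₂
    · exact hA₂ Q hQ
  let W : ({Q // Q ∈ insert Q₁ A₁} ⊕ {Q // Q ∈ insert Q₂ A₂}) ⊕ 𝒩.S → Submodule k (Fb × Fb) :=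
    Sum.elim (Sum.elim (fun Q => LL 𝒩 (E₁ - Finsupp.single (Q : Place k Fb) 1) E₂)
      (fun Q => LL 𝒩 E₁ (E₂ - Finsupp.single (Q : Place k Fb) 1))) (fun s => LLn 𝒩 E₁ E₂ s)
  have : Infinite k := IsAlgClosed.instInfinite
  obtain ⟨w, hw, hW⟩ := exists_mem_forall_notMem (LL 𝒩 E₁ E₂) W (by
    rintro ((Q | Q) | s)
    · exact (LL_sub_single₁_lt hb hn h₁ h₂ d₁ (by omega) (hB₁ Q Q.2)).not_ge
    · exact (LL_sub_single₂_lt hb hn h₁ h₂ (by omega) d₂ (hB₂ Q Q.2)).not_ge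
    · exact not_LL_le_LLn hb hn h₁ h₂ (by omega) (by omega) s)
  have k₁ : ∀ Q ∈ insert Q₁ A₁, w.1 ≠ 0 ∧ Q.ord w.1 = - E₁ Q := fun Q hQ =>
    ord_eq_of_notMem₁ hw (hW (Sum.inl (Sum.inl ⟨Q, hQ⟩)))
  have k₂ : ∀ Q ∈ insert Q₂ A₂, w.2 ≠ 0 ∧ Q.ord w.2 = - E₂ Q := fun Q hQ =>
    ord_eq_of_notMem₂ hw (hW (Sum.inl (Sum.inr ⟨Q, hQ⟩)))
  exact ⟨w, hw, (k₁ Q₁ (Finset.mem_insert_self _ _)).1, (k₂ Q₂ (Finset.mem_insert_self _ _)).1,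
    fun Q hQ => (k₁ Q (Finset.mem_insert_of_mem hQ)).2,
    fun Q hQ => (k₂ Q (Finset.mem_insert_of_mem hQ)).2,
    fun s => exists_val_ne_zero_of_notMem hw (hW (Sum.inr s))⟩

/-- a section with exact order at one good point of the first component -/
theorem exists_ord₁ (hb : IsSepParam k t) {n : ℕ} (hn : 𝒩.IsLarge n)
    {E₁ E₂ : Divisor k Fb} (h₁ : Off₁ 𝒩 E₁) (h₂ : Off₂ 𝒩 E₂)
    (d₁ : (n : ℤ) + 1 ≤ Divisor.degree E₁) (d₂ : (n : ℤ) ≤ Divisor.degree E₂)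
    {Q : Place k Fb} (hQ : Q ∈ G₁ 𝒩) :
    ∃ w ∈ LL 𝒩 E₁ E₂, w.1 ≠ 0 ∧ Q.ord w.1 = - E₁ Q := by
  obtain ⟨w, hw, hw'⟩ := SetLike.exists_of_lt (LL_sub_single₁_lt hb hn h₁ h₂ d₁ d₂ hQ)
  exact ⟨w, hw, ord_eq_of_notMem₁ hw hw'⟩

theorem exists_ord₂ (hb : IsSepParam k t) {n : ℕ} (hn : 𝒩.IsLarge n)
    {E₁ E₂ : Divisor k Fb} (h₁ : Off₁ 𝒩 E₁) (h₂ : Off₂ 𝒩 E₂)
    (d₁ : (n : ℤ) ≤ Divisor.degree E₁) (d₂ : (n : ℤ) + 1 ≤ Divisor.degree E₂)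
    {Q : Place k Fb} (hQ : Q ∈ G₂ 𝒩) :
    ∃ w ∈ LL 𝒩 E₁ E₂, w.2 ≠ 0 ∧ Q.ord w.2 = - E₂ Q := by
  obtain ⟨w, hw, hw'⟩ := SetLike.exists_of_lt (LL_sub_single₂_lt hb hn h₁ h₂ d₁ d₂ hQ)
  exact ⟨w, hw, ord_eq_of_notMem₂ hw hw'⟩

/-- a section supported on the first component, with exact order at a good point `Q`:
`e ∈ L(E₁ - sumPts 𝒩.x₁)`, `e ∉ L(E₁ - sumPts 𝒩.x₁ - Q)` (these have different dimensions by
`hn.2`, the degrees being `≥ n - #S`). -/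
theorem exists_fst (hb : IsSepParam k t) {n : ℕ} (hn : 𝒩.IsLarge n)
    {E₁ : Divisor k Fb} (E₂ : Divisor k Fb) (h₁ : Off₁ 𝒩 E₁)
    (d₁ : (n : ℤ) + 1 ≤ Divisor.degree E₁) {Q : Place k Fb} (hQ : Q ∈ G₁ 𝒩) :
    ∃ e : Fb, e ≠ 0 ∧ (e, 0) ∈ LL 𝒩 E₁ E₂ ∧ Q.ord e = - E₁ Q := by
  set E := E₁ - sumPts 𝒩.x₁ with hE
  have hdeg : Divisor.degree E = Divisor.degree E₁ - Fintype.card 𝒩.S := by
    rw [hE, map_sub, degree_sumPts hb]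
  have f1 := hn.2 E (by omega)
  have f2 := hn.2 (E - Finsupp.single Q 1) (by rw [map_sub, hb.degree_single]; omega)
  rw [map_sub, hb.degree_single] at f2
  have hle : riemannRochSpace (E - Finsupp.single Q 1) ≤ riemannRochSpace E :=
    L_mono (sub_le_self _ (Finsupp.single_nonneg.2 zero_le_one))
  have hlt : riemannRochSpace (E - Finsupp.single Q 1) < riemannRochSpace E := by
    refine lt_of_le_of_ne hle fun h => ?_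
    rw [h] at f2
    omega
  obtain ⟨e, he, he'⟩ := SetLike.exists_of_lt hlt
  obtain ⟨he0, hord⟩ := ord_eq_of_mem_L_of_notMem he he'
  refine ⟨e, he0, ⟨L_mono (sub_le_self _ (sumPts_nonneg _)) he, Submodule.zero_mem _,
    fun s => ⟨0, ?_, by simpa using HasVal.const (Q := 𝒩.x₂ s) (0 : k)⟩⟩, ?_⟩
  · rw [hasVal_zero_iff]
    right
    have := (mem_L_iff_of_ne_zero he0).1 he (𝒩.x₁ s)
    rw [hE, Finsupp.sub_apply, sumPts_apply_self 𝒩.x₁_inj, h₁ s] at this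
    show 0 < (𝒩.x₁ s).ord e
    omega
  · rw [hord, hE, Finsupp.sub_apply, sumPts_apply_of_ne hQ, sub_zero]

end Fermat.Agent.ND
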