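import Fermat.Agent.ND.LLDim
import Fermat.Agent.ND.Good
import Fermat.Agent.RED.NonSpecial

/-!
# [ND-NS] non special points on the nodal curve (only the special fibre: `k`, `Fb`)

Same proofs as `RED/NonSpecial.lean` (`IsSepParam.exists_ell_add_single_eq`,
`IsSepParam.exists_nonspecial45`), with `finrank_LL` instead of Riemann's theorem.
-/

set_option autoImplicit false

open AlgebraicCurve

namespace Fermat.Agent.ND

open Fermat.Agent.RED Fermat.Agent.S24 Fermat.Agent.SS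

variable {K F k Fb : Type*} [Field K] [Field F] [Algebra K F] [Field k] [Field Fb] [Algebra k Fb]
variable {T : TwoRed K F k Fb} {𝒩 : NodalData T}

theorem le_add_single_one (D : Divisor k Fb) (Q : Place k Fb) : D ≤ D + Finsupp.single Q 1 := by
  classical
  intro w
  rw [Finsupp.add_apply]
  have : (0 : ℤ) ≤ Finsupp.single Q (1 : ℤ) w := by
    rw [Finsupp.single_apply]; split_ifs <;> norm_num
  linarith

/-- a function in `L(E + Q)`, not in `L(E)`, is not in `L(D)` if `D Q = E Q` -/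
theorem notMem_L_of_notMem {E D : Divisor k Fb} {Q : Place k Fb} (hQ : D Q = E Q) {f : Fb}
    (hf : f ∈ riemannRochSpace (E + Finsupp.single Q 1)) (hf' : f ∉ riemannRochSpace E) :
    f ∉ riemannRochSpace D := by
  have hf0 : f ≠ 0 := fun h0 => hf' (h0 ▸ Submodule.zero_mem _)
  rw [mem_L_iff_of_ne_zero hf0] at hf hf' ⊢
  push Not at hf' ⊢
  obtain ⟨w, hw⟩ := hf'
  have h1 := hf w
  rw [Finsupp.add_apply] at h1
  by_cases hwv : w = Q
  · subst hwv
    exact ⟨w, by rw [hQ]; exact hw⟩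
  · rw [Finsupp.single_eq_of_ne hwv] at h1
    omega

theorem LL_lt_add_single₁ {E₁ E₂ D₁ D₂ : Divisor k Fb} {Q : Place k Fb}
    (hne : LL 𝒩 (E₁ + Finsupp.single Q 1) E₂ ≠ LL 𝒩 E₁ E₂) (hD₁ : E₁ ≤ D₁) (hQ : D₁ Q = E₁ Q)
    (hD₂ : E₂ ≤ D₂) : LL 𝒩 D₁ D₂ < LL 𝒩 (D₁ + Finsupp.single Q 1) D₂ := by
  obtain ⟨f, hf, hf'⟩ : ∃ f ∈ LL 𝒩 (E₁ + Finsupp.single Q 1) E₂, f ∉ LL 𝒩 E₁ E₂ := by
    by_contra hno
    push Not at hno
    exact hne (le_antisymm hno (LL_mono (le_add_single_one _ _) le_rfl))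
  have h1 : f.1 ∉ riemannRochSpace E₁ := fun h => hf' ⟨h, hf.2.1, hf.2.2⟩
  refine lt_of_le_of_ne (LL_mono (le_add_single_one _ _) le_rfl) fun heq => ?_
  have h2 : f ∈ LL 𝒩 (D₁ + Finsupp.single Q 1) D₂ :=
    LL_mono (add_le_add_left hD₁ _) hD₂ hf
  rw [← heq] at h2
  exact notMem_L_of_notMem hQ hf.1 h1 h2.1

theorem LL_lt_add_single₂ {E₁ E₂ D₁ D₂ : Divisor k Fb} {Q : Place k Fb}
    (hne : LL 𝒩 E₁ (E₂ + Finsupp.single Q 1) ≠ LL 𝒩 E₁ E₂) (hD₁ : E₁ ≤ D₁) (hQ : D₂ Q = E₂ Q)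
    (hD₂ : E₂ ≤ D₂) : LL 𝒩 D₁ D₂ < LL 𝒩 D₁ (D₂ + Finsupp.single Q 1) := by
  obtain ⟨f, hf, hf'⟩ : ∃ f ∈ LL 𝒩 E₁ (E₂ + Finsupp.single Q 1), f ∉ LL 𝒩 E₁ E₂ := by
    by_contra hno
    push Not at hno
    exact hne (le_antisymm hno (LL_mono le_rfl (le_add_single_one _ _)))
  have h1 : f.2 ∉ riemannRochSpace E₂ := fun h => hf' ⟨hf.1, h, hf.2.2⟩
  refine lt_of_le_of_ne (LL_mono le_rfl (le_add_single_one _ _)) fun heq => ?_
  have h2 : f ∈ LL 𝒩 D₁ (D₂ + Finsupp.single Q 1) :=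
    LL_mono hD₁ (add_le_add_left hD₂ _) hf
  rw [← heq] at h2
  exact notMem_L_of_notMem hQ hf.2.1 h1 h2.2.1

theorem sum_single_nonneg (R : Finset (Place k Fb)) :
    (0 : Divisor k Fb) ≤ ∑ u ∈ R, Finsupp.single u (1 : ℤ) := by
  classical
  intro w
  rw [Finsupp.finsetSum_apply]
  refine Finset.sum_nonneg fun u _ => ?_
  rw [Finsupp.single_apply]; split_ifs <;> norm_num

theorem sum_single_apply_of_notMem {R : Finset (Place k Fb)} {v : Place k Fb} (hv : v ∉ R) :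
    (∑ u ∈ R, Finsupp.single u (1 : ℤ)) v = 0 := by
  classical
  rw [Finsupp.finsetSum_apply]
  refine Finset.sum_eq_zero fun u hu => ?_
  rw [Finsupp.single_apply, if_neg]
  rintro rfl
  exact hv hu

variable [IsAlgClosed k] {t : Fb}

/-- A special pair `(E₁, E₂)` can be enlarged by a generic good point (on one of the two
components) without enlarging `LL`.

Proof (by contradiction, as `exists_ell_add_single_eq`).  If every good `Q ∉ S₁` on the first
component and every good `Q ∉ S₂` on the second one enlarges `LL`, there is for every such `Q` a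
section with a pole of exact order `E Q + 1` at `Q`; by induction, for finite sets `R₁`, `R₂` of such
points, `dim LL (E₁ + ∑ R₁) (E₂ + ∑ R₂) ≥ dim LL E₁ E₂ + #R₁ + #R₂`.  Take `R₁`, `R₂` so large that
both degrees are `≥ n`: contradiction with `finrank_LL` and `hsp`. -/
theorem exists_LL_add_single_eq (hb : IsSepParam k t) {n : ℕ} (hn : 𝒩.IsLarge n)
    {E₁ E₂ : Divisor k Fb} (h₁ : Off₁ 𝒩 E₁) (h₂ : Off₂ 𝒩 E₂)
    (hsp : Divisor.degree E₁ + Divisor.degree E₂ + 1 - gR K F < Module.finrank k (LL 𝒩 E₁ E₂))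
    (S₁ S₂ : Set (Place k Fb)) (hS₁ : S₁.Finite) (hS₂ : S₂.Finite) :
    (∃ Q ∈ G₁ 𝒩, Q ∉ S₁ ∧ LL 𝒩 (E₁ + Finsupp.single Q 1) E₂ = LL 𝒩 E₁ E₂) ∨
    (∃ Q ∈ G₂ 𝒩, Q ∉ S₂ ∧ LL 𝒩 E₁ (E₂ + Finsupp.single Q 1) = LL 𝒩 E₁ E₂) := by
  classical
  by_contra hcon
  push Not at hcon
  obtain ⟨hc₁, hc₂⟩ := hcon
  have key₁ : ∀ R : Finset (Place k Fb), (∀ v ∈ R, v ∈ G₁ 𝒩 \ S₁) →
      Module.finrank k (LL 𝒩 E₁ E₂) + R.card ≤
        Module.finrank k (LL 𝒩 (E₁ + ∑ v ∈ R, Finsupp.single v (1 : ℤ)) E₂) := by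
    intro R
    induction R using Finset.induction_on with
    | empty => intro _; rw [Finset.sum_empty, add_zero]; simp
    | insert v R hvR ih =>
      intro hR
      have ih' := ih fun w hw => hR w (Finset.mem_insert_of_mem hw)
      have hv := hR v (Finset.mem_insert_self v R)
      have hlt := LL_lt_add_single₁ (D₁ := E₁ + ∑ v ∈ R, Finsupp.single v (1 : ℤ)) (D₂ := E₂)
        (hc₁ v hv.1 hv.2) (le_add_of_nonneg_right (sum_single_nonneg R))
        (by rw [Finsupp.add_apply, sum_single_apply_of_notMem hvR, add_zero]) le_rfl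
      have := finite_LL (𝒩 := 𝒩) hb (E₁ + ∑ v ∈ R, Finsupp.single v (1 : ℤ) + Finsupp.single v 1) E₂
      have h3 := Submodule.finrank_lt_finrank_of_lt hlt
      have e : E₁ + ∑ u ∈ insert v R, Finsupp.single u (1 : ℤ) =
          E₁ + ∑ v ∈ R, Finsupp.single v (1 : ℤ) + Finsupp.single v 1 := by
        rw [Finset.sum_insert hvR]; abel
      rw [Finset.card_insert_of_notMem hvR, e]
      omega
  have key₂ : ∀ R₁ : Finset (Place k Fb), (∀ v ∈ R₁, v ∈ G₁ 𝒩 \ S₁) →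
      ∀ R : Finset (Place k Fb), (∀ v ∈ R, v ∈ G₂ 𝒩 \ S₂) →
      Module.finrank k (LL 𝒩 E₁ E₂) + R₁.card + R.card ≤
        Module.finrank k (LL 𝒩 (E₁ + ∑ v ∈ R₁, Finsupp.single v (1 : ℤ))
          (E₂ + ∑ v ∈ R, Finsupp.single v (1 : ℤ))) := by
    intro R₁ hR₁ R
    induction R using Finset.induction_on with
    | empty => intro _; rw [Finset.sum_empty, add_zero]; simpa using key₁ R₁ hR₁
    | insert v R hvR ih =>
      intro hR
      have ih' := ih fun w hw => hR w (Finset.mem_insert_of_mem hw)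
      have hv := hR v (Finset.mem_insert_self v R)
      have hlt := LL_lt_add_single₂ (D₁ := E₁ + ∑ v ∈ R₁, Finsupp.single v (1 : ℤ))
        (D₂ := E₂ + ∑ v ∈ R, Finsupp.single v (1 : ℤ))
        (hc₂ v hv.1 hv.2) (le_add_of_nonneg_right (sum_single_nonneg R₁))
        (by rw [Finsupp.add_apply, sum_single_apply_of_notMem hvR, add_zero])
        (le_add_of_nonneg_right (sum_single_nonneg R))
      have := finite_LL (𝒩 := 𝒩) hb (E₁ + ∑ v ∈ R₁, Finsupp.single v (1 : ℤ))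
        (E₂ + ∑ v ∈ R, Finsupp.single v (1 : ℤ) + Finsupp.single v 1)
      have h3 := Submodule.finrank_lt_finrank_of_lt hlt
      have e : E₂ + ∑ u ∈ insert v R, Finsupp.single u (1 : ℤ) =
          E₂ + ∑ v ∈ R, Finsupp.single v (1 : ℤ) + Finsupp.single v 1 := by
        rw [Finset.sum_insert hvR]; abel
      rw [Finset.card_insert_of_notMem hvR, e]
      omega
  obtain ⟨R₁, hR₁, c₁⟩ := (G₁_diff_infinite (𝒩 := 𝒩) hb hS₁).exists_subset_card_eq
    ((n : ℤ) - Divisor.degree E₁).toNat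
  obtain ⟨R₂, hR₂, c₂⟩ := (G₂_diff_infinite (𝒩 := 𝒩) hb hS₂).exists_subset_card_eq
    ((n : ℤ) - Divisor.degree E₂).toNat
  have hk := key₂ R₁ (fun v hv => hR₁ hv) R₂ (fun v hv => hR₂ hv)
  have t₁ := Int.self_le_toNat ((n : ℤ) - Divisor.degree E₁)
  have t₂ := Int.self_le_toNat ((n : ℤ) - Divisor.degree E₂)
  have hf := finrank_LL hb hn (h₁.add (off₁_sum_single fun Q hQ => (hR₁ hQ).1))
    (h₂.add (off₂_sum_single fun Q hQ => (hR₂ hQ).1))
    (by rw [map_add, degree_sum_single hb, c₁]; omega)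
    (by rw [map_add, degree_sum_single hb, c₂]; omega)
  rw [map_add, map_add, degree_sum_single hb, degree_sum_single hb] at hf
  omega

/-- **(NS)** existence of `g` non special good points, avoiding given finite sets.
Induction on `g`, starting from `finrank_LL_zero`, with `exists_LL_add_single_eq` applied to
`S₁ ∪ B₁`, `S₂ ∪ B₂`. -/
theorem exists_nonspecial (hb : IsSepParam k t) {n : ℕ} (hn : 𝒩.IsLarge n) (s₀ : 𝒩.S)
    (S₁ S₂ : Set (Place k Fb)) (hS₁ : S₁.Finite) (hS₂ : S₂.Finite) (g : ℕ)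
    (hg : (g : ℤ) ≤ gR K F) :
    ∃ B₁ B₂ : Finset (Place k Fb), (∀ Q ∈ B₁, Q ∈ G₁ 𝒩 ∧ Q ∉ S₁) ∧
      (∀ Q ∈ B₂, Q ∈ G₂ 𝒩 ∧ Q ∉ S₂) ∧ B₁.card + B₂.card = g ∧
      LL 𝒩 (∑ Q ∈ B₁, Finsupp.single Q 1) (∑ Q ∈ B₂, Finsupp.single Q 1) = LL 𝒩 0 0 := by
  classical
  induction g with
  | zero => exact ⟨∅, ∅, by simp, by simp, by simp, by simp⟩
  | succ g ih =>
    obtain ⟨B₁, B₂, b₁, b₂, hc, hL⟩ := ih (by push_cast at hg; omega)
    have hc' : (B₁.card : ℤ) + B₂.card = g := by exact_mod_cast hc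
    rcases exists_LL_add_single_eq hb hn (off₁_sum_single fun Q hQ => (b₁ Q hQ).1)
      (off₂_sum_single fun Q hQ => (b₂ Q hQ).1)
      (by
        rw [hL, finrank_LL_zero hb s₀, degree_sum_single hb, degree_sum_single hb]
        push_cast at hg ⊢
        omega) (S₁ ∪ B₁) (S₂ ∪ B₂) (hS₁.union B₁.finite_toSet) (hS₂.union B₂.finite_toSet) with
      ⟨Q, hQ, hQS, e⟩ | ⟨Q, hQ, hQS, e⟩
    · have hQB : Q ∉ B₁ := fun h => hQS (Or.inr h)
      refine ⟨insert Q B₁, B₂, ?_, b₂, ?_, ?_⟩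
      · intro Q' hQ'
        rcases Finset.mem_insert.1 hQ' with rfl | h
        · exact ⟨hQ, fun h => hQS (Or.inl h)⟩
        · exact b₁ Q' h
      · rw [Finset.card_insert_of_notMem hQB]; omega
      · rw [Finset.sum_insert hQB, add_comm, e, hL]
    · have hQB : Q ∉ B₂ := fun h => hQS (Or.inr h)
      refine ⟨B₁, insert Q B₂, b₁, ?_, ?_, ?_⟩
      · intro Q' hQ'
        rcases Finset.mem_insert.1 hQ' with rfl | h
        · exact ⟨hQ, fun h => hQS (Or.inl h)⟩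
        · exact b₂ Q' h
      · rw [Finset.card_insert_of_notMem hQB]; omega
      · rw [Finset.sum_insert hQB, add_comm, e, hL]

end Fermat.Agent.ND
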