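import Fermat.Agent.ND.P1b
import Fermat.Agent.RED.S18.Kummer

/-!
# [ND-P1] the fundamental formula (P1) at the good points

For `y ∈ F` with `|y|₁ = 1` and `Q` a good point of the first component:
`ord_Q (red₁ y) = ∑_{v ↦ Q} ord_v y`.  No condition on `|y|₂`.
-/

set_option autoImplicit false

open AlgebraicCurve

namespace Fermat.Agent.ND

open Fermat.Agent.RED Fermat.Agent.S24 Fermat.Agent.SS

variable {K F k Fb : Type*} [Field K] [Field F] [Algebra K F] [Field k] [Field Fb] [Algebra k Fb]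
variable {T : TwoRed K F k Fb} {𝒩 : NodalData T}
variable [IsAlgClosed K] [IsAlgClosed k] {x : F} {t : Fb}

/-- **generalised pole bound**: induction on `E` (`Finsupp.induction_linear` or
`Finsupp.induction` + `Int.induction_on` for `single v m`), from the three lemmas above. -/
theorem poleBound (hx : IsSepParam K x) (hb : IsSepParam k t) (s₀ : 𝒩.S) {Q : Place k Fb}
    (hQ : Q ∈ G₁ 𝒩) (E : Divisor K F) : PoleBound 𝒩 s₀ Q E := by
  have key : ∀ (E : Divisor K F), PoleBound 𝒩 s₀ Q E → ∀ (v : Place K F) (m : ℤ),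
      PoleBound 𝒩 s₀ Q (E + Finsupp.single v m) := by
    intro E hE v m
    induction m using Int.induction_on with
    | zero => rwa [Finsupp.single_zero, add_zero]
    | succ i ih =>
      have := ih.add_single hx hb s₀ hQ v
      rwa [add_assoc, ← Finsupp.single_add] at this
    | pred i ih =>
      have := ih.sub_single hx hb s₀ hQ v
      rwa [add_sub_assoc, ← Finsupp.single_sub] at this
  induction E using Finsupp.induction with
  | zero => exact poleBound_zero hx hb s₀ hQ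
  | single_add v m E _ _ ih =>
    rw [add_comm]
    exact key E ih v m

/-- **(P1)**.  `≤`: `poleBound` with `E = -D`, `a = b = 0` (`y ∈ L(- div y)`).
`≥`: the same for `y⁻¹` (`T.R₁.inv_mem_of_red_ne_zero`, `T.R₁.red_inv`, `Place.ord_inv`). -/
theorem div_red₁ (hx : IsSepParam K x) (hb : IsSepParam k t) (s₀ : 𝒩.S) (y : T.R₁.O)
    (hy : T.R₁.red y ≠ 0) (D : Divisor K F) (hD : ∀ v : Place K F, D v = v.ord (y : F))
    {Q : Place k Fb} (hQ : Q ∈ G₁ 𝒩) : D.mapDomain (r₁ 𝒩 s₀) Q = Q.ord (T.R₁.red y) := by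
  have hy0 : (y : F) ≠ 0 := by
    intro h0
    exact hy (by rw [show y = 0 from Subtype.ext h0, map_zero])
  have hX : 𝒩.X 0 0 = 0 := by simp [NodalData.X]
  have hX₁ : 𝒩.X₁ 0 0 = 0 := by simp [NodalData.X₁]
  apply le_antisymm
  · have h1 := poleBound hx hb s₀ hQ (-D) 0 0 y hy (by
      rw [hX, add_zero, mem_L_iff_of_ne_zero hy0]
      intro v
      rw [Finsupp.neg_apply, hD]
      omega)
    rw [hX₁, mapDomain_neg_apply, Finsupp.zero_apply] at h1
    linarith
  · have h1 := poleBound hx hb s₀ hQ D 0 0 ⟨(y : F)⁻¹, T.R₁.inv_mem_of_red_ne_zero hy⟩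
      (by rw [T.R₁.red_inv hy]; exact inv_ne_zero hy) (by
      rw [hX, add_zero, mem_L_iff_of_ne_zero (inv_ne_zero hy0)]
      intro v
      rw [Place.ord_inv, hD]
      omega)
    rw [hX₁, T.R₁.red_inv hy, Place.ord_inv, Finsupp.zero_apply] at h1
    linarith

/-- The structure used by `SS/TorsMulti.lean`.  All fields except `div_red` as in
`RED.RedData.isReduction` (`RED/S18/Kummer.lean`). -/
theorem isReductionOn₁ (hx : IsSepParam K x) (hb : IsSepParam k t) (s₀ : 𝒩.S) :
    IsReductionOn T.R₁.O T.R₁.red (r₁ 𝒩 s₀) (G₁ 𝒩) where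
  ker := T.R₁.red_eq_zero_iff
  const := fun c h => by
    obtain ⟨a, ha⟩ := T.R₁.red_const c h
    exact ⟨a, ha.symm⟩
  scale := fun f hf => by
    obtain ⟨c, h, hc⟩ := T.R₁.exists_scale f hf
    have h1 := (T.R₁.valuation_eq_one_iff ⟨_, h⟩).mpr hc
    have h2 : T.R₁.O.valuation (algebraMap K F c) * T.R₁.O.valuation f = 1 := by
      rw [← map_mul]; exact h1
    refine ⟨c⁻¹, ?_⟩
    rw [map_inv₀, map_inv₀]
    exact eq_inv_of_mul_eq_one_right h2
  div_red := fun y hy1 D hD Q hQ =>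
    div_red₁ hx hb s₀ y ((T.R₁.valuation_eq_one_iff y).mp hy1) D hD hQ
  exists_div := fun f _ => ⟨dv K f, fun P => hx.dv_apply f P⟩
  exists_value := fun P f hf => hx.exists_value P hf

theorem isReductionOn₂ (hx : IsSepParam K x) (hb : IsSepParam k t) (s₀ : 𝒩.S) :
    IsReductionOn T.R₂.O T.R₂.red (r₂ 𝒩 s₀) (G₂ 𝒩) :=
  isReductionOn₁ (𝒩 := swapN 𝒩) hx hb s₀

end Fermat.Agent.ND
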