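import Fermat.Agent.ND.Red

/-!
# [ND-RED-B] uniqueness of the reduction of a place; the specialisation maps `r₁`, `r₂`
-/

set_option autoImplicit false

open AlgebraicCurve

namespace Fermat.Agent.ND

open Fermat.Agent.RED Fermat.Agent.S24 Fermat.Agent.SS

variable {K F k Fb : Type*} [Field K] [Field F] [Algebra K F] [Field k] [Field Fb] [Algebra k Fb]
variable {T : TwoRed K F k Fb} {𝒩 : NodalData T}
variable [IsAlgClosed K] [IsAlgClosed k] {x : F} {t : Fb}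

/-- (R4) **uniqueness.**  Take `n` large (`𝒩.exists_isLarge hx hb`), `(a, b) = (n + 2, 0)`.  By (R1)
`LL (X₁ - Q) X₂ = W(-v) = LL (X₁ - Q') X₂`.  If `Q ≠ Q'` this space is contained in
`LL (X₁ - Q - Q') X₂`, which is a proper subspace of `LL (X₁ - Q) X₂` (`LL_sub_single₁_lt`). -/
theorem RedTo₁.unique (hx : IsSepParam K x) (hb : IsSepParam k t) {v : Place K F}
    {Q Q' : Place k Fb} (hQ : Q ∈ G₁ 𝒩) (hQ' : Q' ∈ G₁ 𝒩) (h : RedTo₁ 𝒩 v Q)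
    (h' : RedTo₁ 𝒩 v Q') : Q = Q' := by
  by_contra hne
  obtain ⟨n, hn⟩ := 𝒩.exists_isLarge hx hb
  have l1 := 𝒩.le_degree_X₁ (n + 2) 0
  have l2 := 𝒩.le_degree_X₂ (n + 2) 0
  push_cast at l1 l2
  have e1 := W_neg_eq hx hb hn (a := n + 2) (b := 0) (by omega) hQ (h _ _)
  have e2 := W_neg_eq hx hb hn (a := n + 2) (b := 0) (by omega) hQ' (h' _ _)
  have hlt := LL_sub_single₁_lt hb hn ((off₁_X₁ (𝒩 := 𝒩) (n + 2) 0).sub (off₁_single hQ 1))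
    (off₂_X₂ (𝒩 := 𝒩) (n + 2) 0) (by rw [map_sub, hb.degree_single]; linarith) (by linarith) hQ'
  refine lt_irrefl _ (lt_of_lt_of_le hlt ?_)
  intro w hw
  have hw' : w ∈ LL 𝒩 (𝒩.X₁ (n + 2) 0 - Finsupp.single Q' 1) (𝒩.X₂ (n + 2) 0) := by
    rw [← e2, e1]; exact hw
  refine ⟨?_, hw.2.1, hw.2.2⟩
  by_cases h0 : w.1 = 0
  · rw [h0]; exact Submodule.zero_mem _
  have h1 := (mem_L_iff_of_ne_zero h0).1 hw.1
  have h2 := (mem_L_iff_of_ne_zero h0).1 hw'.1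
  rw [mem_L_iff_of_ne_zero h0]
  intro u
  have h1u := h1 u
  have h2u := h2 u
  rw [Finsupp.sub_apply] at h1u h2u
  rw [Finsupp.sub_apply, Finsupp.sub_apply]
  by_cases hu : u = Q
  · subst hu
    rw [Finsupp.single_eq_of_ne hne, sub_zero]
    exact h1u
  · rw [Finsupp.single_eq_of_ne hu, sub_zero]
    exact h2u

/-- (R5) **a place is of smooth type on at most one component.**  As (R4):
`LL (X₁ - Q) X₂ = W(-v) = LL X₁ (X₂ - Q')` would be contained in `LL (X₁ - Q) (X₂ - Q')`, a proper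
subspace of `LL (X₁ - Q) X₂` (`LL_sub_single₂_lt`). -/
theorem RedTo₁.not_redTo₂ (hx : IsSepParam K x) (hb : IsSepParam k t) {v : Place K F}
    {Q Q' : Place k Fb} (hQ : Q ∈ G₁ 𝒩) (hQ' : Q' ∈ G₂ 𝒩) (h : RedTo₁ 𝒩 v Q) :
    ¬ RedTo₂ 𝒩 v Q' := by
  intro h'
  rw [redTo₂_iff] at h'
  obtain ⟨n, hn⟩ := 𝒩.exists_isLarge hx hb
  have l1 := 𝒩.le_degree_X₁ (n + 2) 0
  have l2 := 𝒩.le_degree_X₂ (n + 2) 0
  push_cast at l1 l2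
  have e1 := W_neg_eq hx hb hn (a := n + 2) (b := 0) (by omega) hQ (h _ _)
  have hlt := LL_sub_single₂_lt hb hn ((off₁_X₁ (𝒩 := 𝒩) (n + 2) 0).sub (off₁_single hQ 1))
    (off₂_X₂ (𝒩 := 𝒩) (n + 2) 0) (by rw [map_sub, hb.degree_single]; linarith) (by linarith) hQ'
  refine lt_irrefl _ (lt_of_lt_of_le hlt ?_)
  intro w hw
  have hw' := h' (n + 2) 0 (by rw [e1]; exact hw)
  exact ⟨hw.1, hw'.2.1, hw.2.2⟩

/-- from (R4) and `Exists.choose_spec` -/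
theorem r₁_eq_iff (hx : IsSepParam K x) (hb : IsSepParam k t) (s₀ : 𝒩.S) {v : Place K F}
    {Q : Place k Fb} (hQ : Q ∈ G₁ 𝒩) : r₁ 𝒩 s₀ v = Q ↔ RedTo₁ 𝒩 v Q := by
  classical
  unfold r₁
  by_cases hex : ∃ Q, Q ∈ G₁ 𝒩 ∧ RedTo₁ 𝒩 v Q
  · rw [dif_pos hex]
    constructor
    · intro h
      rw [← h]
      exact hex.choose_spec.2
    · intro h
      exact RedTo₁.unique hx hb hex.choose_spec.1 hQ hex.choose_spec.2 h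
  · rw [dif_neg hex]
    constructor
    · intro h
      exact absurd h (hQ s₀)
    · intro h
      exact absurd ⟨Q, hQ, h⟩ hex

theorem r₂_eq_iff (hx : IsSepParam K x) (hb : IsSepParam k t) (s₀ : 𝒩.S) {v : Place K F}
    {Q : Place k Fb} (hQ : Q ∈ G₂ 𝒩) : r₂ 𝒩 s₀ v = Q ↔ RedTo₂ 𝒩 v Q :=
  r₁_eq_iff (𝒩 := swapN 𝒩) hx hb s₀ hQ

omit [IsAlgClosed K] [IsAlgClosed k] in
theorem r₁_mem_G₁_iff (s₀ : 𝒩.S) {v : Place K F} :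
    r₁ 𝒩 s₀ v ∈ G₁ 𝒩 ↔ ∃ Q ∈ G₁ 𝒩, RedTo₁ 𝒩 v Q := by
  classical
  unfold r₁
  by_cases hex : ∃ Q, Q ∈ G₁ 𝒩 ∧ RedTo₁ 𝒩 v Q
  · rw [dif_pos hex]
    exact ⟨fun _ => hex, fun _ => hex.choose_spec.1⟩
  · rw [dif_neg hex]
    exact ⟨fun h => absurd h (x₁_notMem_G₁ s₀), fun h => absurd h hex⟩

omit [IsAlgClosed K] [IsAlgClosed k] in
theorem r₂_mem_G₂_iff (s₀ : 𝒩.S) {v : Place K F} :
    r₂ 𝒩 s₀ v ∈ G₂ 𝒩 ↔ ∃ Q ∈ G₂ 𝒩, RedTo₂ 𝒩 v Q :=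
  r₁_mem_G₁_iff (𝒩 := swapN 𝒩) s₀

omit [IsAlgClosed K] [IsAlgClosed k] in
theorem smooth_iff (s₀ : 𝒩.S) {v : Place K F} :
    Smooth 𝒩 v ↔ r₁ 𝒩 s₀ v ∈ G₁ 𝒩 ∨ r₂ 𝒩 s₀ v ∈ G₂ 𝒩 := by
  rw [r₁_mem_G₁_iff, r₂_mem_G₂_iff]; rfl

/-- `hdisj` of `SS.isPrincipal_of_torsion_multi` -/
theorem not_mem_G₁_and_mem_G₂ (hx : IsSepParam K x) (hb : IsSepParam k t) (s₀ : 𝒩.S)
    {v : Place K F} (h₁ : r₁ 𝒩 s₀ v ∈ G₁ 𝒩) (h₂ : r₂ 𝒩 s₀ v ∈ G₂ 𝒩) : False := by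
  obtain ⟨Q, hQ, h⟩ := (r₁_mem_G₁_iff s₀).1 h₁
  obtain ⟨Q', hQ', h'⟩ := (r₂_mem_G₂_iff s₀).1 h₂
  exact h.not_redTo₂ hx hb hQ hQ' h'

end Fermat.Agent.ND
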