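import Fermat.Agent.ND.Elts
import Fermat.Agent.ND.Red2

/-!
# [ND-P1-A] generalised pole bound: definition and base case
-/

set_option autoImplicit false

open AlgebraicCurve

namespace Fermat.Agent.ND

open Fermat.Agent.RED Fermat.Agent.S24 Fermat.Agent.SS

variable {K F k Fb : Type*} [Field K] [Field F] [Algebra K F] [Field k] [Field Fb] [Algebra k Fb]
variable {T : TwoRed K F k Fb} {𝒩 : NodalData T}
variable [IsAlgClosed K] [IsAlgClosed k] {x : F} {t : Fb}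

/-- the statement proved by induction on `E` -/
def PoleBound (𝒩 : NodalData T) (s₀ : 𝒩.S) (Q : Place k Fb) (E : Divisor K F) : Prop :=
  ∀ (a b : ℕ) (y : T.R₁.O), T.R₁.red y ≠ 0 → (y : F) ∈ riemannRochSpace (E + 𝒩.X a b) →
    - 𝒩.X₁ a b Q - E.mapDomain (r₁ 𝒩 s₀) Q ≤ Q.ord (T.R₁.red y)

/-- **base case** `E = 0`.  `y ∈ L(X a b)`, `|y|₁ = 1`, but `y` need not be in `O₂`.
Let `n` be large and `e` as in `exists_e` for the chart `(n + 1, 0)`: `e ∈ L(X (n+1) 0) ∩ O`,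
`red e = (e₁, 0)`, `ord_Q e₁ = - X₁ (n+1) 0 Q`.  Claim: `y * e ^ N ∈ O₂` for some `N`.  Indeed
`T.R₂.exists_scale` gives constants `c`, `π` with `c * y`, `π⁻¹ * e` (say) units of `O₂`; `π ∈ T.A`,
`π⁻¹ ∉ T.A` because `red₂ e = 0`, and `𝒩.arch` gives `N` with `π ^ N * c ∈ T.A` (apply it to
`c⁻¹`); use `T.const_mem`.  Then `Y = y * e ^ N ∈ L(X (a + N (n+1)) b) ∩ O` (`mul_mem_L`, `pow_mem_L`,
`NodalData.wsX_add`, `wsX_mul`), so by `𝒩.pole`
`ord_Q (red₁ y) + N * ord_Q e₁ = ord_Q (red Y).1 ≥ - X₁ (a + N (n+1)) b Q`. -/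
theorem poleBound_zero (hx : IsSepParam K x) (hb : IsSepParam k t) (s₀ : 𝒩.S) {Q : Place k Fb}
    (hQ : Q ∈ G₁ 𝒩) : PoleBound 𝒩 s₀ Q 0 := by
  intro a b y hy hyL
  rw [zero_add] at hyL
  rw [Finsupp.mapDomain_zero, Finsupp.zero_apply, sub_zero]
  obtain ⟨n, hn⟩ := 𝒩.exists_isLarge hx hb
  obtain ⟨e, heL, he1, he2, heQ⟩ := exists_e (a := n + 1) (b := 0) hx hb hn le_rfl hQ
  have hy0 : (y : F) ≠ 0 := by
    intro h0
    exact hy (by rw [show y = 0 from Subtype.ext h0, map_zero])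
  have he0 : (e : F) ≠ 0 := by
    intro h0
    apply he1
    rw [show e = 0 from Subtype.ext h0, map_zero]
    rfl
  -- `y * e ^ N ∈ O₂`
  obtain ⟨c, hc, hcr⟩ := T.R₂.exists_scale (y : F) hy0
  obtain ⟨d, hd, hdr⟩ := T.R₂.exists_scale (e : F) he0
  have hc0 : c ≠ 0 := by
    rintro rfl
    apply hcr
    rw [show (⟨algebraMap K F 0 * (y : F), hc⟩ : T.R₂.O) = 0 from Subtype.ext (by simp), map_zero]
  have hd0 : d ≠ 0 := by
    rintro rfl
    apply hdr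
    rw [show (⟨algebraMap K F 0 * (e : F), hd⟩ : T.R₂.O) = 0 from Subtype.ext (by simp), map_zero]
  have hdA : d ∉ T.A := by
    intro hdA
    have hd2 : algebraMap K F d ∈ T.R₂.O := (T.const_mem d).1 hdA
    apply hdr
    have : (⟨algebraMap K F d * (e : F), hd⟩ : T.R₂.O)
        = ⟨algebraMap K F d, hd2⟩ * ⟨(e : F), e.2.2⟩ := rfl
    rw [this, map_mul]
    have h2 : T.R₂.red ⟨(e : F), e.2.2⟩ = 0 := he2
    rw [h2, mul_zero]
  have hπA : d⁻¹ ∈ T.A := (T.A.mem_or_inv_mem d).resolve_left hdA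
  obtain ⟨N, hN⟩ := 𝒩.arch d⁻¹ c hc0 hπA (by rwa [inv_inv])
  have hN2 : algebraMap K F (d⁻¹ ^ N * c⁻¹) ∈ T.R₂.O := (T.const_mem _).1 hN
  have hY2 : (y : F) * (e : F) ^ N ∈ T.R₂.O := by
    have h1 : (y : F) * (e : F) ^ N = (algebraMap K F c * (y : F)) *
        (algebraMap K F d * (e : F)) ^ N * algebraMap K F (d⁻¹ ^ N * c⁻¹) := by
      have hc' : algebraMap K F c ≠ 0 := by simpa using hc0
      have hd' : algebraMap K F d ≠ 0 := by simpa using hd0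
      rw [map_mul, map_pow, map_inv₀, map_inv₀, mul_pow, inv_pow]
      field_simp
    rw [h1]
    exact T.R₂.O.mul_mem _ _ (T.R₂.O.mul_mem _ _ hc (T.R₂.O.pow_mem hd N)) hN2
  have hY1 : (y : F) * (e : F) ^ N ∈ T.R₁.O := T.R₁.O.mul_mem _ _ y.2 (T.R₁.O.pow_mem e.2.1 N)
  let Y : T.O := ⟨(y : F) * (e : F) ^ N, hY1, hY2⟩
  have hYL : (Y : F) ∈ riemannRochSpace ((a + N * (n + 1)) • 𝒩.P + (b + N * 0) • 𝒩.P') := by
    have h1 := mul_mem_L hyL (pow_mem_L heL N)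
    rw [← NodalData.wsX_mul, ← NodalData.wsX_add] at h1
    exact h1
  have hpole := (𝒩.pole _ _ Y hYL).1
  have hYred : (T.red Y).1 = T.R₁.red y * (T.red e).1 ^ N := by
    rw [T.red_fst, T.red_fst, ← map_pow, ← map_mul]
    rfl
  have hYne : (T.red Y).1 ≠ 0 := by
    rw [hYred]
    exact mul_ne_zero hy (pow_ne_zero _ he1)
  have h3 := (mem_L_iff_of_ne_zero hYne).1 hpole Q
  have h4 : ((a + N * (n + 1)) • 𝒩.P₁ + (b + N * 0) • 𝒩.P₁') Q
      = 𝒩.X₁ a b Q + N * 𝒩.X₁ (n + 1) 0 Q := by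
    have : ((a + N * (n + 1)) • 𝒩.P₁ + (b + N * 0) • 𝒩.P₁') = 𝒩.X₁ a b + N • 𝒩.X₁ (n + 1) 0 := by
      rw [← NodalData.wsX₁_mul, ← NodalData.X₁_add]
      rfl
    rw [this, Finsupp.add_apply, Finsupp.smul_apply, nsmul_eq_mul]
  rw [h4, hYred, Q.ord_mul hy (pow_ne_zero _ he1), ← zpow_natCast, Q.ord_zpow, heQ] at h3
  linarith

end Fermat.Agent.ND
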