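import Fermat.Agent.ND.P1a

/-!
# [ND-P1-B] generalised pole bound: the two induction steps
-/

set_option autoImplicit false

open AlgebraicCurve

namespace Fermat.Agent.ND

open Fermat.Agent.RED Fermat.Agent.S24 Fermat.Agent.SS

variable {K F k Fb : Type*} [Field K] [Field F] [Algebra K F] [Field k] [Field Fb] [Algebra k Fb]
variable {T : TwoRed K F k Fb} {𝒩 : NodalData T}
variable [IsAlgClosed K] [IsAlgClosed k] {x : F} {t : Fb}

/-- the common multiplication step -/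
theorem PoleBound.step {s₀ : 𝒩.S} {Q : Place k Fb} {E E' D : Divisor K F}
    (h : PoleBound 𝒩 s₀ Q E) (a' b' : ℕ) (g : T.O)
    (hg : (g : F) ∈ riemannRochSpace (D + 𝒩.X a' b')) (hE : E' + D = E) (hg1 : (T.red g).1 ≠ 0)
    (m : ℤ) (hord : Q.ord (T.red g).1 = - 𝒩.X₁ a' b' Q + m)
    (hmd : E'.mapDomain (r₁ 𝒩 s₀) Q = E.mapDomain (r₁ 𝒩 s₀) Q + m) : PoleBound 𝒩 s₀ Q E' := by
  intro a b y hy hyL
  have h1 : ((y * ⟨(g : F), g.2.1⟩ : T.R₁.O) : F) ∈ riemannRochSpace (E + 𝒩.X (a + a') (b + b')) := by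
    have h2 := mul_mem_L hyL hg
    have h3 : E' + 𝒩.X a b + (D + 𝒩.X a' b') = E + 𝒩.X (a + a') (b + b') := by
      rw [NodalData.wsX_add, ← hE]
      abel
    rw [h3] at h2
    exact h2
  have hred : T.R₁.red (y * ⟨(g : F), g.2.1⟩) = T.R₁.red y * (T.red g).1 := by
    rw [map_mul, T.red_fst]
  have h4 := h (a + a') (b + b') (y * ⟨(g : F), g.2.1⟩) (by rw [hred]; exact mul_ne_zero hy hg1) h1
  rw [hred, Q.ord_mul hy hg1, hord, NodalData.X₁_add, Finsupp.add_apply] at h4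
  rw [hmd]
  linarith

/-- **step `E → E + v`.**  Let `y ∈ L(E + v + X a b)`.  Let `n` be large, chart `(n + 2, 0)`.
If `RedTo₁ v Q` take `h` from `exists_t`, otherwise from `exists_h`.  `y * h ∈ L(E + X (a+n+2) b)`,
`red₁ (y * h) = red₁ y * (red h).1 ≠ 0`; apply the hypothesis to `y * h`;
`(E + single v 1).mapDomain r Q = E.mapDomain r Q + (if r v = Q then 1 else 0)`
(`Finsupp.mapDomain_add`, `Finsupp.mapDomain_single`, `r₁_eq_iff`). -/
theorem PoleBound.add_single (hx : IsSepParam K x) (hb : IsSepParam k t) (s₀ : 𝒩.S)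
    {Q : Place k Fb} (hQ : Q ∈ G₁ 𝒩) {E : Divisor K F} (h : PoleBound 𝒩 s₀ Q E) (v : Place K F) :
    PoleBound 𝒩 s₀ Q (E + Finsupp.single v 1) := by
  classical
  obtain ⟨n, hn⟩ := 𝒩.exists_isLarge hx hb
  have hmd : (E + Finsupp.single v 1).mapDomain (r₁ 𝒩 s₀) Q
      = E.mapDomain (r₁ 𝒩 s₀) Q + (if r₁ 𝒩 s₀ v = Q then 1 else 0) := by
    rw [Finsupp.mapDomain_add, Finsupp.mapDomain_single, Finsupp.add_apply, Finsupp.single_apply]
  by_cases hv : RedTo₁ 𝒩 v Q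
  · obtain ⟨g, hgL, hg1, hgQ⟩ := exists_t (a := n + 2) (b := 0) hx hb hn le_rfl hQ hv
    refine h.step (n + 2) 0 g hgL (by abel) hg1 1 hgQ ?_
    rw [hmd, if_pos ((r₁_eq_iff hx hb s₀ hQ).2 hv)]
  · obtain ⟨g, hgL, hg1, hgQ⟩ := exists_h (a := n + 2) (b := 0) hx hb hn le_rfl hQ hv
    refine h.step (n + 2) 0 g hgL (by abel) hg1 0 (by rw [hgQ, add_zero]) ?_
    rw [hmd, if_neg fun h' => hv ((r₁_eq_iff hx hb s₀ hQ).1 h')]

/-- **step `E → E - v`.**  Let `y ∈ L(E - v + X a b)`.  If `RedTo₁ v Q` multiply by `u` from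
`exists_u` : `y * u ∈ L(E + X (a+n+2) b)`.  Otherwise `L(E - v + X a b) ≤ L(E + X a b)` and
`(E - single v 1).mapDomain r Q = E.mapDomain r Q`. -/
theorem PoleBound.sub_single (hx : IsSepParam K x) (hb : IsSepParam k t) (s₀ : 𝒩.S)
    {Q : Place k Fb} (hQ : Q ∈ G₁ 𝒩) {E : Divisor K F} (h : PoleBound 𝒩 s₀ Q E) (v : Place K F) :
    PoleBound 𝒩 s₀ Q (E - Finsupp.single v 1) := by
  classical
  obtain ⟨n, hn⟩ := 𝒩.exists_isLarge hx hb
  have hmd : (E - Finsupp.single v 1).mapDomain (r₁ 𝒩 s₀) Q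
      = E.mapDomain (r₁ 𝒩 s₀) Q - (if r₁ 𝒩 s₀ v = Q then 1 else 0) := by
    rw [Finsupp.mapDomain_sub, Finsupp.mapDomain_single, Finsupp.sub_apply, Finsupp.single_apply]
  by_cases hv : RedTo₁ 𝒩 v Q
  · obtain ⟨g, hgL, hg1, hgQ⟩ := exists_u (a := n + 2) (b := 0) hx hb hn le_rfl hQ hv
    refine h.step (n + 2) 0 g hgL (by abel) hg1 (-1) (by rw [hgQ]; ring) ?_
    rw [hmd, if_pos ((r₁_eq_iff hx hb s₀ hQ).2 hv)]
    ring
  · intro a b y hy hyL
    rw [hmd, if_neg fun h' => hv ((r₁_eq_iff hx hb s₀ hQ).1 h'), sub_zero]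
    refine h a b y hy (L_mono ?_ hyL)
    refine add_le_add_left ?_ _
    rw [sub_eq_add_neg]
    exact (add_le_add_right (neg_single_le_zero v) E).trans (by rw [add_zero])

end Fermat.Agent.ND
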