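import Fermat.Agent.ND.ParamB

/-!
# [ND-PARAM-C] push-forward of the chart divisors
-/

set_option autoImplicit false

open AlgebraicCurve

namespace Fermat.Agent.ND

open Fermat.Agent.RED Fermat.Agent.S24 Fermat.Agent.SS

variable {K F k Fb : Type*} [Field K] [Field F] [Algebra K F] [Field k] [Field Fb] [Algebra k Fb]
variable {T : TwoRed K F k Fb} {𝒩 : NodalData T}
variable [IsAlgClosed K] [IsAlgClosed k] {x : F} {t : Fb}

/-- **`r₁_* (a P + b P') = a P₁ + b P₁'` at the good points.**  By additivity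
(`Finsupp.mapDomain_add`, `Finsupp.mapDomain_smul`) it is enough to treat one large chart, e.g. to
prove `(X n 0).mapDomain r Q = X₁ n 0 Q` and `(X 0 n).mapDomain r Q = X₁ 0 n Q` for one `n ≠ 0`
and divide by `n`.  Let `h ∈ L(X n 0) ∩ O` with `ord_Q (red h).1 = - X₁ n 0 Q` (`exists_ord₁`,
`exists_lift`).  (P1): `(dv K h).mapDomain r Q = - X₁ n 0 Q`; and `dv K h + X n 0` vanishes on the
fibre of `Q` (`ord_eq_of_redTo₁`), so `(dv K h + X n 0).mapDomain r Q = 0`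
(`mapDomain_apply_eq_zero`). -/
theorem mapDomain_X₁ (hx : IsSepParam K x) (hb : IsSepParam k t) (s₀ : 𝒩.S) (a b : ℕ)
    {Q : Place k Fb} (hQ : Q ∈ G₁ 𝒩) : (𝒩.X a b).mapDomain (r₁ 𝒩 s₀) Q = 𝒩.X₁ a b Q := by
  obtain ⟨n, hn⟩ := 𝒩.exists_isLarge hx hb
  -- the large charts
  have key : ∀ a' b' : ℕ, n + 1 ≤ a' + b' →
      (𝒩.X a' b').mapDomain (r₁ 𝒩 s₀) Q = 𝒩.X₁ a' b' Q := by
    intro a' b' hab
    have hab' : ((n : ℤ) + 1) ≤ ((a' + b' : ℕ) : ℤ) := by exact_mod_cast hab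
    obtain ⟨w, hw, hw0, hwQ⟩ := exists_ord₁ hb hn (off₁_X₁ a' b') (off₂_X₂ a' b')
      (le_trans hab' (𝒩.le_degree_X₁ a' b'))
      (le_trans (by linarith) (𝒩.le_degree_X₂ a' b')) hQ
    obtain ⟨h, hh, hrh⟩ := exists_lift hx hb hn (a := a') (b := b') (by omega) hw
    have e1 : T.R₁.red ⟨h, h.2.1⟩ = w.1 := by rw [← T.red_fst, hrh]
    have h1 := div_red₁ hx hb s₀ ⟨h, h.2.1⟩ (by rw [e1]; exact hw0) (dv K (h : F))
      (fun v => hx.dv_apply _ v) hQ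
    rw [e1, hwQ] at h1
    have h2 : (dv K (h : F) + 𝒩.X a' b').mapDomain (r₁ 𝒩 s₀) Q = 0 := by
      refine mapDomain_apply_eq_zero _ _ _ fun P hP => ?_
      have hP' := (r₁_eq_iff hx hb s₀ hQ).1 hP
      obtain ⟨-, ho⟩ := ord_eq_of_redTo₁ hh (by rw [hrh]; exact hw0) (by rw [hrh]; exact hwQ) hP'
      rw [Finsupp.add_apply, hx.dv_apply, ho]
      omega
    rw [Finsupp.mapDomain_add, Finsupp.add_apply, h1] at h2
    omega
  have k1 := key (a + (n + 1)) (b + 0) (by omega)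
  have k2 := key (n + 1) 0 (by omega)
  rw [𝒩.wsX_add, Finsupp.mapDomain_add, Finsupp.add_apply, k2, 𝒩.X₁_add, Finsupp.add_apply] at k1
  omega

theorem mapDomain_X₂ (hx : IsSepParam K x) (hb : IsSepParam k t) (s₀ : 𝒩.S) (a b : ℕ)
    {Q : Place k Fb} (hQ : Q ∈ G₂ 𝒩) : (𝒩.X a b).mapDomain (r₂ 𝒩 s₀) Q = 𝒩.X₂ a b Q :=
  mapDomain_X₁ (𝒩 := swapN 𝒩) hx hb s₀ a b hQ

end Fermat.Agent.ND
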