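import Fermat.Agent.ND.P1
import Fermat.Agent.ND.Eqv

/-!
# [ND-PARAM-A] local parameters at the good points, fibres of the specialisation maps, rationality

`II` is a set of semilinear automorphisms of `F / K` (inertia) acting trivially on the special fibre.
`Rat 𝒩 II` : every glued section on the chart `n P` (`n` large) lifts to an `II`-fixed integral
function.  For `II = ∅` this is `exists_lift`.
-/

set_option autoImplicit false

open AlgebraicCurve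

namespace Fermat.Agent.ND

open Fermat.Agent.RED Fermat.Agent.S24 Fermat.Agent.SS

variable {K F k Fb : Type*} [Field K] [Field F] [Algebra K F] [Field k] [Field Fb] [Algebra k Fb]
variable {T : TwoRed K F k Fb}

/-- rationality of the lattices `L(n P) ∩ O` with respect to `II` -/
structure Rat (𝒩 : NodalData T) (II : Set (SemilinearAut K F)) : Prop where
  compat : ∀ g ∈ II, IsCompat 𝒩 g 1
  lift : ∃ n₀ : ℕ, ∀ n, n₀ ≤ n → ∀ w ∈ LL 𝒩 (𝒩.X₁ n 0) (𝒩.X₂ n 0), ∃ u : T.O,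
    (u : F) ∈ riemannRochSpace (𝒩.X n 0) ∧ T.red u = w ∧ ∀ g ∈ II, g • (u : F) = u

variable {𝒩 : NodalData T}

theorem Rat.swapN {II : Set (SemilinearAut K F)} (h : Rat 𝒩 II) : Rat (swapN 𝒩) II where
  compat g hg := isCompat_swapN (h.compat g hg)
  lift := by
    obtain ⟨n₀, hn₀⟩ := h.lift
    refine ⟨n₀, fun n hn w hw => ?_⟩
    obtain ⟨u, hu, hr, hg⟩ := hn₀ n hn w.swap ((mem_LL_swapN 𝒩).1 hw)
    exact ⟨toSwap T u, hu, by rw [red_toSwap, hr, Prod.swap_swap], hg⟩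

/-- **a section which does not vanish at `Q` does not vanish on the fibre of `Q`.**
`h ≠ 0` since its reduction is not `0`.  `ord_v h ≥ - X a b v` (`mem_L_iff_of_ne_zero`).  If the
inequality were strict, `h ∈ L(- v + X a b)`, so `red h ∈ W(-v) a b ≤ LL (X₁ a b - Q) (X₂ a b)` and
`ord_Q (red h).1 ≥ - X₁ a b Q + 1`. -/
theorem ord_eq_of_redTo₁ {a b : ℕ} {h : T.O} (hh : (h : F) ∈ riemannRochSpace (𝒩.X a b))
    {Q : Place k Fb} (h1 : (T.red h).1 ≠ 0) (hQ : Q.ord (T.red h).1 = - 𝒩.X₁ a b Q)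
    {v : Place K F} (hv : RedTo₁ 𝒩 v Q) : (h : F) ≠ 0 ∧ v.ord (h : F) = - 𝒩.X a b v := by
  classical
  have h0 : (h : F) ≠ 0 := by
    intro h0
    have : h = 0 := Subtype.ext h0
    rw [this, map_zero] at h1
    exact h1 rfl
  refine ⟨h0, ?_⟩
  have hL := (mem_L_iff_of_ne_zero h0).1 hh
  by_contra hne
  have hlt : 1 ≤ v.ord (h : F) + 𝒩.X a b v := by
    have := hL v
    rcases this.lt_or_eq with h2 | h2
    · omega
    · exact absurd (by omega) hne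
  have hmem : (h : F) ∈ riemannRochSpace (-Finsupp.single v 1 + 𝒩.X a b) := by
    rw [mem_L_iff_of_ne_zero h0]
    intro w
    rw [Finsupp.add_apply, Finsupp.neg_apply, Finsupp.single_apply]
    split_ifs with hw
    · subst hw; omega
    · have := hL w; omega
  have h3 := (hv a b ⟨h, hmem, rfl⟩).1
  rw [mem_L_iff_of_ne_zero h1] at h3
  have h4 := h3 Q
  rw [Finsupp.sub_apply, Finsupp.single_eq_same, hQ] at h4
  omega

variable [IsAlgClosed K] [IsAlgClosed k] {x : F} {t : Fb}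

theorem rat_empty (hx : IsSepParam K x) (hb : IsSepParam k t) : Rat 𝒩 ∅ where
  compat g hg := hg.elim
  lift := by
    obtain ⟨n₀, hn₀⟩ := 𝒩.exists_isLarge hx hb
    refine ⟨n₀, fun n hn w hw => ?_⟩
    obtain ⟨u, hu, hr⟩ := exists_lift hx hb hn₀ (a := n) (b := 0) (by omega) hw
    exact ⟨u, hu, hr, fun g hg => hg.elim⟩

/-- **`II`-fixed local parameters.**  Let `n` be large (`≥ n₀` of `hR.lift` and `≥ n' + 2`, `n'`
large).  Choose `w, w' ∈ LL (X₁ n 0) (X₂ n 0)` with `ord_Q w.1 = - X₁ n 0 Q` (`exists_ord₁`) and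
`ord_Q w'.1 = - X₁ n 0 Q + 1` (`exists_ord₁` for `E₁ = X₁ n 0 - Q`, `LL_mono`), `II`-fixed lifts
`h`, `h'` (`hR.lift`), `Tq := h' / h`.  `Tq ∈ O₁` and `rd Tq = w'.1 / w.1`
(`T.R₁.inv_mem_of_red_ne_zero`, `T.R₁.red_inv`, `rd_of_mem`); `ord_Q = 1`; regular on the fibre:
`ord_v h = - X n 0 v` (`ord_eq_of_redTo₁`, `r₁_eq_iff`) and `ord_v h' ≥ - X n 0 v`;
`g • (h' / h) = h' / h` (`smul_div₀'` or `map_div₀` for `SemilinearAut.toRingAut`). -/
theorem Rat.exists_isLocalParam₁ {II : Set (SemilinearAut K F)} (hR : Rat 𝒩 II)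
    (hx : IsSepParam K x) (hb : IsSepParam k t) (s₀ : 𝒩.S) {Q : Place k Fb} (hQ : Q ∈ G₁ 𝒩) :
    ∃ Tq : F, (∀ g ∈ II, g • Tq = Tq) ∧ IsLocalParam T.R₁.O T.R₁.red (r₁ 𝒩 s₀) Q Tq := by
  obtain ⟨n₀, hn₀⟩ := hR.lift
  obtain ⟨n', hn'⟩ := 𝒩.exists_isLarge hx hb
  set n := max n₀ (n' + 2) with hn
  have hn1 : n₀ ≤ n := le_max_left _ _
  have hn2 : n' + 2 ≤ n := le_max_right _ _
  have d₁ : ((n' : ℤ) + 2) ≤ Divisor.degree (𝒩.X₁ n 0) := by
    have := 𝒩.le_degree_X₁ n 0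
    push_cast at this
    have h2 : ((n' : ℤ) + 2) ≤ n := by exact_mod_cast hn2
    linarith
  have d₂ : ((n' : ℤ) + 2) ≤ Divisor.degree (𝒩.X₂ n 0) := by
    have := 𝒩.le_degree_X₂ n 0
    push_cast at this
    have h2 : ((n' : ℤ) + 2) ≤ n := by exact_mod_cast hn2
    linarith
  obtain ⟨w, hw, hw0, hwQ⟩ := exists_ord₁ hb hn' (off₁_X₁ n 0) (off₂_X₂ n 0) (by linarith)
    (by linarith) hQ
  obtain ⟨w', hw', hw0', hwQ'⟩ := exists_ord₁ hb hn' ((off₁_X₁ n 0).sub (off₁_single hQ 1))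
    (off₂_X₂ n 0) (by rw [map_sub, hb.degree_single]; linarith) (by linarith) hQ
  rw [Finsupp.sub_apply, Finsupp.single_eq_same] at hwQ'
  obtain ⟨h, hh, hrh, hgh⟩ := hn₀ n hn1 w hw
  obtain ⟨h', hh', hrh', hgh'⟩ := hn₀ n hn1 w'
    (LL_mono (sub_le_self _ (Finsupp.single_nonneg.2 zero_le_one)) le_rfl hw')
  have e1 : T.R₁.red ⟨h, h.2.1⟩ = w.1 := by rw [← T.red_fst, hrh]
  have e1' : T.R₁.red ⟨h', h'.2.1⟩ = w'.1 := by rw [← T.red_fst, hrh']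
  have hne : T.R₁.red ⟨h, h.2.1⟩ ≠ 0 := by rw [e1]; exact hw0
  have hinv : ((h : F))⁻¹ ∈ T.R₁.O := T.R₁.inv_mem_of_red_ne_zero (x := ⟨h, h.2.1⟩) hne
  have hmem : (h' : F) / (h : F) ∈ T.R₁.O := by
    rw [div_eq_mul_inv]
    exact T.R₁.O.mul_mem _ _ h'.2.1 hinv
  have h0' : (h' : F) ≠ 0 := by
    intro h0
    have : h' = 0 := Subtype.ext h0
    rw [this, map_zero] at hrh'
    exact hw0' (by rw [← hrh']; rfl)
  refine ⟨(h' : F) / (h : F), fun g hg => ?_, hmem, fun P hP => ?_, ?_⟩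
  · have k1 := hgh g hg
    have k2 := hgh' g hg
    rw [SemilinearAut.smul_def] at k1 k2 ⊢
    rw [map_div₀, k1, k2]
  · have hP' := (r₁_eq_iff hx hb s₀ hQ).1 hP
    obtain ⟨h0, ho⟩ := ord_eq_of_redTo₁ hh (by rw [hrh]; exact hw0) (by rw [hrh]; exact hwQ) hP'
    have := (mem_L_iff_of_ne_zero h0').1 hh' P
    rw [div_eq_mul_inv, P.ord_mul h0' (inv_ne_zero h0), Place.ord_inv, ho]
    omega
  · rw [rd_of_mem hmem]
    have e2 : (⟨(h' : F) / (h : F), hmem⟩ : T.R₁.O) =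
        ⟨h', h'.2.1⟩ * ⟨((h : F))⁻¹, hinv⟩ := Subtype.ext (div_eq_mul_inv _ _)
    rw [e2, map_mul, T.R₁.red_inv (x := ⟨h, h.2.1⟩) hne, e1, e1', Q.ord_mul hw0' (inv_ne_zero hw0),
      Place.ord_inv, hwQ, hwQ']
    omega

theorem Rat.exists_isLocalParam₂ {II : Set (SemilinearAut K F)} (hR : Rat 𝒩 II)
    (hx : IsSepParam K x) (hb : IsSepParam k t) (s₀ : 𝒩.S) {Q : Place k Fb} (hQ : Q ∈ G₂ 𝒩) :
    ∃ Tq : F, (∀ g ∈ II, g • Tq = Tq) ∧ IsLocalParam T.R₂.O T.R₂.red (r₂ 𝒩 s₀) Q Tq :=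
  hR.swapN.exists_isLocalParam₁ hx hb s₀ hQ

end Fermat.Agent.ND
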