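import Fermat.Agent.ND.ParamA

/-!
# [ND-PARAM-B] zeros of local parameters, `II`-fixed places in every fibre
-/

set_option autoImplicit false

open AlgebraicCurve

namespace Fermat.Agent.ND

open Fermat.Agent.RED Fermat.Agent.S24 Fermat.Agent.SS

variable {K F k Fb : Type*} [Field K] [Field F] [Algebra K F] [Field k] [Field Fb] [Algebra k Fb]
variable {T : TwoRed K F k Fb} {𝒩 : NodalData T}
variable [IsAlgClosed K] [IsAlgClosed k] {x : F} {t : Fb}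

/-- **a local parameter has exactly one zero on the fibre.**  (P1) (`div_red₁` with `D = dv K Tq`,
`hx.dv_apply`): `∑_{v ↦ Q} ord_v Tq = 1` and all terms are `≥ 0` (`hT.reg`).
(`Finsupp.mapDomain` : `Finsupp.mapDomain_apply'`-style sum over the fibre; helper lemmas
`mapDomain_apply_nonneg`, `le_mapDomain_apply`, `mapDomain_apply_eq_zero` in
`RED/TorsionInj.lean`.) -/
theorem exists_unique_zero₁ (hx : IsSepParam K x) (hb : IsSepParam k t) (s₀ : 𝒩.S)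
    {Q : Place k Fb} (hQ : Q ∈ G₁ 𝒩) {Tq : F}
    (hT : IsLocalParam T.R₁.O T.R₁.red (r₁ 𝒩 s₀) Q Tq) :
    ∃ v : Place K F, r₁ 𝒩 s₀ v = Q ∧ v.ord Tq = 1 ∧
      ∀ v' : Place K F, r₁ 𝒩 s₀ v' = Q → v' ≠ v → v'.ord Tq = 0 := by
  have ho := hT.ord
  rw [rd_of_mem hT.mem] at ho
  have hy : T.R₁.red ⟨Tq, hT.mem⟩ ≠ 0 := by
    intro h0
    rw [h0, Place.ord_zero] at ho
    exact zero_ne_one ho
  have h1 := div_red₁ hx hb s₀ ⟨Tq, hT.mem⟩ hy (dv K Tq) (fun v => hx.dv_apply Tq v) hQ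
  rw [ho] at h1
  obtain ⟨v, hv, hv1, hv2⟩ := exists_unique_of_mapDomain_apply_eq_one (r₁ 𝒩 s₀) (dv K Tq) Q
    (fun P hP => by rw [hx.dv_apply]; exact hT.reg P hP) h1
  refine ⟨v, hv, by rwa [hx.dv_apply] at hv1, fun v' h' hne => ?_⟩
  have := hv2 v' h' hne
  rwa [hx.dv_apply] at this

/-- **`II`-fixed places in every fibre.**  `Tq` an `II`-fixed parameter, `v` its unique zero on the
fibre.  For `g ∈ II`: `r₁ (g • v) = r₁ v = Q` (`r₁_smul`) and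
`ord_{g v} Tq = ord_{g v} (g • Tq) = ord_v Tq = 1` (`SemilinearAut.ord_smul`), so `g • v = v`. -/
theorem Rat.exists_place₁ {II : Set (SemilinearAut K F)} (hR : Rat 𝒩 II)
    (hx : IsSepParam K x) (hb : IsSepParam k t) (s₀ : 𝒩.S) {Q : Place k Fb} (hQ : Q ∈ G₁ 𝒩) :
    ∃ v : Place K F, r₁ 𝒩 s₀ v = Q ∧ ∀ g ∈ II, g • v = v := by
  obtain ⟨Tq, hfix, hT⟩ := hR.exists_isLocalParam₁ hx hb s₀ hQ
  obtain ⟨v, hv, hv1, hv2⟩ := exists_unique_zero₁ hx hb s₀ hQ hT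
  refine ⟨v, hv, fun g hg => ?_⟩
  by_contra hne
  have h1 := hv2 (g • v) (by rw [r₁_smul hx hb s₀ (hR.compat g hg), hv]) hne
  have h2 := SemilinearAut.ord_smul g v Tq
  rw [hfix g hg, h1, hv1] at h2
  exact zero_ne_one h2

theorem Rat.exists_place₂ {II : Set (SemilinearAut K F)} (hR : Rat 𝒩 II)
    (hx : IsSepParam K x) (hb : IsSepParam k t) (s₀ : 𝒩.S) {Q : Place k Fb} (hQ : Q ∈ G₂ 𝒩) :
    ∃ v : Place K F, r₂ 𝒩 s₀ v = Q ∧ ∀ g ∈ II, g • v = v :=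
  hR.swapN.exists_place₁ hx hb s₀ hQ

end Fermat.Agent.ND
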