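import Fermat.Agent.ND.Param

/-!
# [ND-PARAM-D] `II`-fixed local parameters of the form `u - c`

`II` a set of semilinear automorphisms acting trivially on the special fibre (inertia).
`FixData 𝒩 II` : there are `II`-fixed integral functions `u₁`, `u₂` with poles along the charts whose
reductions on the first, resp. second, component are separating parameters (`j` and `j(p τ)` in
the modular case), and every element of `k` lifts to an `II`-fixed constant.
Then all good points outside a finite set have an `II`-fixed local parameter.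
-/

set_option autoImplicit false

open AlgebraicCurve

namespace Fermat.Agent.ND

open Fermat.Agent.RED Fermat.Agent.S24 Fermat.Agent.SS

variable {K F k Fb : Type*} [Field K] [Field F] [Algebra K F] [Field k] [Field Fb] [Algebra k Fb]
variable {T : TwoRed K F k Fb}

/-- the good point `Q` of the first component has an `II`-fixed local parameter -/
def HasFixParam₁ (𝒩 : NodalData T) (s₀ : 𝒩.S) (II : Set (SemilinearAut K F)) (Q : Place k Fb) :
    Prop :=
  ∃ Tq : F, (∀ g ∈ II, g • Tq = Tq) ∧ IsLocalParam T.R₁.O T.R₁.red (r₁ 𝒩 s₀) Q Tq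

/-- the good point `Q` of the second component has an `II`-fixed local parameter -/
def HasFixParam₂ (𝒩 : NodalData T) (s₀ : 𝒩.S) (II : Set (SemilinearAut K F)) (Q : Place k Fb) :
    Prop :=
  HasFixParam₁ (swapN 𝒩) s₀ II Q

/-- rationality data -/
structure FixData (𝒩 : NodalData T) (II : Set (SemilinearAut K F)) : Prop where
  compat : ∀ g ∈ II, IsCompat 𝒩 g 1
  const : ∀ e : k, ∃ (c : K) (hc : c ∈ T.A),
    (∀ g ∈ II, g • algebraMap K F c = algebraMap K F c) ∧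
    T.red ⟨algebraMap K F c, T.algebraMap_mem_O hc⟩ = (algebraMap k Fb e, algebraMap k Fb e)
  par₁ : ∃ (a b : ℕ) (u : T.O), (u : F) ∈ riemannRochSpace (𝒩.X a b) ∧
    (∀ g ∈ II, g • (u : F) = u) ∧ IsSepParam k (T.red u).1
  par₂ : ∃ (a b : ℕ) (u : T.O), (u : F) ∈ riemannRochSpace (𝒩.X a b) ∧
    (∀ g ∈ II, g • (u : F) = u) ∧ IsSepParam k (T.red u).2

variable {𝒩 : NodalData T}

theorem FixData.swapN {II : Set (SemilinearAut K F)} (h : FixData 𝒩 II) :
    FixData (swapN 𝒩) II where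
  compat g hg := isCompat_swapN (h.compat g hg)
  const e := by
    obtain ⟨c, hc, h1, h2⟩ := h.const e
    refine ⟨c, (mem_swapT_A T).2 hc, h1, ?_⟩
    have := congrArg Prod.swap h2
    exact this
  par₁ := by
    obtain ⟨a, b, u, h1, h2, h3⟩ := h.par₂
    exact ⟨a, b, toSwap T u, h1, h2, h3⟩
  par₂ := by
    obtain ⟨a, b, u, h1, h2, h3⟩ := h.par₁
    exact ⟨a, b, toSwap T u, h1, h2, h3⟩

variable [IsAlgClosed K] [IsAlgClosed k] {x : F} {t : Fb}

/-- **functions with poles along the charts are regular on the fibres of the points off the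
charts.**  `(X a b).mapDomain r₁ Q = X₁ a b Q = 0` (`mapDomain_X₁`) and `0 ≤ X a b`, so
`X a b v = 0` (`eq_zero_of_mapDomain_apply_eq_zero` in `RED/TorsionInj.lean`); then `mem_L_iff`. -/
theorem ord_nonneg_of_r₁_eq (hx : IsSepParam K x) (hb : IsSepParam k t) (s₀ : 𝒩.S) {a b : ℕ}
    {u : F} (hu : u ∈ riemannRochSpace (𝒩.X a b)) {Q : Place k Fb} (hQ : Q ∈ G₁ 𝒩)
    (hQX : 𝒩.X₁ a b Q = 0) {v : Place K F} (hv : r₁ 𝒩 s₀ v = Q) : 0 ≤ v.ord u := by
  have hX0 : ∀ P : Place K F, 0 ≤ 𝒩.X a b P := by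
    intro P
    have h1 := 𝒩.P_nonneg P
    have h2 := 𝒩.P'_nonneg P
    simp only [NodalData.X, Finsupp.add_apply, Finsupp.smul_apply, Finsupp.coe_zero,
      Pi.zero_apply] at h1 h2 ⊢
    positivity
  have h0 : 𝒩.X a b v = 0 :=
    eq_zero_of_mapDomain_apply_eq_zero (r₁ 𝒩 s₀) (𝒩.X a b) Q (fun P _ => hX0 P)
      (by rw [mapDomain_X₁ hx hb s₀ a b hQ, hQX]) v hv
  rcases mem_L_iff.1 hu with rfl | h
  · simp
  · simpa [h0] using h v

/-- `u - c` is a local parameter at `Q` if its reduction has a simple zero at `Q`.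
(`mem`: clear; `reg`: `ord_nonneg_of_r₁_eq` and `ord_sub_const_nonneg` (see
`IsReduction.exists_isLocalParam` in `RED/NonSpecial.lean`); `ord`: `rd_of_mem`, `map_sub`.) -/
theorem isLocalParam_sub₁ (hx : IsSepParam K x) (hb : IsSepParam k t) (s₀ : 𝒩.S) {a b : ℕ}
    (u : T.O) (hu : (u : F) ∈ riemannRochSpace (𝒩.X a b)) {Q : Place k Fb} (hQ : Q ∈ G₁ 𝒩)
    (hQX : 𝒩.X₁ a b Q = 0) {c : K} (hc : c ∈ T.A) {e : k}
    (hce : T.red ⟨algebraMap K F c, T.algebraMap_mem_O hc⟩ = (algebraMap k Fb e, algebraMap k Fb e))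
    (hord : Q.ord ((T.red u).1 - algebraMap k Fb e) = 1) :
    IsLocalParam T.R₁.O T.R₁.red (r₁ 𝒩 s₀) Q ((u : F) - algebraMap K F c) := by
  have hcO : algebraMap K F c ∈ T.O := T.algebraMap_mem_O hc
  have hmem : (u : F) - algebraMap K F c ∈ T.R₁.O := T.R₁.O.sub_mem u.2.1 hcO.1
  refine ⟨hmem, fun P hP => ord_sub_const_nonneg _ (ord_nonneg_of_r₁_eq hx hb s₀ hu hQ hQX hP) c, ?_⟩
  rw [rd_of_mem hmem]
  have he0 : (⟨(u : F) - algebraMap K F c, hmem⟩ : T.R₁.O) =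
      ⟨u, u.2.1⟩ - ⟨algebraMap K F c, hcO.1⟩ := rfl
  have e2 : T.R₁.red ⟨algebraMap K F c, hcO.1⟩ = algebraMap k Fb e := congrArg Prod.fst hce
  rw [he0, map_sub, e2, ← T.red_fst]
  exact hord

/-- **all good points outside a finite set have an `II`-fixed local parameter.**
Let `(a, b, u)` be as in `h.par₁`, `ū = (red u).1`.  The bad set is contained in
`(X₁ a b).support ∪ {Q | ∃ e, 2 ≤ ord_Q (ū - e)}` (finite: `IsSepParam.finite_ramified`).  For `Q`
outside: `ū ∈ L(X₁ a b)` (`𝒩.pole`) is regular at `Q`, let `e` be its value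
(`exists_hasVal_of_mem_L` or `IsSepParam.exists_value`); `ū - e ≠ 0` (`ū` is transcendental), so
`1 ≤ ord_Q (ū - e)`, and `< 2`.  Lift `e` to an `II`-fixed `c` (`h.const`), apply
`isLocalParam_sub₁`; `g • (u - c) = u - c` by `smul_sub`. -/
theorem FixData.finite_bad₁ {II : Set (SemilinearAut K F)} (h : FixData 𝒩 II)
    (hx : IsSepParam K x) (hb : IsSepParam k t) (s₀ : 𝒩.S) :
    {Q | Q ∈ G₁ 𝒩 ∧ ¬ HasFixParam₁ 𝒩 s₀ II Q}.Finite := by
  obtain ⟨a, b, u, hu, hfix, hsep⟩ := h.par₁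
  refine (((𝒩.X₁ a b).support.finite_toSet).union hsep.finite_ramified).subset ?_
  rintro Q ⟨hQ, hno⟩
  by_contra hQn
  rw [Set.mem_union, not_or] at hQn
  obtain ⟨hQ1, hQ2⟩ := hQn
  have hQX : 𝒩.X₁ a b Q = 0 := by
    by_contra h0
    exact hQ1 (Finset.mem_coe.2 (Finsupp.mem_support_iff.2 h0))
  obtain ⟨e, he⟩ := exists_hasVal_of_mem_L Q hb hQX (𝒩.pole a b u hu).1
  have hpos : 0 < Q.ord ((T.red u).1 - algebraMap k Fb e) := by
    rcases he with he | he
    · exfalso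
      exact hsep.transcendental (he ▸ (isAlgebraic_algebraMap e))
    · exact he
  have hord : Q.ord ((T.red u).1 - algebraMap k Fb e) = 1 := by
    have : ¬ 2 ≤ Q.ord ((T.red u).1 - algebraMap k Fb e) := fun h2 => hQ2 ⟨e, h2⟩
    omega
  obtain ⟨c, hc, hcfix, hce⟩ := h.const e
  refine hno ⟨(u : F) - algebraMap K F c, fun g hg => ?_,
    isLocalParam_sub₁ hx hb s₀ u hu hQ hQX hc hce hord⟩
  rw [smul_sub, hfix g hg, hcfix g hg]

theorem FixData.finite_bad₂ {II : Set (SemilinearAut K F)} (h : FixData 𝒩 II)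
    (hx : IsSepParam K x) (hb : IsSepParam k t) (s₀ : 𝒩.S) :
    {Q | Q ∈ G₂ 𝒩 ∧ ¬ HasFixParam₂ 𝒩 s₀ II Q}.Finite :=
  h.swapN.finite_bad₁ hx hb s₀

/-- **an `II`-fixed place in the fibre**: the unique zero of the `II`-fixed parameter
(`exists_unique_zero₁`, `r₁_smul`, `SemilinearAut.ord_smul`); same proof as `Rat.exists_place₁`. -/
theorem HasFixParam₁.exists_place {II : Set (SemilinearAut K F)}
    (hII : ∀ g ∈ II, IsCompat 𝒩 g 1) (hx : IsSepParam K x) (hb : IsSepParam k t) (s₀ : 𝒩.S)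
    {Q : Place k Fb} (hQ : Q ∈ G₁ 𝒩) (h : HasFixParam₁ 𝒩 s₀ II Q) :
    ∃ v : Place K F, r₁ 𝒩 s₀ v = Q ∧ ∀ g ∈ II, g • v = v := by
  obtain ⟨Tq, hfix, hT⟩ := h
  obtain ⟨v, hv, hv1, hv2⟩ := exists_unique_zero₁ hx hb s₀ hQ hT
  refine ⟨v, hv, fun g hg => ?_⟩
  by_contra hne
  have h1 := hv2 (g • v) (by rw [r₁_smul hx hb s₀ (hII g hg), hv]) hne
  have h2 := SemilinearAut.ord_smul g v Tq
  rw [hfix g hg, h1, hv1] at h2
  exact zero_ne_one h2

theorem HasFixParam₂.exists_place {II : Set (SemilinearAut K F)}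
    (hII : ∀ g ∈ II, IsCompat 𝒩 g 1) (hx : IsSepParam K x) (hb : IsSepParam k t) (s₀ : 𝒩.S)
    {Q : Place k Fb} (hQ : Q ∈ G₂ 𝒩) (h : HasFixParam₂ 𝒩 s₀ II Q) :
    ∃ v : Place K F, r₂ 𝒩 s₀ v = Q ∧ ∀ g ∈ II, g • v = v :=
  HasFixParam₁.exists_place (𝒩 := ND.swapN 𝒩) (fun g hg => isCompat_swapN (hII g hg)) hx hb s₀ hQ h

end Fermat.Agent.ND
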