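import Fermat.Agent.ND.Sec
import Fermat.Agent.ND.Class

/-!
# [ND-PUSH] push-forward of divisors of smooth type; Deuring's theorem
`red (L(D) ∩ O) = LL (r₁_* D) (r₂_* D)`
-/

set_option autoImplicit false

open AlgebraicCurve

namespace Fermat.Agent.ND

open Fermat.Agent.RED Fermat.Agent.S24 Fermat.Agent.SS

variable {K F k Fb : Type*} [Field K] [Field F] [Algebra K F] [Field k] [Field Fb] [Algebra k Fb]
variable {T : TwoRed K F k Fb}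

/-- the part of `r₁_* D` supported on the good points (`r₁` takes its values in
`G₁ ∪ {x₁ s₀}`) -/
noncomputable def push₁ (𝒩 : NodalData T) (s₀ : 𝒩.S) (D : Divisor K F) : Divisor k Fb :=
  (D.mapDomain (r₁ 𝒩 s₀)).erase (𝒩.x₁ s₀)

noncomputable def push₂ (𝒩 : NodalData T) (s₀ : 𝒩.S) (D : Divisor K F) : Divisor k Fb :=
  push₁ (swapN 𝒩) s₀ D

variable {𝒩 : NodalData T}

/-- `r₁` takes its values in `G₁ ∪ {x₁ s₀}` -/
theorem r₁_mem_or_eq (s₀ : 𝒩.S) (v : Place K F) : r₁ 𝒩 s₀ v ∈ G₁ 𝒩 ∨ r₁ 𝒩 s₀ v = 𝒩.x₁ s₀ := by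
  unfold r₁
  split_ifs with h
  · exact Or.inl h.choose_spec.1
  · exact Or.inr rfl

theorem push₁_apply (s₀ : 𝒩.S) (D : Divisor K F) {Q : Place k Fb} (hQ : Q ∈ G₁ 𝒩) :
    push₁ 𝒩 s₀ D Q = D.mapDomain (r₁ 𝒩 s₀) Q :=
  Finsupp.erase_ne (hQ s₀).symm

theorem push₂_apply (s₀ : 𝒩.S) (D : Divisor K F) {Q : Place k Fb} (hQ : Q ∈ G₂ 𝒩) :
    push₂ 𝒩 s₀ D Q = D.mapDomain (r₂ 𝒩 s₀) Q :=
  push₁_apply (𝒩 := swapN 𝒩) s₀ D hQ

/-- if `Q = x₁ s` is a node different from `x₁ s₀` no place is mapped to it by `r₁` -/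
theorem off₁_push₁ (s₀ : 𝒩.S) (D : Divisor K F) : Off₁ 𝒩 (push₁ 𝒩 s₀ D) := by
  intro s
  unfold push₁
  by_cases hs : 𝒩.x₁ s = 𝒩.x₁ s₀
  · rw [hs, Finsupp.erase_same]
  · rw [Finsupp.erase_ne hs]
    refine Finsupp.mapDomain_of_notMem_range _ _ ?_
    rintro ⟨v, hv⟩
    rcases r₁_mem_or_eq s₀ v with h | h
    · rw [hv] at h
      exact x₁_notMem_G₁ s h
    · exact hs (hv.symm.trans h)

theorem off₂_push₂ (s₀ : 𝒩.S) (D : Divisor K F) : Off₂ 𝒩 (push₂ 𝒩 s₀ D) :=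
  off₁_push₁ (𝒩 := swapN 𝒩) s₀ D

theorem push₁_add (s₀ : 𝒩.S) (D D' : Divisor K F) :
    push₁ 𝒩 s₀ (D + D') = push₁ 𝒩 s₀ D + push₁ 𝒩 s₀ D' := by
  unfold push₁
  rw [Finsupp.mapDomain_add, Finsupp.erase_add]

theorem push₂_add (s₀ : 𝒩.S) (D D' : Divisor K F) :
    push₂ 𝒩 s₀ (D + D') = push₂ 𝒩 s₀ D + push₂ 𝒩 s₀ D' :=
  push₁_add (𝒩 := swapN 𝒩) s₀ D D'

theorem push₁_zero (s₀ : 𝒩.S) : push₁ 𝒩 s₀ 0 = 0 := by
  unfold push₁
  rw [Finsupp.mapDomain_zero, Finsupp.erase_zero]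

theorem push₂_zero (s₀ : 𝒩.S) : push₂ 𝒩 s₀ 0 = 0 := push₁_zero (𝒩 := swapN 𝒩) s₀

theorem push₁_single_of_mem (s₀ : 𝒩.S) {v : Place K F} (hv : r₁ 𝒩 s₀ v ∈ G₁ 𝒩) (m : ℤ) :
    push₁ 𝒩 s₀ (Finsupp.single v m) = Finsupp.single (r₁ 𝒩 s₀ v) m := by
  unfold push₁
  rw [Finsupp.mapDomain_single, Finsupp.erase_single_ne (hv s₀)]

theorem push₁_single_of_notMem (s₀ : 𝒩.S) {v : Place K F} (hv : r₁ 𝒩 s₀ v ∉ G₁ 𝒩) (m : ℤ) :
    push₁ 𝒩 s₀ (Finsupp.single v m) = 0 := by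
  unfold push₁
  rw [Finsupp.mapDomain_single, (r₁_mem_or_eq s₀ v).resolve_left hv, Finsupp.erase_single]

theorem push₂_single_of_mem (s₀ : 𝒩.S) {v : Place K F} (hv : r₂ 𝒩 s₀ v ∈ G₂ 𝒩) (m : ℤ) :
    push₂ 𝒩 s₀ (Finsupp.single v m) = Finsupp.single (r₂ 𝒩 s₀ v) m :=
  push₁_single_of_mem (𝒩 := swapN 𝒩) s₀ hv m

theorem push₂_single_of_notMem (s₀ : 𝒩.S) {v : Place K F} (hv : r₂ 𝒩 s₀ v ∉ G₂ 𝒩) (m : ℤ) :
    push₂ 𝒩 s₀ (Finsupp.single v m) = 0 :=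
  push₁_single_of_notMem (𝒩 := swapN 𝒩) s₀ hv m

theorem smooth_swapN {v : Place K F} : Smooth (swapN 𝒩) v ↔ Smooth 𝒩 v := by
  constructor
  · rintro (h | h)
    · exact Or.inr h
    · exact Or.inl h
  · rintro (h | h)
    · exact Or.inr h
    · exact Or.inl h

variable [IsAlgClosed K] [IsAlgClosed k] {x : F} {t : Fb}

theorem degree_push_single (hx : IsSepParam K x) (hb : IsSepParam k t) (s₀ : 𝒩.S) {v : Place K F}
    (hv : Smooth 𝒩 v) (m : ℤ) :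
    Divisor.degree (push₁ 𝒩 s₀ (Finsupp.single v m)) +
      Divisor.degree (push₂ 𝒩 s₀ (Finsupp.single v m)) = m := by
  rcases (smooth_iff s₀).1 hv with h | h
  · have h2 : r₂ 𝒩 s₀ v ∉ G₂ 𝒩 := fun h2 => not_mem_G₁_and_mem_G₂ hx hb s₀ h h2
    rw [push₁_single_of_mem s₀ h, push₂_single_of_notMem s₀ h2, hb.degree_single, map_zero,
      add_zero]
  · have h1 : r₁ 𝒩 s₀ v ∉ G₁ 𝒩 := fun h1 => not_mem_G₁_and_mem_G₂ hx hb s₀ h1 h
    rw [push₂_single_of_mem s₀ h, push₁_single_of_notMem s₀ h1, hb.degree_single, map_zero,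
      zero_add]

theorem degree_push (hx : IsSepParam K x) (hb : IsSepParam k t) (s₀ : 𝒩.S) {D : Divisor K F}
    (hD : ∀ v, D v ≠ 0 → Smooth 𝒩 v) :
    Divisor.degree (push₁ 𝒩 s₀ D) + Divisor.degree (push₂ 𝒩 s₀ D) = Divisor.degree D := by
  classical
  induction D using Finsupp.induction with
  | zero => rw [push₁_zero, push₂_zero, map_zero, map_zero, add_zero]
  | single_add v m f hv hm ih =>
    have hfv : f v = 0 := Finsupp.notMem_support_iff.mp hv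
    have hfs : ∀ u, f u ≠ 0 → Smooth 𝒩 u := by
      intro u hu
      have huv : u ≠ v := by rintro rfl; exact hu hfv
      exact hD u (by rwa [Finsupp.add_apply, Finsupp.single_eq_of_ne huv, zero_add])
    have hsv : Smooth 𝒩 v :=
      hD v (by rwa [Finsupp.add_apply, Finsupp.single_eq_same, hfv, add_zero])
    have h1 := degree_push_single hx hb s₀ hsv m
    have h2 := ih hfs
    rw [push₁_add, push₂_add, map_add, map_add, map_add, hx.degree_single]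
    linarith

omit [IsAlgClosed K] [IsAlgClosed k] in
/-- an element of `L(D)`, `D` of smooth type, has no pole at the places of node type -/
theorem ord_nonneg_of_mem_L {D : Divisor K F} (hD : ∀ v, D v ≠ 0 → Smooth 𝒩 v) {w : F}
    (hw : w ∈ riemannRochSpace D) (v : Place K F) (hv : ¬ Smooth 𝒩 v) : 0 ≤ v.ord w := by
  rcases mem_L_iff.1 hw with rfl | h
  · rw [Place.ord_zero]
  · have h1 := h v
    have h2 : D v = 0 := by
      by_contra h2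
      exact hv (hD v h2)
    rwa [h2, add_zero] at h1

/-- the first component of the reduction -/
theorem red_fst_mem_L (hx : IsSepParam K x) (hb : IsSepParam k t) (s₀ : 𝒩.S) {D : Divisor K F}
    (hD : ∀ v, D v ≠ 0 → Smooth 𝒩 v) (w : T.O) (hw : (w : F) ∈ riemannRochSpace D) :
    (T.red w).1 ∈ riemannRochSpace (push₁ 𝒩 s₀ D) := by
  rw [mem_L_iff]
  by_cases h0 : (T.red w).1 = 0
  · exact Or.inl h0
  refine Or.inr fun Q => ?_
  by_cases hQ : Q ∈ G₁ 𝒩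
  · have hX : 𝒩.X 0 0 = 0 := by simp [NodalData.X]
    have hX₁ : 𝒩.X₁ 0 0 = 0 := by simp [NodalData.X₁]
    have := poleBound hx hb s₀ hQ D 0 0 ⟨w, w.2.1⟩ h0 (by rw [hX, add_zero]; exact hw)
    rw [hX₁, Finsupp.zero_apply] at this
    rw [push₁_apply s₀ D hQ]
    have e : (T.red w).1 = T.R₁.red ⟨w, w.2.1⟩ := rfl
    rw [e]
    omega
  · rw [mem_G₁] at hQ
    push Not at hQ
    obtain ⟨s, rfl⟩ := hQ
    obtain ⟨c, hc, -⟩ := glue_of_smooth_poles hx hb w (ord_nonneg_of_mem_L hD hw) s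
    rw [off₁_push₁ s₀ D s, add_zero]
    exact hc.ord_nonneg

theorem redSub_le (hx : IsSepParam K x) (hb : IsSepParam k t) (s₀ : 𝒩.S) {D : Divisor K F}
    (hD : ∀ v, D v ≠ 0 → Smooth 𝒩 v) :
    T.redSub (riemannRochSpace D) ≤ LL 𝒩 (push₁ 𝒩 s₀ D) (push₂ 𝒩 s₀ D) := by
  rintro _ ⟨w, hw, rfl⟩
  refine ⟨red_fst_mem_L hx hb s₀ hD w hw, ?_,
    glue_of_smooth_poles hx hb w (ord_nonneg_of_mem_L hD hw)⟩
  exact red_fst_mem_L (𝒩 := swapN 𝒩) hx hb s₀ (fun v hv => smooth_swapN.2 (hD v hv))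
    (toSwap T w) hw

theorem redSub_eq (hx : IsSepParam K x) (hb : IsSepParam k t) (s₀ : 𝒩.S) {n : ℕ}
    (hn : 𝒩.IsLarge n) {D : Divisor K F} (hD : ∀ v, D v ≠ 0 → Smooth 𝒩 v)
    (d₁ : (n : ℤ) ≤ Divisor.degree (push₁ 𝒩 s₀ D)) (d₂ : (n : ℤ) ≤ Divisor.degree (push₂ 𝒩 s₀ D)) :
    T.redSub (riemannRochSpace D) = LL 𝒩 (push₁ 𝒩 s₀ D) (push₂ 𝒩 s₀ D) := by
  have := hx.finite_L D
  have := finite_LL (𝒩 := 𝒩) hb (push₁ 𝒩 s₀ D) (push₂ 𝒩 s₀ D)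
  refine Submodule.eq_of_le_of_finrank_le (redSub_le hx hb s₀ hD) ?_
  have h1 := 𝒩.on2 (riemannRochSpace D) inferInstance
  have h2 := hx.riemann_inequality D
  have h3 := finrank_LL hb hn (off₁_push₁ s₀ D) (off₂_push₂ s₀ D) d₁ d₂
  have h4 := degree_push hx hb s₀ hD
  have h5 : (ell D : ℤ) ≤ Module.finrank k (T.redSub (riemannRochSpace D)) := by
    exact_mod_cast h1
  have : (Module.finrank k (LL 𝒩 (push₁ 𝒩 s₀ D) (push₂ 𝒩 s₀ D)) : ℤ) ≤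
      Module.finrank k (T.redSub (riemannRochSpace D)) := by
    rw [h3, h4]
    linarith
  exact_mod_cast this

end Fermat.Agent.ND
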