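import Fermat.Agent.ND.ParamD
import Fermat.Agent.ND.Push
import Fermat.Agent.ND.LLNS

/-!
# [ND-PKG] the package: all hypotheses of `SS.isPrincipal_of_torsion_multi` for `ι = Bool`

`false` = first component, `true` = second component.
-/

set_option autoImplicit false

open AlgebraicCurve

namespace Fermat.Agent.ND

open Fermat.Agent.RED Fermat.Agent.S24 Fermat.Agent.SS

variable {K F k Fb : Type*} [Field K] [Field F] [Algebra K F] [Field k] [Field Fb] [Algebra k Fb]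

/-- the two reductions as a family -/
def RD (T : TwoRed K F k Fb) (i : Bool) : RedData K F k Fb := bif i then T.R₂ else T.R₁

variable {T : TwoRed K F k Fb}

/-- the two specialisation maps as a family -/
noncomputable def rr (𝒩 : NodalData T) (s₀ : 𝒩.S) (i : Bool) : Place K F → Place k Fb :=
  bif i then r₂ 𝒩 s₀ else r₁ 𝒩 s₀

/-- the good points as a family -/
def GG (𝒩 : NodalData T) (i : Bool) : Set (Place k Fb) := bif i then G₂ 𝒩 else G₁ 𝒩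

variable {𝒩 : NodalData T}

theorem pkg_mem (i j : Bool) (c : K) (h : algebraMap K F c ∈ (RD T i).O) :
    algebraMap K F c ∈ (RD T j).O := by
  cases i <;> cases j
  · exact h
  · exact (T.const_mem c).1 h
  · exact (T.const_mem c).2 h
  · exact h

/-- `T.const_mem`, `T.const_red`, `RedData.red_const`; if `c ∉ A` both `rd` are `0` -/
theorem pkg_const (c : K) :
    ∃ e : k, ∀ i, rd (RD T i).O (RD T i).red (algebraMap K F c) = algebraMap k Fb e := by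
  by_cases h : algebraMap K F c ∈ T.R₁.O
  · have h2 : algebraMap K F c ∈ T.R₂.O := (T.const_mem c).1 h
    obtain ⟨a, ha⟩ := T.R₁.red_const c h
    refine ⟨a, fun i => ?_⟩
    cases i
    · show rd T.R₁.O T.R₁.red _ = _
      rw [rd_of_mem h, ha]
    · show rd T.R₂.O T.R₂.red _ = _
      rw [rd_of_mem h2, ← T.const_red c h h2, ha]
  · have h2 : algebraMap K F c ∉ T.R₂.O := fun h' => h ((T.const_mem c).2 h')
    refine ⟨0, fun i => ?_⟩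
    rw [map_zero]
    cases i
    · exact dif_neg h
    · exact dif_neg h2

theorem smooth_iff_rr (s₀ : 𝒩.S) {v : Place K F} :
    Smooth 𝒩 v ↔ ∃ i, rr 𝒩 s₀ i v ∈ GG 𝒩 i := by
  rw [smooth_iff s₀, Bool.exists_bool]
  rfl

variable [IsAlgClosed K] [IsAlgClosed k] {x : F} {t : Fb}

theorem pkg_isReductionOn (hx : IsSepParam K x) (hb : IsSepParam k t) (s₀ : 𝒩.S) (i : Bool) :
    IsReductionOn (RD T i).O (RD T i).red (rr 𝒩 s₀ i) (GG 𝒩 i) := by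
  cases i
  · exact isReductionOn₁ hx hb s₀
  · exact isReductionOn₂ hx hb s₀

theorem pkg_disj (hx : IsSepParam K x) (hb : IsSepParam k t) (s₀ : 𝒩.S) (i j : Bool)
    (v : Place K F) (hi : rr 𝒩 s₀ i v ∈ GG 𝒩 i) (hj : rr 𝒩 s₀ j v ∈ GG 𝒩 j) : i = j := by
  cases i <;> cases j
  · rfl
  · exact (not_mem_G₁_and_mem_G₂ hx hb s₀ hi hj).elim
  · exact (not_mem_G₁_and_mem_G₂ hx hb s₀ hj hi).elim
  · rfl

omit [IsAlgClosed k] in
/-- `hx.riemann_inequality` / `hx.exists_ne_zero_mem_L` -/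
theorem pkg_riemann (hx : IsSepParam K x) {g : ℕ} (hg : (g : ℤ) = gR K F) (D : Divisor K F)
    (hD : Divisor.degree D = g) : ∃ φ : F, φ ≠ 0 ∧ ∀ v : Place K F, 0 ≤ v.ord φ + D v := by
  obtain ⟨f, hf, hf0⟩ := hx.exists_ne_zero_mem_L (A := D) (by rw [hD, hg])
  exact ⟨f, hf0, (mem_L_iff_of_ne_zero hf0).1 hf⟩

theorem pkg_smul (hx : IsSepParam K x) (hb : IsSepParam k t) (s₀ : 𝒩.S) {g : SemilinearAut K F}
    (hg : IsCompat 𝒩 g 1) (i : Bool) (v : Place K F) : rr 𝒩 s₀ i (g • v) = rr 𝒩 s₀ i v := by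
  cases i
  · exact r₁_smul hx hb s₀ hg v
  · exact r₂_smul hx hb s₀ hg v

omit [IsAlgClosed K] [IsAlgClosed k] in
theorem sum_single_apply_of_mem {R : Finset (Place k Fb)} {v : Place k Fb} (hv : v ∈ R) :
    (∑ u ∈ R, Finsupp.single u (1 : ℤ)) v = 1 := by
  classical
  rw [Finsupp.finsetSum_apply, Finset.sum_eq_single v]
  · exact Finsupp.single_eq_same
  · intro u _ hu
    exact Finsupp.single_eq_of_ne (Ne.symm hu)
  · intro h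
    exact absurd hv h

open Classical in
/-- **`hns`**: non-speciality in the shape of `SS.isPrincipal_of_torsion_multi`.
`w ∈ T.O`; `hnode` + `smooth_iff_rr` : no pole at the places which are not of smooth type;
`red_mem_LL` with `E_i = ∑ Q ∈ B_i, single Q 1` (off the nodes: `off₁_sum_single` in `ND/Good.lean`;
`E_i Q = if Q ∈ B_i then 1 else 0`), `rd_of_mem`, `T.red_fst`, `T.red_snd`; then `hLL` and
`eq_const_of_mem_LL_zero`. -/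
theorem pkg_ns (hx : IsSepParam K x) (hb : IsSepParam k t) (s₀ : 𝒩.S) {κ : Type*}
    (s : κ → Bool) (Pt : κ → Place K F) (B₁ B₂ : Finset (Place k Fb))
    (hB₁G : ∀ Q ∈ B₁, Q ∈ G₁ 𝒩) (hB₂G : ∀ Q ∈ B₂, Q ∈ G₂ 𝒩)
    (hB₁ : ∀ a, s a = false → r₁ 𝒩 s₀ (Pt a) ∈ B₁) (hB₂ : ∀ a, s a = true → r₂ 𝒩 s₀ (Pt a) ∈ B₂)
    (hLL : LL 𝒩 (∑ Q ∈ B₁, Finsupp.single Q 1) (∑ Q ∈ B₂, Finsupp.single Q 1) = LL 𝒩 0 0)
    (w : F) (hw : ∀ i, w ∈ (RD T i).O)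
    (hnode : ∀ v : Place K F, (∀ i, rr 𝒩 s₀ i v ∉ GG 𝒩 i) → 0 ≤ v.ord w)
    (hpole : ∀ i, ∀ Q ∈ GG 𝒩 i, -(if ∃ a, s a = i ∧ rr 𝒩 s₀ i (Pt a) = Q then 1 else 0 : ℤ) ≤
        Q.ord (rd (RD T i).O (RD T i).red w)) :
    ∃ e : k, ∀ i, rd (RD T i).O (RD T i).red w = algebraMap k Fb e := by
  have hw₁ : w ∈ T.R₁.O := hw false
  have hw₂ : w ∈ T.R₂.O := hw true
  set wO : T.O := ⟨w, hw₁, hw₂⟩ with hwO
  have e₁ : rd T.R₁.O T.R₁.red w = (T.red wO).1 := rd_of_mem hw₁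
  have e₂ : rd T.R₂.O T.R₂.red w = (T.red wO).2 := rd_of_mem hw₂
  have hsm : ∀ v : Place K F, ¬ Smooth 𝒩 v → 0 ≤ v.ord (wO : F) := by
    intro v hv
    rw [smooth_iff_rr s₀] at hv
    push Not at hv
    exact hnode v hv
  have hmem : T.red wO ∈ LL 𝒩 (∑ Q ∈ B₁, Finsupp.single Q 1) (∑ Q ∈ B₂, Finsupp.single Q 1) := by
    refine red_mem_LL hx hb wO hsm (off₁_sum_single hB₁G) (off₂_sum_single hB₂G) ?_ ?_
    · intro Q hQ
      have h := hpole false Q hQ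
      change -(if ∃ a, s a = false ∧ r₁ 𝒩 s₀ (Pt a) = Q then 1 else 0 : ℤ) ≤
        Q.ord (rd T.R₁.O T.R₁.red w) at h
      rw [e₁] at h
      refine le_trans (neg_le_neg ?_) h
      split_ifs with hex
      · obtain ⟨a, ha, rfl⟩ := hex
        rw [sum_single_apply_of_mem (hB₁ a ha)]
      · exact sum_single_nonneg B₁ Q
    · intro Q hQ
      have h := hpole true Q hQ
      change -(if ∃ a, s a = true ∧ r₂ 𝒩 s₀ (Pt a) = Q then 1 else 0 : ℤ) ≤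
        Q.ord (rd T.R₂.O T.R₂.red w) at h
      rw [e₂] at h
      refine le_trans (neg_le_neg ?_) h
      split_ifs with hex
      · obtain ⟨a, ha, rfl⟩ := hex
        rw [sum_single_apply_of_mem (hB₂ a ha)]
      · exact sum_single_nonneg B₂ Q
  rw [hLL] at hmem
  obtain ⟨e, he⟩ := eq_const_of_mem_LL_zero hb s₀ hmem
  refine ⟨e, fun i => ?_⟩
  cases i
  · show rd T.R₁.O T.R₁.red w = _
    rw [e₁, he]
  · show rd T.R₂.O T.R₂.red w = _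
    rw [e₂, he]

open Classical in
/-- **the `II`-fixed non special chart.**
`exists_nonspecial` with `S₁ = S false ∪ {bad points of hf₁}`, `S₂ = S true ∪ {bad points of hf₂}`
gives `B₁`, `B₂` with `#B₁ + #B₂ = g`.  Enumerate `B₁ ⊔ B₂` by `Fin g`
(`Finset.equivFinOfCardEq` for `B₁.disjSum B₂`).  For every point choose an `II`-fixed parameter
(`HasFixParam₁/₂`) and an `II`-fixed place in the fibre (`HasFixParam₁.exists_place`).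
`P0`: one more good point of the first component with an `II`-fixed parameter, outside `B₁` and
`S false` (`G₁_diff_infinite` in `ND/Good.lean`).  `hns` is `pkg_ns`. -/
theorem exists_chart (hx : IsSepParam K x) (hb : IsSepParam k t) (s₀ : 𝒩.S)
    {II : Set (SemilinearAut K F)} (hII : ∀ g ∈ II, IsCompat 𝒩 g 1)
    (hf₁ : {Q | Q ∈ G₁ 𝒩 ∧ ¬ HasFixParam₁ 𝒩 s₀ II Q}.Finite)
    (hf₂ : {Q | Q ∈ G₂ 𝒩 ∧ ¬ HasFixParam₂ 𝒩 s₀ II Q}.Finite)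
    (S : Bool → Set (Place k Fb)) (hS : ∀ i, (S i).Finite) {g : ℕ} (hg : (g : ℤ) = gR K F) :
    ∃ (s : Fin g → Bool) (Pt : Fin g → Place K F) (Tt : Fin g → F) (P0 : Place K F),
      (∀ a, rr 𝒩 s₀ (s a) (Pt a) ∈ GG 𝒩 (s a)) ∧
      (∀ a, rr 𝒩 s₀ (s a) (Pt a) ∉ S (s a)) ∧
      (∀ a b, s a = s b → rr 𝒩 s₀ (s a) (Pt a) = rr 𝒩 s₀ (s a) (Pt b) → a = b) ∧
      (∀ a, IsLocalParam (RD T (s a)).O (RD T (s a)).red (rr 𝒩 s₀ (s a))
        (rr 𝒩 s₀ (s a) (Pt a)) (Tt a)) ∧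
      (∀ w : F, (∀ i, w ∈ (RD T i).O) →
        (∀ v : Place K F, (∀ i, rr 𝒩 s₀ i v ∉ GG 𝒩 i) → 0 ≤ v.ord w) →
        (∀ i, ∀ Q ∈ GG 𝒩 i, -(if ∃ a, s a = i ∧ rr 𝒩 s₀ i (Pt a) = Q then 1 else 0 : ℤ) ≤
          Q.ord (rd (RD T i).O (RD T i).red w)) →
        ∃ e : k, ∀ i, rd (RD T i).O (RD T i).red w = algebraMap k Fb e) ∧
      rr 𝒩 s₀ false P0 ∈ GG 𝒩 false ∧ rr 𝒩 s₀ false P0 ∉ S false ∧
      (∀ a, s a = false → rr 𝒩 s₀ false (Pt a) ≠ rr 𝒩 s₀ false P0) ∧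
      (∀ a, ∀ g ∈ II, g • Pt a = Pt a) ∧ (∀ a, ∀ g ∈ II, g • Tt a = Tt a) ∧
      (∀ g ∈ II, g • P0 = P0) := by
  obtain ⟨n, hn⟩ := 𝒩.exists_isLarge hx hb
  obtain ⟨B₁, B₂, hB₁, hB₂, hcard, hLL⟩ := exists_nonspecial hb hn s₀
    (S false ∪ {Q | Q ∈ G₁ 𝒩 ∧ ¬ HasFixParam₁ 𝒩 s₀ II Q})
    (S true ∪ {Q | Q ∈ G₂ 𝒩 ∧ ¬ HasFixParam₂ 𝒩 s₀ II Q})
    ((hS false).union hf₁) ((hS true).union hf₂) g hg.le
  -- the choices on the two components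
  have h1 : ∀ Q : B₁, ∃ (v : Place K F) (Tq : F), r₁ 𝒩 s₀ v = Q ∧ (∀ g ∈ II, g • v = v) ∧
      (∀ g ∈ II, g • Tq = Tq) ∧ IsLocalParam T.R₁.O T.R₁.red (r₁ 𝒩 s₀) (Q : Place k Fb) Tq := by
    intro Q
    obtain ⟨hG, hS'⟩ := hB₁ Q Q.2
    have hfp : HasFixParam₁ 𝒩 s₀ II Q := by
      by_contra hcon
      exact hS' (Or.inr ⟨hG, hcon⟩)
    obtain ⟨v, hv, hvf⟩ := hfp.exists_place hII hx hb s₀ hG
    obtain ⟨Tq, hT, hTl⟩ := hfp
    exact ⟨v, Tq, hv, hvf, hT, hTl⟩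
  have h2 : ∀ Q : B₂, ∃ (v : Place K F) (Tq : F), r₂ 𝒩 s₀ v = Q ∧ (∀ g ∈ II, g • v = v) ∧
      (∀ g ∈ II, g • Tq = Tq) ∧ IsLocalParam T.R₂.O T.R₂.red (r₂ 𝒩 s₀) (Q : Place k Fb) Tq := by
    intro Q
    obtain ⟨hG, hS'⟩ := hB₂ Q Q.2
    have hfp : HasFixParam₂ 𝒩 s₀ II Q := by
      by_contra hcon
      exact hS' (Or.inr ⟨hG, hcon⟩)
    obtain ⟨v, hv, hvf⟩ := hfp.exists_place hII hx hb s₀ hG
    obtain ⟨Tq, hT, hTl⟩ := hfp
    exact ⟨v, Tq, hv, hvf, hT, hTl⟩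
  choose v₁ t₁ hv₁ hv₁f ht₁f ht₁ using h1
  choose v₂ t₂ hv₂ hv₂f ht₂f ht₂ using h2
  -- the base point
  obtain ⟨Q0, hQ0G, hQ0⟩ := (G₁_diff_infinite (𝒩 := 𝒩) hb
    (((hS false).union hf₁).union B₁.finite_toSet)).nonempty
  have hfp0 : HasFixParam₁ 𝒩 s₀ II Q0 := by
    by_contra hcon
    exact hQ0 (Or.inl (Or.inr ⟨hQ0G, hcon⟩))
  obtain ⟨P0, hP0, hP0f⟩ := hfp0.exists_place hII hx hb s₀ hQ0G
  -- the enumeration
  have hc : Fintype.card (B₁ ⊕ B₂) = g := by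
    rw [Fintype.card_sum, Fintype.card_coe, Fintype.card_coe, hcard]
  let e : Fin g ≃ B₁ ⊕ B₂ := (Fintype.equivFinOfCardEq hc).symm
  let s' : B₁ ⊕ B₂ → Bool := Sum.elim (fun _ => false) (fun _ => true)
  let Pt' : B₁ ⊕ B₂ → Place K F := Sum.elim v₁ v₂
  let Tt' : B₁ ⊕ B₂ → F := Sum.elim t₁ t₂
  have hr : ∀ z : B₁ ⊕ B₂, rr 𝒩 s₀ (s' z) (Pt' z) = Sum.elim (fun Q : B₁ => (Q : Place k Fb))
      (fun Q : B₂ => (Q : Place k Fb)) z := by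
    rintro (Q | Q)
    · exact hv₁ Q
    · exact hv₂ Q
  have hA : ∀ z : B₁ ⊕ B₂, rr 𝒩 s₀ (s' z) (Pt' z) ∈ GG 𝒩 (s' z) := by
    rintro (Q | Q)
    · show r₁ 𝒩 s₀ (v₁ Q) ∈ G₁ 𝒩
      rw [hv₁]; exact (hB₁ Q Q.2).1
    · show r₂ 𝒩 s₀ (v₂ Q) ∈ G₂ 𝒩
      rw [hv₂]; exact (hB₂ Q Q.2).1
  have hB : ∀ z : B₁ ⊕ B₂, rr 𝒩 s₀ (s' z) (Pt' z) ∉ S (s' z) := by
    rintro (Q | Q)
    · show r₁ 𝒩 s₀ (v₁ Q) ∉ S false
      rw [hv₁]; exact fun h => (hB₁ Q Q.2).2 (Or.inl h)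
    · show r₂ 𝒩 s₀ (v₂ Q) ∉ S true
      rw [hv₂]; exact fun h => (hB₂ Q Q.2).2 (Or.inl h)
  have hC : ∀ z z' : B₁ ⊕ B₂, s' z = s' z' →
      rr 𝒩 s₀ (s' z) (Pt' z) = rr 𝒩 s₀ (s' z) (Pt' z') → z = z' := by
    rintro (Q | Q) (Q' | Q') hab h
    · have h' : r₁ 𝒩 s₀ (v₁ Q) = r₁ 𝒩 s₀ (v₁ Q') := h
      rw [hv₁, hv₁] at h'
      exact congrArg Sum.inl (Subtype.ext h')
    · exact absurd (show false = true from hab) (by decide)
    · exact absurd (show true = false from hab) (by decide)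
    · have h' : r₂ 𝒩 s₀ (v₂ Q) = r₂ 𝒩 s₀ (v₂ Q') := h
      rw [hv₂, hv₂] at h'
      exact congrArg Sum.inr (Subtype.ext h')
  have hD : ∀ z : B₁ ⊕ B₂, IsLocalParam (RD T (s' z)).O (RD T (s' z)).red (rr 𝒩 s₀ (s' z))
        (rr 𝒩 s₀ (s' z) (Pt' z)) (Tt' z) := by
    rintro (Q | Q)
    · show IsLocalParam T.R₁.O T.R₁.red (r₁ 𝒩 s₀) (r₁ 𝒩 s₀ (v₁ Q)) (t₁ Q)
      rw [hv₁]; exact ht₁ Q
    · show IsLocalParam T.R₂.O T.R₂.red (r₂ 𝒩 s₀) (r₂ 𝒩 s₀ (v₂ Q)) (t₂ Q)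
      rw [hv₂]; exact ht₂ Q
  have hE₁ : ∀ z : B₁ ⊕ B₂, s' z = false → rr 𝒩 s₀ false (Pt' z) ∈ B₁ := by
    rintro (Q | Q) h
    · show r₁ 𝒩 s₀ (v₁ Q) ∈ B₁
      rw [hv₁]; exact Q.2
    · exact absurd (show true = false from h) (by decide)
  have hE₂ : ∀ z : B₁ ⊕ B₂, s' z = true → rr 𝒩 s₀ true (Pt' z) ∈ B₂ := by
    rintro (Q | Q) h
    · exact absurd (show false = true from h) (by decide)
    · show r₂ 𝒩 s₀ (v₂ Q) ∈ B₂
      rw [hv₂]; exact Q.2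
  have hF : ∀ z : B₁ ⊕ B₂, ∀ g ∈ II, g • Pt' z = Pt' z := by
    rintro (Q | Q)
    · exact hv₁f Q
    · exact hv₂f Q
  have hG : ∀ z : B₁ ⊕ B₂, ∀ g ∈ II, g • Tt' z = Tt' z := by
    rintro (Q | Q)
    · exact ht₁f Q
    · exact ht₂f Q
  refine ⟨fun a => s' (e a), fun a => Pt' (e a), fun a => Tt' (e a), P0, fun a => hA (e a),
    fun a => hB (e a), fun a b hab h => e.injective (hC (e a) (e b) hab h), fun a => hD (e a),
    ?_, ?_, ?_, fun a ha => ?_, fun a => hF (e a), fun a => hG (e a), hP0f⟩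
  · intro w hw hnode hpole
    exact pkg_ns hx hb s₀ (fun a => s' (e a)) (fun a => Pt' (e a)) B₁ B₂
      (fun Q hQ => (hB₁ Q hQ).1) (fun Q hQ => (hB₂ Q hQ).1) (fun a => hE₁ (e a))
      (fun a => hE₂ (e a)) hLL w hw hnode (fun i Q hQ => by convert hpole i Q hQ)
  · show r₁ 𝒩 s₀ P0 ∈ G₁ 𝒩
    rw [hP0]; exact hQ0G
  · show r₁ 𝒩 s₀ P0 ∉ S false
    rw [hP0]; exact fun h => hQ0 (Or.inl (Or.inl h))
  · intro h
    have h1 := hE₁ (e a) ha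
    have h2 : rr 𝒩 s₀ false (Pt' (e a)) = Q0 := h.trans hP0
    rw [h2] at h1
    exact hQ0 (Or.inr h1)

end Fermat.Agent.ND
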