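import Fermat.Agent.ND.W
import Fermat.Agent.ND.LLDiv

/-!
# [ND-RED] reduction of a place to a good point of the special fibre

`RedTo₁ 𝒩 v Q` : "the place `v` of `F / K` reduces to the point `Q` of the first component":
every integral function with poles bounded by a chart divisor `X a b` which vanishes at `v` (as a
section of `O(X a b)`) has a reduction which vanishes at `Q` (as a section of `O(X₁ a b)`).

Notation in the proofs: `S(a,b) = W 0 a b = LL (X₁ a b) (X₂ a b)` (`W_zero_eq`),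
`W(-v) = W (-single v 1) a b`, `W(+v) = W (single v 1) a b`.
-/

set_option autoImplicit false

open AlgebraicCurve

namespace Fermat.Agent.ND

open Fermat.Agent.RED Fermat.Agent.S24 Fermat.Agent.SS

variable {K F k Fb : Type*} [Field K] [Field F] [Algebra K F] [Field k] [Field Fb] [Algebra k Fb]
variable {T : TwoRed K F k Fb} (𝒩 : NodalData T)

/-- the place `v` reduces to the point `Q` of the first component -/
def RedTo₁ (v : Place K F) (Q : Place k Fb) : Prop :=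
  ∀ a b : ℕ, 𝒩.W (-Finsupp.single v 1) a b ≤
    LL 𝒩 (𝒩.X₁ a b - Finsupp.single Q 1) (𝒩.X₂ a b)

/-- the place `v` reduces to the point `Q` of the second component -/
def RedTo₂ (v : Place K F) (Q : Place k Fb) : Prop := RedTo₁ (swapN 𝒩) v Q

/-- `v` is of smooth type: it reduces to a good point of one of the two components -/
def Smooth (v : Place K F) : Prop :=
  (∃ Q ∈ G₁ 𝒩, RedTo₁ 𝒩 v Q) ∨ (∃ Q ∈ G₂ 𝒩, RedTo₂ 𝒩 v Q)

open Classical in
/-- the specialisation map to the first component; junk value = the node `x₁ s₀` (which is not a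
good point) if `v` does not reduce to a good point of the first component. -/
noncomputable def r₁ (s₀ : 𝒩.S) (v : Place K F) : Place k Fb :=
  if h : ∃ Q, Q ∈ G₁ 𝒩 ∧ RedTo₁ 𝒩 v Q then h.choose else 𝒩.x₁ s₀

/-- the specialisation map to the second component -/
noncomputable def r₂ (s₀ : 𝒩.S) (v : Place K F) : Place k Fb := r₁ (swapN 𝒩) s₀ v

variable {𝒩}

theorem redTo₂_iff {v : Place K F} {Q : Place k Fb} :
    RedTo₂ 𝒩 v Q ↔ ∀ a b : ℕ, 𝒩.W (-Finsupp.single v 1) a b ≤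
      LL 𝒩 (𝒩.X₁ a b) (𝒩.X₂ a b - Finsupp.single Q 1) := by
  constructor
  · intro h a b w hw
    have := h a b ((mem_W_swapN 𝒩 (w := w.swap)).2 (by simpa using hw))
    simpa using (mem_LL_swapN 𝒩).1 this
  · intro h a b w hw
    exact (mem_LL_swapN 𝒩).2 (h a b ((mem_W_swapN 𝒩).1 hw))

variable [IsAlgClosed K] [IsAlgClosed k] {x : F} {t : Fb}

/-- (R1) **equality by dimension**: `finrank_W'` (`D = -v`, `hx.degree_single`) and `finrank_LL`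
(`E₁ = X₁ a b - Q`, of degree `≥ a + b - 1 ≥ n`), `NodalData.degree_X`, `finite_LL`,
`Submodule.eq_of_le_of_finrank_eq`. -/
theorem W_neg_eq (hx : IsSepParam K x) (hb : IsSepParam k t) {n : ℕ} (hn : 𝒩.IsLarge n)
    {a b : ℕ} (hab : n + 1 ≤ a + b) {v : Place K F} {Q : Place k Fb} (hQ : Q ∈ G₁ 𝒩)
    (h : 𝒩.W (-Finsupp.single v 1) a b ≤ LL 𝒩 (𝒩.X₁ a b - Finsupp.single Q 1) (𝒩.X₂ a b)) :
    𝒩.W (-Finsupp.single v 1) a b = LL 𝒩 (𝒩.X₁ a b - Finsupp.single Q 1) (𝒩.X₂ a b) := by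
  have := finite_LL (𝒩 := 𝒩) hb (𝒩.X₁ a b - Finsupp.single Q 1) (𝒩.X₂ a b)
  have hab' : (n : ℤ) + 1 ≤ ((a + b : ℕ) : ℤ) := by exact_mod_cast hab
  have l0 := 𝒩.le_degree_X a b
  have l1 := 𝒩.le_degree_X₁ a b
  have l2 := 𝒩.le_degree_X₂ a b
  refine Submodule.eq_of_le_of_finrank_eq h ?_
  have h1 := finrank_W' (𝒩 := 𝒩) hx hn (D := -Finsupp.single v 1) (a := a) (b := b)
    (by rw [map_add, map_neg, hx.degree_single]; linarith)
  have h2 := finrank_LL hb hn ((off₁_X₁ (𝒩 := 𝒩) a b).sub (off₁_single hQ 1))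
    (off₂_X₂ (𝒩 := 𝒩) a b) (by rw [map_sub, hb.degree_single]; linarith) (by linarith)
  have h3 := 𝒩.degree_X a b
  rw [map_neg, hx.degree_single] at h1
  rw [map_sub, hb.degree_single] at h2
  have : (Module.finrank k (𝒩.W (-Finsupp.single v 1) a b) : ℤ) =
      Module.finrank k (LL 𝒩 (𝒩.X₁ a b - Finsupp.single Q 1) (𝒩.X₂ a b)) := by
    rw [h1, h2, h3]; ring
  exact_mod_cast this

/-- (R2) **functions with a simple pole at `v`**.
`≤`: let `w ∈ W(+v) a b`.  For `z ∈ LL (X₁ a b - Q) (X₂ a b) = W(-v) a b` (R1) we have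
`w * z ∈ W (v - v) (a + a) (b + b) = W 0 .. ≤ LL (X₁ (a+a) (b+b)) (X₂ (a+a) (b+b))`
(`NodalData.mul_mem_W`, `W_zero_le`), so by `mem_LL_of_mul`
`w ∈ LL (X₁ (a+a) (b+b) - (X₁ a b - Q)) (X₂ (a+a) (b+b) - X₂ a b) = LL (X₁ a b + Q) (X₂ a b)`
(`NodalData.X₁_add`).  Equality: both sides have dimension `deg X + 2 - g`
(`finrank_W'`, `finrank_LL`). -/
theorem W_pos_eq (hx : IsSepParam K x) (hb : IsSepParam k t) {n : ℕ} (hn : 𝒩.IsLarge n)
    {a b : ℕ} (hab : n + 2 ≤ a + b) {v : Place K F} {Q : Place k Fb} (hQ : Q ∈ G₁ 𝒩)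
    (h : 𝒩.W (-Finsupp.single v 1) a b ≤ LL 𝒩 (𝒩.X₁ a b - Finsupp.single Q 1) (𝒩.X₂ a b)) :
    𝒩.W (Finsupp.single v 1) a b = LL 𝒩 (𝒩.X₁ a b + Finsupp.single Q 1) (𝒩.X₂ a b) := by
  have := finite_LL (𝒩 := 𝒩) hb (𝒩.X₁ a b + Finsupp.single Q 1) (𝒩.X₂ a b)
  have hab' : (n : ℤ) + 2 ≤ ((a + b : ℕ) : ℤ) := by exact_mod_cast hab
  have l0 := 𝒩.le_degree_X a b
  have l1 := 𝒩.le_degree_X₁ a b
  have l2 := 𝒩.le_degree_X₂ a b
  have hR1 := W_neg_eq hx hb hn (by omega) hQ h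
  have hle : 𝒩.W (Finsupp.single v 1) a b ≤
      LL 𝒩 (𝒩.X₁ a b + Finsupp.single Q 1) (𝒩.X₂ a b) := by
    intro w hw
    have h1 := mem_LL_of_mul hb hn ((off₁_X₁ (𝒩 := 𝒩) a b).sub (off₁_single hQ 1))
      (off₂_X₂ (𝒩 := 𝒩) a b) (off₁_X₁ (𝒩 := 𝒩) (a + a) (b + b))
      (off₂_X₂ (𝒩 := 𝒩) (a + a) (b + b)) (by rw [map_sub, hb.degree_single]; linarith)
      (by linarith) (u := w) (by
        intro z hz
        rw [← hR1] at hz
        have h2 := 𝒩.mul_mem_W hw hz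
        rw [add_neg_cancel] at h2
        exact W_zero_le _ _ h2)
    have e1 : 𝒩.X₁ (a + a) (b + b) - (𝒩.X₁ a b - Finsupp.single Q 1) =
        𝒩.X₁ a b + Finsupp.single Q 1 := by
      rw [𝒩.X₁_add]; abel
    have e2 : 𝒩.X₂ (a + a) (b + b) - 𝒩.X₂ a b = 𝒩.X₂ a b := by
      rw [𝒩.X₂_add]; abel
    rwa [e1, e2] at h1
  refine Submodule.eq_of_le_of_finrank_eq hle ?_
  have h1 := finrank_W' (𝒩 := 𝒩) hx hn (D := Finsupp.single v 1) (a := a) (b := b)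
    (by rw [map_add, hx.degree_single]; linarith)
  have h2 := finrank_LL hb hn ((off₁_X₁ (𝒩 := 𝒩) a b).add (off₁_single hQ 1))
    (off₂_X₂ (𝒩 := 𝒩) a b) (by rw [map_add, hb.degree_single]; linarith) (by linarith)
  have h3 := 𝒩.degree_X a b
  rw [hx.degree_single] at h1
  rw [map_add, hb.degree_single] at h2
  have : (Module.finrank k (𝒩.W (Finsupp.single v 1) a b) : ℤ) =
      Module.finrank k (LL 𝒩 (𝒩.X₁ a b + Finsupp.single Q 1) (𝒩.X₂ a b)) := by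
    rw [h1, h2, h3]; ring
  exact_mod_cast this

/-- (R3) **one large chart suffices.**
By (R2) and `exists_ord₁` there is `u ∈ W(+v) a b` with `u.1 ≠ 0`, `ord_Q u.1 = - X₁ a b Q - 1`.
Let `w ∈ W(-v) a' b'`; it lies in `LL (X₁ a' b') (X₂ a' b')` (`W_neg_le`).  If it were not in
`LL (X₁ a' b' - Q) (X₂ a' b')` then `w.1 ≠ 0`, `ord_Q w.1 = - X₁ a' b' Q` (`ord_eq_of_notMem₁`), and
`w * u ∈ W 0 (a' + a) (b' + b) ≤ LL (X₁ (a' + a) (b' + b)) ..` would have order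
`- X₁ (a' + a) (b' + b) Q - 1` at `Q`: contradiction with `mem_L_iff_of_ne_zero`. -/
theorem redTo₁_of_le (hx : IsSepParam K x) (hb : IsSepParam k t) {n : ℕ} (hn : 𝒩.IsLarge n)
    {a b : ℕ} (hab : n + 2 ≤ a + b) {v : Place K F} {Q : Place k Fb} (hQ : Q ∈ G₁ 𝒩)
    (h : 𝒩.W (-Finsupp.single v 1) a b ≤ LL 𝒩 (𝒩.X₁ a b - Finsupp.single Q 1) (𝒩.X₂ a b)) :
    RedTo₁ 𝒩 v Q := by
  have hab' : (n : ℤ) + 2 ≤ ((a + b : ℕ) : ℤ) := by exact_mod_cast hab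
  have l1 := 𝒩.le_degree_X₁ a b
  have l2 := 𝒩.le_degree_X₂ a b
  have hR2 := W_pos_eq hx hb hn hab hQ h
  obtain ⟨u, hu, hu0, huo⟩ := exists_ord₁ hb hn ((off₁_X₁ (𝒩 := 𝒩) a b).add (off₁_single hQ 1))
    (off₂_X₂ (𝒩 := 𝒩) a b) (by rw [map_add, hb.degree_single]; linarith) (by linarith) hQ
  rw [← hR2] at hu
  intro a' b' w hw
  by_contra hcon
  obtain ⟨hw0, hwo⟩ := ord_eq_of_notMem₁ (W_neg_le v a' b' hw) hcon
  have h1 := 𝒩.mul_mem_W hw hu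
  rw [neg_add_cancel] at h1
  have h2 := (W_zero_le _ _ h1).1
  have h3 : (w * u).1 = w.1 * u.1 := rfl
  rw [h3, mem_L_iff_of_ne_zero (mul_ne_zero hw0 hu0)] at h2
  have h4 := h2 Q
  rw [Q.ord_mul hw0 hu0, hwo, huo, 𝒩.X₁_add, Finsupp.add_apply, Finsupp.add_apply,
    Finsupp.single_eq_same] at h4
  omega

/-- (R3) for the second component (apply `redTo₁_of_le` to `swapN 𝒩`, with `mem_W_swapN`,
`mem_LL_swapN`, `isLarge_swapN`). -/
theorem redTo₂_of_le (hx : IsSepParam K x) (hb : IsSepParam k t) {n : ℕ} (hn : 𝒩.IsLarge n)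
    {a b : ℕ} (hab : n + 2 ≤ a + b) {v : Place K F} {Q : Place k Fb} (hQ : Q ∈ G₂ 𝒩)
    (h : 𝒩.W (-Finsupp.single v 1) a b ≤ LL 𝒩 (𝒩.X₁ a b) (𝒩.X₂ a b - Finsupp.single Q 1)) :
    RedTo₂ 𝒩 v Q := by
  refine redTo₁_of_le (𝒩 := swapN 𝒩) hx hb ((isLarge_swapN 𝒩).2 hn) hab hQ ?_
  intro w hw
  exact (mem_LL_swapN 𝒩).2 (h ((mem_W_swapN 𝒩).1 hw))

end Fermat.Agent.ND
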