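import Fermat.Agent.ND.P1

/-!
# [ND-SEC] integral functions without poles at the places of node type are glued at the nodes (D2)
-/

set_option autoImplicit false

open AlgebraicCurve

namespace Fermat.Agent.ND

open Fermat.Agent.RED Fermat.Agent.S24 Fermat.Agent.SS

variable {K F k Fb : Type*} [Field K] [Field F] [Algebra K F] [Field k] [Field Fb] [Algebra k Fb]
variable {T : TwoRed K F k Fb} {𝒩 : NodalData T}

/-- the statement proved by induction on `E` -/
def GlueAt (𝒩 : NodalData T) (s : 𝒩.S) (E : Divisor K F) : Prop :=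
  ∀ (a b : ℕ) (w : T.O), (w : F) ∈ riemannRochSpace (E + 𝒩.X a b) →
    ∃ c : k, HasVal (𝒩.x₁ s) (T.red w).1 c ∧ HasVal (𝒩.x₂ s) (T.red w).2 c

theorem glueAt_zero (s : 𝒩.S) : GlueAt 𝒩 s 0 := by
  intro a b w hw
  rw [zero_add] at hw
  exact 𝒩.glue a b w hw s

/-- division by a function with value `1` -/
theorem hasVal_of_mul_one {Q : Place k Fb} {u z : Fb} {c : k} (h : HasVal Q (u * z) c)
    (hz : HasVal Q z 1) : HasVal Q u c := by
  have hz0 : z ≠ 0 := hz.ne_zero one_ne_zero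
  have h1 := h.mul (hz.inv one_ne_zero)
  rwa [mul_assoc, mul_inv_cancel₀ hz0, mul_one, inv_one, mul_one] at h1

variable [IsAlgClosed K] [IsAlgClosed k] {x : F} {t : Fb}

theorem GlueAt.add_single (hx : IsSepParam K x) (hb : IsSepParam k t) {s : 𝒩.S}
    {E : Divisor K F} (h : GlueAt 𝒩 s E) {v : Place K F} (hv : Smooth 𝒩 v) :
    GlueAt 𝒩 s (E + Finsupp.single v 1) := by
  intro a b w hw
  obtain ⟨n, hn⟩ := 𝒩.exists_isLarge hx hb
  obtain ⟨h', hh', h1, h2⟩ := exists_node_one hx hb hn (a := n + 1) (b := 0) (by omega) hv s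
  have hmul : ((w * h' : T.O) : F) ∈ riemannRochSpace (E + 𝒩.X (a + (n + 1)) (b + 0)) := by
    have := mul_mem_L hw hh'
    have e : E + Finsupp.single v 1 + 𝒩.X a b + (-Finsupp.single v 1 + 𝒩.X (n + 1) 0) =
        E + 𝒩.X (a + (n + 1)) (b + 0) := by
      rw [𝒩.wsX_add]; abel
    rw [e] at this
    exact this
  obtain ⟨c, hc1, hc2⟩ := h _ _ _ hmul
  rw [map_mul] at hc1 hc2
  exact ⟨c, hasVal_of_mul_one hc1 h1, hasVal_of_mul_one hc2 h2⟩

theorem GlueAt.add_nsmul_single (hx : IsSepParam K x) (hb : IsSepParam k t) {s : 𝒩.S}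
    {E : Divisor K F} (h : GlueAt 𝒩 s E) {v : Place K F} (hv : Smooth 𝒩 v) (m : ℕ) :
    GlueAt 𝒩 s (E + Finsupp.single v (m : ℤ)) := by
  induction m with
  | zero => simpa using h
  | succ m ih =>
    have := ih.add_single hx hb hv
    rwa [add_assoc, ← Finsupp.single_add, ← Nat.cast_succ] at this

/-- induction on `E` (`Finsupp.induction` + induction on the coefficient) -/
theorem glueAt_of_smooth (hx : IsSepParam K x) (hb : IsSepParam k t) (s : 𝒩.S)
    {E : Divisor K F} (hE0 : 0 ≤ E) (hE : ∀ v, E v ≠ 0 → Smooth 𝒩 v) : GlueAt 𝒩 s E := by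
  classical
  induction E using Finsupp.induction with
  | zero => exact glueAt_zero s
  | single_add v m f hv hm ih =>
    have hfv : f v = 0 := Finsupp.notMem_support_iff.mp hv
    have hat : ∀ u, u ≠ v → (Finsupp.single v m + f) u = f u := by
      intro u hu
      rw [Finsupp.add_apply, Finsupp.single_eq_of_ne hu, zero_add]
    have hav : (Finsupp.single v m + f) v = m := by
      rw [Finsupp.add_apply, Finsupp.single_eq_same, hfv, add_zero]
    have hf0 : 0 ≤ f := by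
      intro u
      by_cases hu : u = v
      · rw [hu, hfv]; rfl
      · rw [← hat u hu]; exact hE0 u
    have hfs : ∀ u, f u ≠ 0 → Smooth 𝒩 u := by
      intro u hu
      have huv : u ≠ v := by rintro rfl; exact hu hfv
      exact hE u (by rwa [hat u huv])
    have hm0 : 0 ≤ m := by rw [← hav]; exact hE0 v
    have hsv : Smooth 𝒩 v := hE v (by rwa [hav])
    obtain ⟨m', rfl⟩ := Int.eq_ofNat_of_zero_le hm0
    rw [add_comm]
    exact (ih hf0 hfs).add_nsmul_single hx hb hsv m'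

theorem glue_of_smooth_poles (hx : IsSepParam K x) (hb : IsSepParam k t) (w : T.O)
    (hw : ∀ v : Place K F, ¬ Smooth 𝒩 v → 0 ≤ v.ord (w : F)) (s : 𝒩.S) :
    ∃ c : k, HasVal (𝒩.x₁ s) (T.red w).1 c ∧ HasVal (𝒩.x₂ s) (T.red w).2 c := by
  refine glueAt_of_smooth hx hb s (E := polarDiv K (w : F)) (polarDiv_nonneg _) ?_ 0 0 w ?_
  · intro v hv
    by_contra hns
    apply hv
    rw [hx.polarDiv_apply, max_eq_right (by have := hw v hns; omega)]
  · have : 𝒩.X 0 0 = 0 := by simp [NodalData.X]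
    rw [this, add_zero]
    exact hx.mem_L_polarDiv _

theorem red_mem_LL (hx : IsSepParam K x) (hb : IsSepParam k t) (w : T.O)
    (hw : ∀ v : Place K F, ¬ Smooth 𝒩 v → 0 ≤ v.ord (w : F)) {E₁ E₂ : Divisor k Fb}
    (hE₁ : Off₁ 𝒩 E₁) (hE₂ : Off₂ 𝒩 E₂) (h₁ : ∀ Q ∈ G₁ 𝒩, - E₁ Q ≤ Q.ord (T.red w).1)
    (h₂ : ∀ Q ∈ G₂ 𝒩, - E₂ Q ≤ Q.ord (T.red w).2) : T.red w ∈ LL 𝒩 E₁ E₂ := by
  have hg := glue_of_smooth_poles hx hb w hw
  refine ⟨?_, ?_, hg⟩
  · rw [mem_L_iff]
    refine Or.inr fun Q => ?_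
    by_cases hQ : Q ∈ G₁ 𝒩
    · have := h₁ Q hQ; omega
    · rw [mem_G₁] at hQ
      push Not at hQ
      obtain ⟨s, rfl⟩ := hQ
      obtain ⟨c, hc, -⟩ := hg s
      rw [hE₁ s, add_zero]
      exact hc.ord_nonneg
  · rw [mem_L_iff]
    refine Or.inr fun Q => ?_
    by_cases hQ : Q ∈ G₂ 𝒩
    · have := h₂ Q hQ; omega
    · rw [mem_G₂] at hQ
      push Not at hQ
      obtain ⟨s, rfl⟩ := hQ
      obtain ⟨c, -, hc⟩ := hg s
      rw [hE₂ s, add_zero]
      exact hc.ord_nonneg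

end Fermat.Agent.ND
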