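import Fermat.Agent.ND.LL

/-!
# [ND] nodal Deuring : exchanging the two components

`swapT T`, `swapN 𝒩` : the same data with the two components exchanged.  Every statement about the
first component gives the corresponding statement about the second component.
-/

set_option autoImplicit false

open AlgebraicCurve

namespace Fermat.Agent.ND

open Fermat.Agent.RED Fermat.Agent.S24 Fermat.Agent.SS

variable {K F k Fb : Type*} [Field K] [Field F] [Algebra K F] [Field k] [Field Fb] [Algebra k Fb]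

/-- exchange the two reductions -/
def swapT (T : TwoRed K F k Fb) : TwoRed K F k Fb where
  R₁ := T.R₂
  R₂ := T.R₁
  const_mem c := (T.const_mem c).symm
  const_red c h₁ h₂ := (T.const_red c h₂ h₁).symm
  joint_surj a b := by
    obtain ⟨u, h₁, h₂, e₁, e₂⟩ := T.joint_surj b a
    exact ⟨u, h₂, h₁, e₂, e₁⟩

variable (T : TwoRed K F k Fb)

@[simp] theorem swapT_R₁ : (swapT T).R₁ = T.R₂ := rfl

@[simp] theorem swapT_R₂ : (swapT T).R₂ = T.R₁ := rfl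

theorem mem_swapT_A {c : K} : c ∈ (swapT T).A ↔ c ∈ T.A := (T.const_mem c).symm

/-- `O₁ ∩ O₂ → O₂ ∩ O₁` -/
def toSwap (u : T.O) : (swapT T).O := ⟨u, u.2.2, u.2.1⟩

/-- `O₂ ∩ O₁ → O₁ ∩ O₂` -/
def ofSwap (u : (swapT T).O) : T.O := ⟨u, u.2.2, u.2.1⟩

@[simp] theorem coe_toSwap (u : T.O) : (toSwap T u : F) = u := rfl

@[simp] theorem coe_ofSwap (u : (swapT T).O) : (ofSwap T u : F) = u := rfl

theorem red_toSwap (u : T.O) : (swapT T).red (toSwap T u) = (T.red u).swap := rfl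

theorem red_ofSwap (u : (swapT T).O) : T.red (ofSwap T u) = ((swapT T).red u).swap := rfl

theorem mem_redSub_swapT {V : Submodule K F} {w : Fb × Fb} :
    w ∈ (swapT T).redSub V ↔ w.swap ∈ T.redSub V := by
  constructor
  · rintro ⟨u, hu, rfl⟩
    exact ⟨ofSwap T u, hu, red_ofSwap T u⟩
  · rintro ⟨u, hu, h⟩
    exact ⟨toSwap T u, hu, by rw [red_toSwap, h, Prod.swap_swap]⟩

theorem redSub_swapT (V : Submodule K F) :
    (swapT T).redSub V = (T.redSub V).map (LinearEquiv.prodComm k Fb Fb).toLinearMap := by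
  ext w
  rw [mem_redSub_swapT, Submodule.mem_map]
  constructor
  · intro h
    exact ⟨w.swap, h, by simp⟩
  · rintro ⟨z, hz, rfl⟩
    simpa using hz

theorem finrank_redSub_swapT (V : Submodule K F) :
    Module.finrank k ((swapT T).redSub V) = Module.finrank k (T.redSub V) := by
  rw [redSub_swapT]
  exact LinearEquiv.finrank_map_eq (LinearEquiv.prodComm k Fb Fb) _

variable {T}

/-- exchange the two components -/
def swapN (𝒩 : NodalData T) : NodalData (swapT T) where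
  P := 𝒩.P
  P' := 𝒩.P'
  P₁ := 𝒩.P₂
  P₂ := 𝒩.P₁
  P₁' := 𝒩.P₂'
  P₂' := 𝒩.P₁'
  P_nonneg := 𝒩.P_nonneg
  P'_nonneg := 𝒩.P'_nonneg
  P₁_nonneg := 𝒩.P₂_nonneg
  P₂_nonneg := 𝒩.P₁_nonneg
  P₁'_nonneg := 𝒩.P₂'_nonneg
  P₂'_nonneg := 𝒩.P₁'_nonneg
  disj := 𝒩.disj
  disj₁ := 𝒩.disj₂
  disj₂ := 𝒩.disj₁
  deg_P := by rw [𝒩.deg_P, add_comm]
  deg_P' := by rw [𝒩.deg_P', add_comm]
  deg_P₁ := 𝒩.deg_P₂
  deg_P₂ := 𝒩.deg_P₁
  deg_P₁' := 𝒩.deg_P₂'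
  deg_P₂' := 𝒩.deg_P₁'
  pole a b u hu := ⟨(𝒩.pole a b (ofSwap T u) hu).2, (𝒩.pole a b (ofSwap T u) hu).1⟩
  S := 𝒩.S
  fin := 𝒩.fin
  x₁ := 𝒩.x₂
  x₂ := 𝒩.x₁
  x₁_inj := 𝒩.x₂_inj
  x₂_inj := 𝒩.x₁_inj
  avoid₁ := 𝒩.avoid₂
  avoid₂ := 𝒩.avoid₁
  glue a b u hu s := by
    obtain ⟨c, h1, h2⟩ := 𝒩.glue a b (ofSwap T u) hu s
    exact ⟨c, h2, h1⟩
  card := 𝒩.card
  on2 V hV := by
    rw [finrank_redSub_swapT]
    exact 𝒩.on2 V hV
  arch π c hc hπ hπ' := by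
    obtain ⟨n, hn⟩ := 𝒩.arch π c hc ((mem_swapT_A T).1 hπ) (fun h => hπ' ((mem_swapT_A T).2 h))
    exact ⟨n, (mem_swapT_A T).2 hn⟩

variable (𝒩 : NodalData T)

@[simp] theorem swapN_X (a b : ℕ) : (swapN 𝒩).X a b = 𝒩.X a b := rfl

@[simp] theorem swapN_X₁ (a b : ℕ) : (swapN 𝒩).X₁ a b = 𝒩.X₂ a b := rfl

@[simp] theorem swapN_X₂ (a b : ℕ) : (swapN 𝒩).X₂ a b = 𝒩.X₁ a b := rfl

theorem G₁_swapN : G₁ (swapN 𝒩) = G₂ 𝒩 := rfl

theorem G₂_swapN : G₂ (swapN 𝒩) = G₁ 𝒩 := rfl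

theorem off₁_swapN {E : Divisor k Fb} : Off₁ (swapN 𝒩) E ↔ Off₂ 𝒩 E := Iff.rfl

theorem off₂_swapN {E : Divisor k Fb} : Off₂ (swapN 𝒩) E ↔ Off₁ 𝒩 E := Iff.rfl

theorem mem_LL_swapN {E₁ E₂ : Divisor k Fb} {w : Fb × Fb} :
    w ∈ LL (swapN 𝒩) E₁ E₂ ↔ w.swap ∈ LL 𝒩 E₂ E₁ := by
  constructor
  · rintro ⟨h1, h2, h3⟩
    exact ⟨h2, h1, fun s => by obtain ⟨c, hc1, hc2⟩ := h3 s; exact ⟨c, hc2, hc1⟩⟩
  · rintro ⟨h1, h2, h3⟩
    exact ⟨h2, h1, fun s => by obtain ⟨c, hc1, hc2⟩ := h3 s; exact ⟨c, hc2, hc1⟩⟩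

theorem LL_swapN (E₁ E₂ : Divisor k Fb) :
    LL (swapN 𝒩) E₁ E₂ = (LL 𝒩 E₂ E₁).map (LinearEquiv.prodComm k Fb Fb).toLinearMap := by
  ext w
  rw [mem_LL_swapN, Submodule.mem_map]
  constructor
  · intro h
    exact ⟨w.swap, h, by simp⟩
  · rintro ⟨z, hz, rfl⟩
    simpa using hz

theorem finrank_LL_swapN (E₁ E₂ : Divisor k Fb) :
    Module.finrank k (LL (swapN 𝒩) E₁ E₂) = Module.finrank k (LL 𝒩 E₂ E₁) := by
  rw [LL_swapN]
  exact LinearEquiv.finrank_map_eq (LinearEquiv.prodComm k Fb Fb) _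

theorem mem_W_swapN {D : Divisor K F} {a b : ℕ} {w : Fb × Fb} :
    w ∈ (swapN 𝒩).W D a b ↔ w.swap ∈ 𝒩.W D a b :=
  mem_redSub_swapT T

theorem isLarge_swapN {n : ℕ} : (swapN 𝒩).IsLarge n ↔ 𝒩.IsLarge n := Iff.rfl

end Fermat.Agent.ND
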