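import Fermat.Agent.ND.LLGen
import Fermat.Agent.SS.Abs.Inj

/-!
# [ND-W] the reductions `W D a b = red (L(D + a P + b P') ∩ O)` : generalities
-/

set_option autoImplicit false

open AlgebraicCurve

namespace Fermat.Agent.ND

open Fermat.Agent.RED Fermat.Agent.S24 Fermat.Agent.SS

variable {K F k Fb : Type*} [Field K] [Field F] [Algebra K F] [Field k] [Field Fb] [Algebra k Fb]
variable {T : TwoRed K F k Fb} {𝒩 : NodalData T}

theorem mem_W {D : Divisor K F} {a b : ℕ} {w : Fb × Fb} :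
    w ∈ 𝒩.W D a b ↔ ∃ u : T.O, (u : F) ∈ riemannRochSpace (D + 𝒩.X a b) ∧ T.red u = w := Iff.rfl

/-- `L_mono` -/
theorem W_mono_D {D D' : Divisor K F} (h : D ≤ D') (a b : ℕ) : 𝒩.W D a b ≤ 𝒩.W D' a b := by
  rintro _ ⟨u, hu, rfl⟩
  exact ⟨u, L_mono (add_le_add_left h _) hu, rfl⟩

/-- `𝒩.pole` and `𝒩.glue` -/
theorem W_zero_le (a b : ℕ) : 𝒩.W 0 a b ≤ LL 𝒩 (𝒩.X₁ a b) (𝒩.X₂ a b) := by
  rintro _ ⟨u, hu, rfl⟩
  rw [zero_add] at hu
  exact ⟨(𝒩.pole a b u hu).1, (𝒩.pole a b u hu).2, 𝒩.glue a b u hu⟩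

theorem neg_single_le_zero (v : Place K F) : -(Finsupp.single v 1 : Divisor K F) ≤ 0 := by
  classical
  rw [neg_nonpos]
  intro w
  rw [Finsupp.single_apply]
  split_ifs <;> simp

theorem W_neg_le (v : Place K F) (a b : ℕ) :
    𝒩.W (-Finsupp.single v 1) a b ≤ LL 𝒩 (𝒩.X₁ a b) (𝒩.X₂ a b) :=
  (W_mono_D (neg_single_le_zero v) a b).trans (W_zero_le a b)

variable [IsAlgClosed K] {x : F}

theorem finite_W (hx : IsSepParam K x) (D : Divisor K F) (a b : ℕ) :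
    FiniteDimensional k (𝒩.W D a b) :=
  have := hx.finite_L (D + 𝒩.X a b)
  T.finite_redSub _

/-- `𝒩.on2` and `T.finrank_redSub_le` give `dim W = ℓ(D + X)`, then `hn.1`.
Same proof as `NodalData.finrank_W`. -/
theorem finrank_W' (hx : IsSepParam K x) {n : ℕ} (hn : 𝒩.IsLarge n) {D : Divisor K F} {a b : ℕ}
    (hD : (n : ℤ) ≤ Divisor.degree (D + 𝒩.X a b)) :
    (Module.finrank k (𝒩.W D a b) : ℤ) =
      Divisor.degree D + Divisor.degree (𝒩.X a b) + 1 - gR K F := by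
  have : FiniteDimensional K (riemannRochSpace (D + 𝒩.X a b)) := hx.finite_L _
  have h1 := T.finrank_redSub_le (riemannRochSpace (D + 𝒩.X a b))
  have h2 := 𝒩.on2 (riemannRochSpace (D + 𝒩.X a b)) inferInstance
  have h3 : Module.finrank k (𝒩.W D a b) = Module.finrank K (riemannRochSpace (D + 𝒩.X a b)) :=
    le_antisymm h1 h2
  rw [h3, hn.1 (D + 𝒩.X a b) hD, map_add]

variable [IsAlgClosed k] {t : Fb}

/-- `W_zero_le` + equality of dimensions (`finrank_W'` with `D = 0`, `finrank_LL`,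
`NodalData.degree_X`, `le_degree_X`, `le_degree_X₁`, `le_degree_X₂`), `finite_LL`,
`Submodule.eq_of_le_of_finrank_eq`.  (Or: `NodalData.exists_zeta_aux` with `m = 1`, `f = 1`.) -/
theorem W_zero_eq (hx : IsSepParam K x) (hb : IsSepParam k t) {n : ℕ} (hn : 𝒩.IsLarge n)
    {a b : ℕ} (hab : n ≤ a + b) : 𝒩.W 0 a b = LL 𝒩 (𝒩.X₁ a b) (𝒩.X₂ a b) := by
  have := finite_LL (𝒩 := 𝒩) hb (𝒩.X₁ a b) (𝒩.X₂ a b)
  have hab' : (n : ℤ) ≤ ((a + b : ℕ) : ℤ) := by exact_mod_cast hab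
  refine Submodule.eq_of_le_of_finrank_eq (W_zero_le a b) ?_
  have h1 := finrank_W' (𝒩 := 𝒩) hx hn (D := 0) (a := a) (b := b)
    (by rw [zero_add]; exact hab'.trans (𝒩.le_degree_X a b))
  have h2 := finrank_LL hb hn (off₁_X₁ (𝒩 := 𝒩) a b) (off₂_X₂ (𝒩 := 𝒩) a b)
    (hab'.trans (𝒩.le_degree_X₁ a b)) (hab'.trans (𝒩.le_degree_X₂ a b))
  have h3 := 𝒩.degree_X a b
  rw [map_zero] at h1
  have : (Module.finrank k (𝒩.W 0 a b) : ℤ) =
      Module.finrank k (LL 𝒩 (𝒩.X₁ a b) (𝒩.X₂ a b)) := by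
    rw [h1, h2, h3]; ring
  exact_mod_cast this

/-- lifting of glued sections -/
theorem exists_lift (hx : IsSepParam K x) (hb : IsSepParam k t) {n : ℕ} (hn : 𝒩.IsLarge n)
    {a b : ℕ} (hab : n ≤ a + b) {w : Fb × Fb} (hw : w ∈ LL 𝒩 (𝒩.X₁ a b) (𝒩.X₂ a b)) :
    ∃ u : T.O, (u : F) ∈ riemannRochSpace (𝒩.X a b) ∧ T.red u = w := by
  rw [← W_zero_eq hx hb hn hab] at hw
  obtain ⟨u, hu, rfl⟩ := hw
  exact ⟨u, by rwa [zero_add] at hu, rfl⟩

/-- The special fibre is connected: there is at least one node (`SS/Abs/Inj.lean`, [CONN0]). -/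
theorem exists_node (hx : IsSepParam K x) (hb : IsSepParam k t) : Nonempty 𝒩.S :=
  𝒩.nonempty_S hx hb

end Fermat.Agent.ND
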